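import Fermat.Agent.Eisenstein.Primitive

/-!
# The series of `Δ`, and criteria for forms of prime level

Main results: `qexp_discriminant`, `mem_modFun_of`, `lev_twelve_cusp`.
-/

set_option autoImplicit false

noncomputable section

namespace Fermat.Agent.Eisenstein

open UpperHalfPlane CongruenceSubgroup ModularGroup ModularForm Fermat.Agent.Period
  Fermat.Agent.MCurve Filter Topology
open scoped MatrixGroups ModularForm Manifold Real

local notation "Δ" => ModularForm.discriminant
local notation "𝕢" => Function.Periodic.qParam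

/-- `∏ (1 - q ^ n) ^ 24` over `ℤ`. -/
def etaPow : PowerSeries ℤ := ModularCurve.etaProd ^ 24

/-- The series of `Δ` over `ℤ`. -/
def deltaSer : PowerSeries ℤ := PowerSeries.X * etaPow

lemma constantCoeff_etaPow : PowerSeries.constantCoeff etaPow = 1 := by
  simp [etaPow, ModularCurve.constantCoeff_etaProd]

lemma coeff_deltaSer_zero : deltaSer.coeff 0 = 0 := by simp [deltaSer]

lemma coeff_deltaSer_one : deltaSer.coeff 1 = 1 := by
  simp [deltaSer, PowerSeries.coeff_succ_X_mul, constantCoeff_etaPow]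

/-- The map to complex series. -/
abbrev toC : PowerSeries ℤ →+* PowerSeries ℂ := PowerSeries.map (Int.castRingHom ℂ)

lemma toC_injective : Function.Injective toC :=
  PowerSeries.map_injective _ Int.cast_injective

lemma qexp_etaPow : QExp 1 (fun z : ℍ => etaFn (𝕢 1 (z : ℂ)) ^ 24) (toC etaPow) := by
  rw [toC, etaPow, map_pow]
  exact qExp_etaFn.pow 24

lemma qexp_discriminant : QExp 1 Δ (toC deltaSer) := by
  rw [deltaSer, map_mul, show toC PowerSeries.X = PowerSeries.X ^ 1 by simp]
  exact ((QExp.qParam_pow 1).mul qexp_etaPow).congr fun z => by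
    simp [discriminant_eq_qParam_mul]

variable {p : ℕ} [Fact p.Prime]

/-- Membership needs only the two cusps. -/
lemma mem_modFun_of {k : ℤ} {f : ℍ → ℂ} (hhol : MDifferentiable 𝓘(ℂ) 𝓘(ℂ) f)
    (hinv : ∀ γ ∈ Gamma0 p, f ∣[k] γ = f) (hinf : IsBoundedAtImInfty f)
    (hzero : IsBoundedAtImInfty (f ∣[k] (S : SL(2, ℤ)))) : f ∈ modFun (Gamma0 p) k := by
  refine ⟨hhol, hinv, fun δ => ?_⟩
  obtain ⟨i, hi⟩ := (cosetMap_bijective p).2 (cosetOf p δ)
  cases i with
  | none =>
    have hδ : δ ∈ Gamma0 p := by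
      rw [cosetMap, baseCoset_eq, cosetOf, cosetOf, QuotientGroup.eq] at hi
      simpa using hi
    rwa [hinv δ hδ]
  | some j =>
    have hδ : stMat (j.val : ℤ) * δ⁻¹ ∈ Gamma0 p := by
      rw [cosetMap, cosetOf, cosetOf, QuotientGroup.eq] at hi
      simpa using hi
    have h2 : δ = (stMat (j.val : ℤ) * δ⁻¹)⁻¹ * stMat (j.val : ℤ) := by group
    rw [h2, SlashAction.slash_mul, hinv _ ((Gamma0 p).inv_mem hδ), stMat, SlashAction.slash_mul,
      ModularForm.SL_slash]
    refine hzero.slash _ ?_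
    have h10 : ((T ^ (j.val : ℤ) : SL(2, ℤ)) 1 0) = 0 := by rw [coe_T_zpow]; rfl
    show ((((T ^ (j.val : ℤ) : SL(2, ℤ)) 1 0) : ℤ) : ℝ) = 0
    rw [h10, Int.cast_zero]

omit [Fact p.Prime] in
/-- A level one cusp form of weight twelve is a multiple of `Δ`. -/
lemma lev_twelve_cusp {g : ℍ → ℂ} (hg : g ∈ lev 12) {s : PowerSeries ℂ} (hs : QExp 1 g s)
    (h0 : s.coeff 0 = 0) : ∃ b : ℂ, s = PowerSeries.C b * toC deltaSer := by
  have hb : IsBoundedAtImInfty g := modFun_bdd hg
  have ht := tendsto_of_qexp one_pos (lev_periodic hg) hg.1 hb hs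
  rw [h0] at ht
  have h1 : (fun τ => g τ / Δ τ) ∈ lev (12 - 12) := div_discriminant_mem hg fun δ => by
    rw [lev.slash_eq hg δ]
    exact isBounded_div_discriminant (lev_periodic hg) hg.1 ht
  obtain ⟨b, hb'⟩ := lev_weight_zero (modFun_weight (by norm_num) h1)
  refine ⟨b, hs.unique one_pos ((qexp_discriminant.const_mul b).congr fun τ => ?_)⟩
  have := congrFun hb' τ
  rw [← this, div_mul_cancel₀ _ (discriminant_ne_zero τ)]

end Fermat.Agent.Eisenstein
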