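import Fermat.Agent.Eisenstein.LocalTwoThree

/-!
# The local obstruction at three

Main result: `not_congr_three`.
-/

set_option autoImplicit false

noncomputable section

namespace Fermat.Agent.Eisenstein

open UpperHalfPlane CongruenceSubgroup ModularGroup ModularForm EisensteinSeries Fermat.Agent.Period
  Fermat.Agent.MCurve
open scoped MatrixGroups ModularForm Manifold

local notation "Δ" => ModularForm.discriminant

lemma ofNat_series_ne_zero (n : ℕ) [n.AtLeastTwo] :
    (OfNat.ofNat n : PowerSeries ℤ) ≠ 0 := by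
  rw [← map_ofNat (PowerSeries.C (R := ℤ)), Ne, map_eq_zero_iff _ PowerSeries.C_injective]
  exact OfNat.ofNat_ne_zero n

lemma deltaSer_rel : 1728 * deltaSer = e4Ser ^ 3 - e6Ser ^ 2 := by
  refine toC_injective ?_
  have h1 : QExp 1 (fun z => (1728 : ℂ) * Δ z) (toC (1728 * deltaSer)) := by
    rw [map_mul, map_ofNat, show (1728 : PowerSeries ℂ) = PowerSeries.C (1728 : ℂ) from
      (map_ofNat _ _).symm]
    exact qexp_discriminant.const_mul _
  have h2 : QExp 1 (fun z => (1728 : ℂ) * Δ z) (toC (e4Ser ^ 3 - e6Ser ^ 2)) := by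
    rw [map_sub, map_pow, map_pow]
    exact (qexp_sub (qexp_E4.pow 3) (qexp_E6.pow 2)).congr fun z => by
      simp [← E4_cube_sub_E6_sq z]
  exact h1.unique one_pos h2

/-- The series of the weight eight Eisenstein series. -/
def e8Ser : PowerSeries ℤ := 1 + 480 * sigmaSer 7

lemma e8Ser_eq : e8Ser = e4Ser ^ 2 := by
  set F : ℍ → ℂ := ⇑(ModularForm.E (k := 8) (by norm_num)) with hF
  have hFm : F ∈ lev 8 := modFun_weight (by norm_num) (levelOne_mem_lev _)
  have hFq : QExp 1 F (toC e8Ser) := by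
    have h := qexp_of_periodic one_pos (lev_periodic hFm) hFm.1 (modFun_bdd hFm)
    convert h using 1
    ext m
    rw [hF, PowerSeries.coeff_map, e8Ser, map_add, PowerSeries.coeff_one,
      show (480 : PowerSeries ℤ) = PowerSeries.C (480 : ℤ) from (map_ofNat _ 480).symm,
      PowerSeries.coeff_C_mul, sigmaSer, PowerSeries.coeff_mk, eq_intCast,
      E_qExpansion_coeff (by norm_num) ⟨4, rfl⟩, show bernoulli 8 = -1 / 30 by decide +kernel]
    split_ifs <;> push_cast <;> ring
  have h4 : (E₄ : ℍ → ℂ) ^ 2 ∈ lev 8 := modFun_weight (by norm_num) (modFun_pow E4_mem 2)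
  have hq : QExp 1 (F - (E₄ : ℍ → ℂ) ^ 2) (toC (e8Ser - e4Ser ^ 2)) := by
    rw [map_sub, map_pow]
    exact qexp_sub hFq (qexp_E4.pow 2)
  have h0 : (toC (e8Ser - e4Ser ^ 2)).coeff 0 = 0 := by
    have h7 : PowerSeries.constantCoeff (sigmaSer 7) = 0 := by
      rw [← PowerSeries.coeff_zero_eq_constantCoeff_apply, sigmaSer, PowerSeries.coeff_mk, if_pos rfl]
    rw [PowerSeries.coeff_map, PowerSeries.coeff_zero_eq_constantCoeff_apply, map_sub, map_pow,
      constantCoeff_e4Ser]
    simp [e8Ser, h7]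
  have hz := lev_cusp_eq_zero (Or.inl (by norm_num)) (sub_mem hFm h4) hq h0
  rw [hz] at hq
  have := QExp.zero.unique one_pos hq
  rw [eq_comm, ← map_zero toC] at this
  exact sub_eq_zero.mp (toC_injective this)

lemma sigma_mod_nine (n : ℕ) :
    (7 * (ArithmeticFunction.sigma 3 n : ℕ) + 4 * (ArithmeticFunction.sigma 5 n : ℕ)
      + (ArithmeticFunction.sigma 7 n : ℕ) : ZMod 9) = 3 * (ArithmeticFunction.sigma 1 n : ℕ) := by
  simp only [ArithmeticFunction.sigma_apply, Nat.cast_sum, Finset.mul_sum,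
    ← Finset.sum_add_distrib, Nat.cast_pow]
  refine Finset.sum_congr rfl fun d _ => ?_
  generalize ((d : ℕ) : ZMod 9) = x
  revert x
  decide

/-- `S = S ^ 3 + Δ` modulo three. -/
lemma sigma_delta_mod_three :
    (sigmaSer 1).map (Int.castRingHom (ZMod 3)) =
      (sigmaSer 1).map (Int.castRingHom (ZMod 3)) ^ 3
        + deltaSer.map (Int.castRingHom (ZMod 3)) := by
  have e1 : 192 * deltaSer = 80 * sigmaSer 3 + 19200 * sigmaSer 3 ^ 2
      + 1536000 * sigmaSer 3 ^ 3 + 112 * sigmaSer 5 - 28224 * sigmaSer 5 ^ 2 := by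
    have h := deltaSer_rel
    rw [e4Ser_eq, e6Ser_eq] at h
    refine mul_left_cancel₀ (ofNat_series_ne_zero 9) ?_
    linear_combination h
  have e2 : sigmaSer 7 = sigmaSer 3 + 120 * sigmaSer 3 ^ 2 := by
    have h := e8Ser_eq
    rw [e8Ser, e4Ser_eq] at h
    refine mul_left_cancel₀ (ofNat_series_ne_zero 480) ?_
    linear_combination h
  have e3 : (3 * deltaSer - (3 * sigmaSer 1 + 6 * sigmaSer 3 ^ 3)).map
      (Int.castRingHom (ZMod 9)) = 0 := by
    set φ := PowerSeries.map (Int.castRingHom (ZMod 9)) with hφ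
    have hn : ∀ m k : ℕ, (m : ZMod 9) = k → (m : PowerSeries (ZMod 9)) = (k : PowerSeries (ZMod 9)) :=
      fun m k h => by
        rw [← map_natCast (PowerSeries.C (R := ZMod 9)), h, map_natCast]
    have hlin : 7 * φ (sigmaSer 3) + 4 * φ (sigmaSer 5) + φ (sigmaSer 7)
        = 3 * φ (sigmaSer 1) := by
      ext n
      have h := sigma_mod_nine n
      simp only [map_add, hφ, ← map_ofNat (PowerSeries.C (R := ZMod 9)), PowerSeries.coeff_C_mul,
        PowerSeries.coeff_map, sigmaSer, PowerSeries.coeff_mk]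
      split_ifs
      · simp
      · simpa using h
    have f1 := congrArg φ e1
    have f2 := congrArg φ e2
    simp only [map_add, map_sub, map_mul, map_pow, map_ofNat] at f1 f2 ⊢
    have c1 := hn 192 3 (by decide)
    have c2 := hn 80 8 (by decide)
    have c3 := hn 19200 3 (by decide)
    have c4 := hn 1536000 6 (by decide)
    have c5 := hn 112 4 (by decide)
    have c6 := hn 28224 0 (by decide)
    have c7 := hn 120 3 (by decide)
    push_cast at c1 c2 c3 c4 c5 c6 c7
    rw [c1, c2, c3, c4, c5, c6] at f1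
    rw [c7] at f2
    linear_combination f1 + hlin - f2
  have e4 : (deltaSer - (sigmaSer 1 + 2 * sigmaSer 3 ^ 3)).map (Int.castRingHom (ZMod 3)) = 0 := by
    ext n
    rw [PowerSeries.coeff_map, eq_intCast, map_zero, ZMod.intCast_zmod_eq_zero_iff_dvd]
    have h := congrArg (PowerSeries.coeff n) e3
    rw [PowerSeries.coeff_map, eq_intCast, map_zero, ZMod.intCast_zmod_eq_zero_iff_dvd,
      show 3 * deltaSer - (3 * sigmaSer 1 + 6 * sigmaSer 3 ^ 3)
        = PowerSeries.C (3 : ℤ) * (deltaSer - (sigmaSer 1 + 2 * sigmaSer 3 ^ 3)) by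
        rw [map_ofNat]; ring, PowerSeries.coeff_C_mul] at h
    omega
  have e5 : (sigmaSer 3).map (Int.castRingHom (ZMod 3))
      = (sigmaSer 1).map (Int.castRingHom (ZMod 3)) := by
    ext n
    simp only [PowerSeries.coeff_map, sigmaSer, PowerSeries.coeff_mk]
    split_ifs
    · rfl
    · simp [ArithmeticFunction.sigma_apply, ZMod.pow_card]
  simp only [map_sub, map_add, map_mul, map_pow, map_ofNat, e5] at e4
  have h3 : (3 : PowerSeries (ZMod 3)) = 0 := by
    rw [show (3 : PowerSeries (ZMod 3)) = PowerSeries.C (3 : ZMod 3) from (map_ofNat _ _).symm,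
      show (3 : ZMod 3) = 0 from rfl, map_zero]
  linear_combination (-1 : PowerSeries (ZMod 3)) * e4
    - (sigmaSer 1).map (Int.castRingHom (ZMod 3)) ^ 3 * h3

/-- A polynomial vanishing at a series of order one is zero. -/
lemma eq_zero_of_aeval_order_one {R : Polynomial (ZMod 3)}
    (h : Polynomial.aeval (deltaSer.map (Int.castRingHom (ZMod 3))) R = 0) : R = 0 := by
  by_contra hR
  set δ := deltaSer.map (Int.castRingHom (ZMod 3)) with hδ
  obtain ⟨Q, hQ, hQ0⟩ := Polynomial.exists_eq_pow_rootMultiplicity_mul_and_not_dvd R hR 0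
  rw [map_zero, sub_zero] at hQ hQ0
  rw [Polynomial.X_dvd_iff] at hQ0
  have hδ0 : PowerSeries.constantCoeff δ = 0 := by
    rw [← PowerSeries.coeff_zero_eq_constantCoeff_apply, hδ, PowerSeries.coeff_map,
      coeff_deltaSer_zero, map_zero]
  have hδne : δ ≠ 0 := fun h0 => by
    have := congrArg (PowerSeries.coeff 1) h0
    simp [hδ, PowerSeries.coeff_map, coeff_deltaSer_one] at this
  rw [hQ, map_mul, map_pow, Polynomial.aeval_X] at h
  have hQd := (mul_eq_zero.mp h).resolve_left (pow_ne_zero _ hδne)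
  apply hQ0
  have h' := congrArg PowerSeries.constantCoeff hQd
  rw [Polynomial.aeval_def, Polynomial.hom_eval₂, hδ0, Polynomial.eval₂_at_zero, map_zero] at h'
  simpa using h'

variable {p : ℕ} [Fact p.Prime] {G : ℍ → ℂ} {sG : PowerSeries ℤ} {c : ℤ}

/-- The prime three does not divide. -/
theorem not_congr_three (h9 : 9 ∣ p + 1) (hG : G ∈ modFun (Gamma0 p) 2) (hs : QExp 1 G (toC sG))
    (h0 : sG.coeff 0 = c) (hM : ∀ n, n ≠ 0 → (9 : ℤ) ∣ sG.coeff n) : (3 : ℤ) ∣ c := by
  by_contra hc
  obtain ⟨q, hq⟩ := h9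
  obtain ⟨H, sH, tH, hHm, hHq, hHt, -, hred⟩ := exists_sixForm hG hs h0 3 3 80 168 q (by norm_num)
    (by norm_num; exact_mod_cast hq) (by norm_num) (by norm_num) (by norm_num; exact hM)
  set φ := Int.castRingHom (ZMod 3) with hφ
  obtain ⟨e1, e2⟩ := hred φ (by decide)
  set S := (sigmaSer 1).map φ with hS
  set δ := deltaSer.map φ with hδ
  set cb : ZMod 3 := (c : ZMod 3) with hcb
  have hS3 : (sigmaSer 3).map φ = S := by
    ext n
    simp only [hS, hφ, PowerSeries.coeff_map, sigmaSer, PowerSeries.coeff_mk]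
    split_ifs
    · rfl
    · simp [ArithmeticFunction.sigma_apply, ZMod.pow_card]
  have hpc : PowerSeries.C (φ ((p : ℤ) * c)) * (PowerSeries.C (φ 80) * (sigmaSer 3).map φ
      + PowerSeries.C (φ 168) * (sigmaSer 5).map φ) = PowerSeries.C cb * S := by
    have hp1 : (p : ZMod 3) = -1 := by
      have h : ((p + 1 : ℕ) : ZMod 3) = 0 := by rw [ZMod.natCast_eq_zero_iff]; omega
      rw [eq_neg_iff_add_eq_zero]
      exact_mod_cast h
    rw [hS3, show φ 168 = 0 from by decide, show φ 80 = -1 from by decide, map_zero, zero_mul,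
      add_zero, hφ, eq_intCast, Int.cast_mul, Int.cast_natCast, hp1, neg_one_mul, map_neg,
      map_neg, map_one, hcb]
    ring
  rw [hpc] at e1 e2
  obtain ⟨v, r, hr, hvr⟩ := Nat.exists_eq_pow_mul_and_not_dvd (show p + 1 ≠ 0 by omega) 3
    (by norm_num)
  have hr0 : 0 < r := Nat.pos_of_ne_zero fun h => hr (by simp [h])
  have : CharP (PowerSeries (ZMod 3)) 3 :=
    charP_of_injective_ringHom (f := PowerSeries.C) PowerSeries.C_injective 3
  set k := 3 ^ v * (r - 1) with hk
  have hkn : k ≤ p + 1 := by rw [hvr, hk]; exact Nat.mul_le_mul_left _ (Nat.sub_le r 1)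
  set κ : ZMod 3 := -((r : ZMod 3) * cb ^ 3 ^ v) with hκ
  have hcoef : ((charSer p sH tH).coeff k).map φ = PowerSeries.C κ * S ^ 3 ^ v := by
    rw [← Polynomial.coeff_map, map_charSer, e1, e2, charSer_expand, ← pow_succ', hk, hvr,
      coeff_sub_pow_prime_pow _ v r hr0, hκ]
    simp only [map_neg, map_mul, map_pow, map_natCast, mul_pow]
    ring
  have hκ0 : κ ≠ 0 := by
    rw [hκ, neg_ne_zero]
    refine mul_ne_zero ?_ (pow_ne_zero _ ?_)
    · rwa [Ne, ZMod.natCast_eq_zero_iff]
    · rwa [hcb, Ne, ZMod.intCast_zmod_eq_zero_iff_dvd]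
  obtain ⟨P, -, -, hP⟩ := exists_formPoly (6 * (p + 1 - k)) _ _
    (modFun_weight (by push_cast; ring) (conjPoly_coeff_mem hHm hkn))
    (qexp_conjPoly_coeff hHm hHq hHt hkn)
  set Pb : Polynomial (ZMod 3) :=
    MvPolynomial.aeval ![(1 : Polynomial (ZMod 3)), 1, Polynomial.X] P with hPb
  have hser : ∀ Q : FormPoly, (serForm Q).map φ = Polynomial.aeval δ
      (MvPolynomial.aeval ![(1 : Polynomial (ZMod 3)), 1, Polynomial.X] Q) := by
    intro Q
    induction Q using MvPolynomial.induction_on with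
    | C a => simp [serForm]
    | add P Q hP hQ => simp [map_add, hP, hQ]
    | mul_X P i hP =>
      simp only [map_mul, hP]
      congr 1
      have z1 : (240 : PowerSeries (ZMod 3)) = 0 := by
        rw [show (240 : PowerSeries (ZMod 3)) = PowerSeries.C (240 : ZMod 3) from
          (map_ofNat _ _).symm, show (240 : ZMod 3) = 0 from rfl, map_zero]
      have z2 : (504 : PowerSeries (ZMod 3)) = 0 := by
        rw [show (504 : PowerSeries (ZMod 3)) = PowerSeries.C (504 : ZMod 3) from
          (map_ofNat _ _).symm, show (504 : ZMod 3) = 0 from rfl, map_zero]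
      fin_cases i <;> simp [serForm, e4Ser_eq, e6Ser_eq, z1, z2, hδ, map_ofNat]
  have hSpow : S ^ 3 ^ v = Polynomial.aeval δ (Polynomial.C κ⁻¹ * Pb) := by
    rw [map_mul, Polynomial.aeval_C, hPb, ← hser, hP, hcoef, ← mul_assoc,
      show algebraMap (ZMod 3) (PowerSeries (ZMod 3)) κ⁻¹ = PowerSeries.C κ⁻¹ from rfl, ← map_mul,
      inv_mul_cancel₀ hκ0, map_one, one_mul]
  have hstep : S = S ^ 3 + δ := sigma_delta_mod_three
  have htel : ∀ w : ℕ, S = S ^ 3 ^ w + ∑ i ∈ Finset.range w, δ ^ 3 ^ i := by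
    intro w
    induction w with
    | zero => simp
    | succ w ih =>
      have h : S ^ 3 ^ w = S ^ 3 ^ (w + 1) + δ ^ 3 ^ w := by
        conv_lhs => rw [hstep]
        rw [add_pow_char_pow, ← pow_mul, ← pow_succ']
      rw [Finset.sum_range_succ]
      linear_combination ih + h
  set R : Polynomial (ZMod 3) :=
    Polynomial.C κ⁻¹ * Pb + ∑ i ∈ Finset.range v, Polynomial.X ^ 3 ^ i with hR
  have hRS : Polynomial.aeval δ R = S := by
    rw [hR, map_add, ← hSpow, map_sum]
    simp only [map_pow, Polynomial.aeval_X]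
    exact (htel v).symm
  have hzero := eq_zero_of_aeval_order_one (R := R - R ^ 3 - Polynomial.X) (by
    rw [map_sub, map_sub, map_pow, ← hφ, ← hδ, hRS, Polynomial.aeval_X]
    linear_combination hstep)
  have hd := congrArg Polynomial.natDegree (sub_eq_zero.mp hzero)
  rw [Polynomial.natDegree_X] at hd
  rcases Nat.eq_zero_or_pos R.natDegree with h | h
  · rw [Polynomial.eq_C_of_natDegree_eq_zero h, ← map_pow, ← map_sub, Polynomial.natDegree_C] at hd
    omega
  · rw [Polynomial.natDegree_sub_eq_right_of_natDegree_lt (by rw [Polynomial.natDegree_pow]; omega),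
      Polynomial.natDegree_pow] at hd
    omega

end Fermat.Agent.Eisenstein
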