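import Fermat.Agent.Eisenstein.Pairing
import Fermat.Agent.Eisenstein.LocalThree
import Fermat.Prelude.Thm_ModularForm_sturm_bound_Gamma0

/-!
# Eisenstein congruences of prime level divide the numerator

Main result: `dvd_numerator_of_char`.
-/

set_option autoImplicit false

noncomputable section

namespace Fermat.Agent.Eisenstein

open UpperHalfPlane CongruenceSubgroup ModularGroup ModularForm CuspForm ModularCurve
  Fermat.Agent.Period Fermat.Agent.MCurve
open scoped MatrixGroups ModularForm Manifold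

variable (p : ℕ) [Fact p.Prime]

lemma cuspForm_eq_zero_of_small (hp : p < 5) (f : CuspForm (Gamma0 p) 2) : f = 0 := by
  have hidx : (Gamma0 p).index = p + 1 := by
    rw [Subgroup.index, show Nat.card (SL(2, ℤ) ⧸ Gamma0 p) = Nat.card (Option (ZMod p)) from
      (Nat.card_congr (cosetEquiv p)).symm, Nat.card_eq_fintype_card, Fintype.card_option,
      ZMod.card]
  have hq0 : (qExpansion 1 (f : ℍ → ℂ)).coeff 0 = 0 :=
    CuspFormClass.qExpansion_coeff_zero f one_pos (Hecke.one_mem_periods p)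
  have h := ModularForm.sturm_bound_Gamma0 p (ModularFormClass.modularForm f) fun n hn => by
    rw [hidx] at hn
    have : n = 0 := by omega
    subst this
    exact hq0
  refine DFunLike.coe_injective ?_
  have h' := congrArg DFunLike.coe h
  exact h'

lemma cuspForm_mem_modFun (f : CuspForm (Gamma0 p) 2) :
    (f : ℍ → ℂ) ∈ modFun (Gamma0 p) 2 :=
  ⟨CuspFormClass.holo f, fun _ hγ => Period.slash_Gamma0 f hγ,
    fun δ => (CuspFormClass.zero_at_infty_slash f δ).boundedAtFilter⟩

lemma exists_congruent_series (f : intLattice p 2) {M : ℕ}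
    (hf : ∀ n, (coeffZ p n f : ZMod M) = (sigmaPrime p n : ZMod M)) :
    ∃ (G : ℍ → ℂ) (sG : PowerSeries ℤ), G ∈ modFun (Gamma0 p) 2 ∧ QExp 1 G (toC sG) ∧
      sG.coeff 0 = (p : ℤ) - 1 ∧ ∀ n, n ≠ 0 → 24 * (M : ℤ) ∣ sG.coeff n := by
  set fS : PowerSeries ℤ := PowerSeries.mk fun n => coeffZ p n f with hfS
  have hfq : QExp 1 ((f : CuspForm (Gamma0 p) 2) : ℍ → ℂ) (toC fS) := by
    have hm := cuspForm_mem_modFun p (f : CuspForm (Gamma0 p) 2)
    convert qexp_of_periodic one_pos (by exact_mod_cast modFun_periodic hm) hm.1 (modFun_bdd hm)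
      using 1
    ext n
    rw [PowerSeries.coeff_map, hfS, PowerSeries.coeff_mk, eq_intCast, ← coeffZ_spec]
    rfl
  refine ⟨eisFun p - (24 : ℂ) • ((f : CuspForm (Gamma0 p) 2) : ℍ → ℂ),
    eisSeries p - PowerSeries.C 24 * fS,
    sub_mem (eisFun_mem p) (Submodule.smul_mem _ _ (cuspForm_mem_modFun p _)), ?_, ?_, ?_⟩
  · rw [map_sub, map_mul, PowerSeries.map_C, map_ofNat]
    exact qexp_sub (qexp_eisFun p) (qexp_smul hfq 24)
  · rw [map_sub, PowerSeries.coeff_C_mul, hfS, PowerSeries.coeff_mk, coeffZ_zero, mul_zero,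
      sub_zero, eisSeries, PowerSeries.coeff_mk, if_pos rfl]
  · intro n hn
    rw [map_sub, PowerSeries.coeff_C_mul, hfS, PowerSeries.coeff_mk, eisSeries,
      PowerSeries.coeff_mk, if_neg hn, ← mul_sub]
    refine mul_dvd_mul_left 24 ?_
    rw [← ZMod.intCast_zmod_eq_zero_iff_dvd]
    push_cast
    rw [hf n, sub_self]

/-- An Eisenstein congruence divides the numerator. -/
theorem dvd_numerator_of_form (f : intLattice p 2) {M : ℕ} (hM : 0 < M)
    (hf : ∀ n, (coeffZ p n f : ZMod M) = (sigmaPrime p n : ZMod M)) :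
    M ∣ eisensteinNumerator p := by
  have hp : p.Prime := Fact.out
  rcases lt_or_ge p 5 with hsmall | hp5
  · have h0 : f = 0 := Subtype.ext (cuspForm_eq_zero_of_small p hsmall _)
    have h1 := hf 1
    rw [h0, map_zero, sigmaPrime_one, Int.cast_zero, Nat.cast_one] at h1
    have : Subsingleton (ZMod M) := subsingleton_of_zero_eq_one h1
    rcases Nat.lt_or_ge 1 M with h | h
    · have : Fact (1 < M) := ⟨h⟩
      exact absurd h1 zero_ne_one
    · rw [show M = 1 by omega]; exact one_dvd _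
  obtain ⟨G, sG, hG, hs, h0, hdiv⟩ := exists_congruent_series p f hf
  have hdivl : ∀ l : ℤ, l ∣ 24 * (M : ℤ) → ∀ n, n ≠ 0 → l ∣ sG.coeff n :=
    fun l hl n hn => hl.trans (hdiv n hn)
  have hpM : ¬ p ∣ M := by
    intro h
    have h' := not_congr_self hp5 hG hs h0
      (hdivl p (Dvd.dvd.mul_left (Int.natCast_dvd_natCast.mpr h) 24))
    have := Int.le_of_dvd (by omega) h'
    omega
  have hsq : 24 * M ∣ (p - 1) * (p + 1) := by
    have h := dvd_sq_sub_one hG hs h0 hdiv
    have h' : 24 * M ∣ (p - 1) * p ^ 11 * (p + 1) := by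
      rw [← Int.natCast_dvd_natCast]
      push_cast [Nat.cast_sub hp.one_le]
      exact h
    have hcop : Nat.Coprime (24 * M) (p ^ 11) := by
      refine Nat.Coprime.pow_right _ (Nat.Coprime.mul_left ?_ ?_).symm.symm
      · refine ((Nat.Prime.coprime_iff_not_dvd hp).mpr fun h => ?_).symm
        have h24 : p ∣ 2 ^ 3 * 3 := h
        rcases hp.dvd_mul.mp h24 with h | h
        · have := Nat.le_of_dvd two_pos (hp.dvd_of_dvd_pow h); omega
        · have := Nat.le_of_dvd three_pos h; omega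
      · exact ((Nat.Prime.coprime_iff_not_dvd hp).mpr hpM).symm
    refine hcop.dvd_of_dvd_mul_right ?_
    rwa [mul_right_comm] at h'
  have hp2 : ¬ 2 ∣ p := fun h => by
    have := (Nat.prime_dvd_prime_iff_eq Nat.prime_two hp).mp h; omega
  have hp3 : ¬ 3 ∣ p := fun h => by
    have := (Nat.prime_dvd_prime_iff_eq Nat.prime_three hp).mp h; omega
  set g := Nat.gcd (p - 1) 12 with hg
  have hn : eisensteinNumerator p * g = p - 1 := Nat.div_mul_cancel (Nat.gcd_dvd_left _ _)
  have hg12 : g ∣ 12 := Nat.gcd_dvd_right _ _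
  rw [Nat.dvd_iff_prime_pow_dvd_dvd]
  intro l a hl hla
  rcases Nat.eq_zero_or_pos a with rfl | ha
  · simp
  have hlM : l ∣ M := (dvd_pow_self l ha.ne').trans hla
  have hla24 : 24 * l ^ a ∣ (p - 1) * (p + 1) := (mul_dvd_mul_left 24 hla).trans hsq
  rcases (show l = 2 ∨ l = 3 ∨ 5 ≤ l from by
      have := hl.two_le
      rcases lt_or_ge l 5 with h | h
      · interval_cases l
        · exact Or.inl rfl
        · exact Or.inr (Or.inl rfl)
        · norm_num at hl
      · exact Or.inr (Or.inr h)) with rfl | rfl | hl5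
  · -- the prime two
    have h4 : p % 4 = 1 := by
      by_contra h4
      have h48 : 48 ∣ (p - 1) * (p + 1) :=
        (show 48 ∣ 24 * M from (mul_dvd_mul_left 24 hlM)).trans hsq
      obtain ⟨c', hc', hodd⟩ : ∃ c', p - 1 = 2 * c' ∧ ¬ 2 ∣ c' :=
        ⟨(p - 1) / 2, by omega, by omega⟩
      have h8 : 8 ∣ p + 1 := by
        have h16 : 2 * 8 ∣ 2 * (c' * (p + 1)) := by
          rw [← mul_assoc, ← hc']
          exact (show 16 ∣ 48 by norm_num).trans h48
        refine ((Nat.Prime.coprime_iff_not_dvd Nat.prime_two).mpr hodd).pow_left 3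
          |>.dvd_of_dvd_mul_left ?_
        exact Nat.dvd_of_mul_dvd_mul_left two_pos h16
      have h2 : ∀ n, ∃ x, sG.coeff n = 2 * x := fun n => by
        rcases eq_or_ne n 0 with rfl | hn0
        · exact ⟨c', by rw [h0]; omega⟩
        · exact hdivl 2 (Dvd.intro (12 * (M : ℤ)) (by ring)) n hn0
      choose x hx using h2
      refine hodd ?_
      have hC : PowerSeries.C (2 : ℤ) * PowerSeries.mk x = sG := by
        ext n
        rw [PowerSeries.coeff_C_mul, PowerSeries.coeff_mk, hx]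
      have hq : QExp 1 ((2 : ℂ)⁻¹ • G) (toC (PowerSeries.mk x)) := by
        convert qexp_smul hs (2 : ℂ)⁻¹ using 1
        rw [← hC, map_mul, PowerSeries.map_C, map_ofNat, ← mul_assoc, ← map_mul,
          inv_mul_cancel₀ two_ne_zero, map_one, one_mul]
      have := not_congr_two (G := (2 : ℂ)⁻¹ • G) (sG := PowerSeries.mk x) (c := (c' : ℤ)) h8
        (Submodule.smul_mem _ _ hG) hq
        (by
          rw [PowerSeries.coeff_mk]
          have := hx 0
          rw [h0] at this
          omega)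
        (fun n hn0 => by
          rw [PowerSeries.coeff_mk]
          have h16 : (16 : ℤ) ∣ sG.coeff n := hdivl 16 (by
            obtain ⟨m, hm⟩ := Int.natCast_dvd_natCast.mpr hlM
            exact ⟨3 * m, by rw [hm]; push_cast; ring⟩) n hn0
          rw [hx n] at h16
          omega)
      exact_mod_cast this
    have h4g : 4 ∣ g := Nat.dvd_gcd (by omega) (by norm_num)
    obtain ⟨g', hg'⟩ := h4g
    have h2g : ¬ 2 ∣ g' := fun h => by
      have h8 : 8 ∣ 12 := (show 8 ∣ g from hg' ▸ (show 4 * 2 ∣ 4 * g' from mul_dvd_mul_left 4 h)).trans hg12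
      norm_num at h8
    obtain ⟨e, he⟩ : ∃ e, p + 1 = 2 * e ∧ True := ⟨(p + 1) / 2, by omega, trivial⟩
    have heodd : ¬ 2 ∣ e := by omega
    have h1 : 2 ^ a * 4 ∣ (p - 1) * e := by
      refine Nat.dvd_of_mul_dvd_mul_left two_pos ?_
      rw [show 2 * ((p - 1) * e) = (p - 1) * (p + 1) by rw [he.1]; ring]
      exact (show 2 * (2 ^ a * 4) ∣ 24 * 2 ^ a from ⟨3, by ring⟩).trans hla24
    have hcop : ∀ x, ¬ 2 ∣ x → Nat.Coprime (2 ^ a) x := fun x hx =>
      ((Nat.Prime.coprime_iff_not_dvd Nat.prime_two).mpr hx).pow_left a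
    rw [← hn, hg'] at h1
    refine (hcop g' h2g).dvd_of_dvd_mul_right ((hcop e heodd).dvd_of_dvd_mul_right ?_)
    refine Nat.dvd_of_mul_dvd_mul_right four_pos ?_
    convert h1 using 1
    ring
  · -- the prime three
    have h3' : p % 3 = 1 := by
      by_contra h3'
      have h72 : 72 ∣ (p - 1) * (p + 1) :=
        (show 72 ∣ 24 * M from (mul_dvd_mul_left 24 hlM)).trans hsq
      have h9 : 9 ∣ p + 1 :=
        (((Nat.Prime.coprime_iff_not_dvd Nat.prime_three).mpr
          (show ¬ 3 ∣ p - 1 by omega)).pow_left 2).dvd_of_dvd_mul_left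
          ((show 3 ^ 2 ∣ 72 by norm_num).trans h72)
      have h := not_congr_three h9 hG hs h0 (hdivl 9 (by
        obtain ⟨m, hm⟩ := Int.natCast_dvd_natCast.mpr hlM
        exact ⟨8 * m, by rw [hm]; push_cast; ring⟩))
      omega
    have h3g : 3 ∣ g := Nat.dvd_gcd (by omega) (by norm_num)
    obtain ⟨g', hg'⟩ := h3g
    have h3g' : ¬ 3 ∣ g' := fun h => by
      have h9 : 9 ∣ 12 := (show 9 ∣ g from hg' ▸ (show 3 * 3 ∣ 3 * g' from mul_dvd_mul_left 3 h)).trans hg12
      norm_num at h9
    have hcop : ∀ x, ¬ 3 ∣ x → Nat.Coprime (3 ^ a) x := fun x hx =>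
      ((Nat.Prime.coprime_iff_not_dvd Nat.prime_three).mpr hx).pow_left a
    have h1 : 3 ^ a * 3 ∣ (p - 1) * (p + 1) :=
      (show 3 ^ a * 3 ∣ 24 * 3 ^ a from ⟨8, by ring⟩).trans hla24
    rw [← hn, hg'] at h1
    refine (hcop g' h3g').dvd_of_dvd_mul_right
      ((hcop (p + 1) (by omega)).dvd_of_dvd_mul_right ?_)
    refine Nat.dvd_of_mul_dvd_mul_right three_pos ?_
    convert h1 using 1
    ring
  · -- large primes
    have : Fact l.Prime := ⟨hl⟩
    have hlp1 : ¬ l ∣ p + 1 := fun h => by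
      have h' := not_congr_large hl5 h hG hs h0
        (hdivl l (Dvd.dvd.mul_left (Int.natCast_dvd_natCast.mpr hlM) 24))
      have h2 : (l : ℤ) ∣ 2 := by
        have h3 : (l : ℤ) ∣ (p : ℤ) + 1 := by exact_mod_cast Int.natCast_dvd_natCast.mpr h
        have := dvd_sub h3 h'
        simpa using this
      have := Int.le_of_dvd two_pos h2
      omega
    have hcop : ∀ x, ¬ l ∣ x → Nat.Coprime (l ^ a) x := fun x hx =>
      ((Nat.Prime.coprime_iff_not_dvd hl).mpr hx).pow_left a
    have h1 : l ^ a ∣ (p - 1) * (p + 1) := (Dvd.intro_left 24 rfl).trans hla24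
    rw [← hn] at h1
    refine (hcop g fun h => ?_).dvd_of_dvd_mul_right ((hcop (p + 1) hlp1).dvd_of_dvd_mul_right h1)
    have h12 : l ∣ 12 := h.trans hg12
    have := Nat.le_of_dvd (by norm_num) h12
    interval_cases l <;> first | omega | norm_num at hl

/-- An Eisenstein character divides the numerator. -/
theorem dvd_numerator_of_char {M : ℕ} [NeZero M]
    (χ : heckeLatticeAlgebra p (∅ : Set ℕ) →+* ZMod M)
    (hχ : ∀ l, χ (latticeGen p l) = (eisensteinSystem p l : ZMod M)) :
    M ∣ eisensteinNumerator p := by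
  obtain ⟨f, hf⟩ := exists_form_of_eisenstein p χ hχ
  exact dvd_numerator_of_form p f (NeZero.pos M) hf

end Fermat.Agent.Eisenstein
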