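import Fermat.Agent.Eisenstein.Series
import Fermat.Prelude.Thm_UpperHalfPlane_qCoeff_heckeT
import Fermat.Prelude.Thm_ModularForm_mdifferentiable_heckeT
import Mathlib.NumberTheory.ModularForms.EisensteinSeries.E2.Transform
import Mathlib.NumberTheory.ModularForms.EisensteinSeries.E2.MDifferentiable

/-!
# The Eisenstein series of weight two and prime level

Main results: `eisFun_mem`, `qexp_eisFun`, `fricke_eisFun`, `heckeT_eisFun`, `sigmaPrime_hecke`.
-/

set_option autoImplicit false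

noncomputable section

namespace Fermat.Agent.Eisenstein

open UpperHalfPlane CongruenceSubgroup ModularGroup ModularForm Fermat.Agent.Period
  Fermat.Agent.MCurve EisensteinSeries Filter Topology
open scoped MatrixGroups ModularForm Manifold

variable (p : ℕ)

/-- Sum of the divisors prime to `p`. -/
def sigmaPrime (n : ℕ) : ℕ := ∑ d ∈ n.divisors with ¬ p ∣ d, d

lemma sigmaPrime_one [Fact p.Prime] : sigmaPrime p 1 = 1 := by
  simp [sigmaPrime, Finset.sum_filter, (Fact.out : p.Prime).ne_one]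

lemma sigmaPrime_zero : sigmaPrime p 0 = 0 := by simp [sigmaPrime]

lemma sigmaPrime_self_mul [Fact p.Prime] (n : ℕ) : sigmaPrime p (p * n) = sigmaPrime p n := by
  rcases eq_or_ne n 0 with rfl | hn
  · simp
  refine Finset.sum_congr ?_ fun _ _ => rfl
  ext d
  simp only [Finset.mem_filter, Nat.mem_divisors, ne_eq, mul_eq_zero, not_or]
  constructor
  · rintro ⟨⟨hd, -⟩, hpd⟩
    exact ⟨⟨((Nat.Prime.coprime_iff_not_dvd Fact.out).mpr hpd).symm.dvd_of_dvd_mul_left hd, hn⟩,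
      hpd⟩
  · rintro ⟨⟨hd, -⟩, hpd⟩
    exact ⟨⟨hd.mul_left p, NeZero.ne p, hn⟩, hpd⟩

/-- The Hecke relation. -/
lemma sigmaPrime_hecke [Fact p.Prime] {l : ℕ} (hl : l.Prime) (hlp : ¬ l ∣ p) (n : ℕ) :
    sigmaPrime p (n * l) + (if l ∣ n then l * sigmaPrime p (n / l) else 0)
      = (1 + l) * sigmaPrime p n := by
  rcases eq_or_ne n 0 with rfl | hn
  · simp [sigmaPrime_zero]
  have hpl : ¬ p ∣ l := fun h => hlp (((Nat.prime_dvd_prime_iff_eq Fact.out hl).mp h) ▸ dvd_rfl)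
  have hmul : ∀ x : ℕ, p ∣ l * x ↔ p ∣ x := fun x =>
    ⟨fun h => ((Nat.Prime.dvd_mul Fact.out).mp h).resolve_left hpl, fun h => h.mul_left l⟩
  set A := n.divisors.filter fun d => ¬ p ∣ d with hA
  set B := A.image (l * ·) with hB
  have hsumB : ∑ d ∈ B, d = l * ∑ d ∈ A, d := by
    rw [hB, Finset.sum_image fun x _ y _ h => Nat.eq_of_mul_eq_mul_left hl.pos h, Finset.mul_sum]
  have hunion : (n * l).divisors.filter (fun d => ¬ p ∣ d) = A ∪ B := by
    ext d
    simp only [hB, hA, Finset.mem_filter, Nat.mem_divisors, Finset.mem_union, Finset.mem_image]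
    constructor
    · rintro ⟨⟨hd, -⟩, hpd⟩
      by_cases hld : l ∣ d
      · obtain ⟨e, rfl⟩ := hld
        rw [mul_comm n l] at hd
        exact .inr ⟨e, ⟨⟨Nat.dvd_of_mul_dvd_mul_left hl.pos hd, hn⟩,
          fun h => hpd ((hmul e).mpr h)⟩, rfl⟩
      · exact .inl ⟨⟨((Nat.Prime.coprime_iff_not_dvd hl).mpr hld).symm.dvd_of_dvd_mul_right hd, hn⟩,
          hpd⟩
    · rintro (⟨⟨hd, -⟩, hpd⟩ | ⟨e, ⟨⟨he, -⟩, hpe⟩, rfl⟩)
      · exact ⟨⟨hd.mul_right l, mul_ne_zero hn hl.ne_zero⟩, hpd⟩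
      · exact ⟨⟨by rw [mul_comm n l]; exact mul_dvd_mul_left l he, mul_ne_zero hn hl.ne_zero⟩,
          fun h => hpe ((hmul e).mp h)⟩
  have hinter : ∑ d ∈ A ∩ B, d = if l ∣ n then l * sigmaPrime p (n / l) else 0 := by
    split_ifs with hln
    · obtain ⟨m, rfl⟩ := hln
      rw [Nat.mul_div_cancel_left _ hl.pos, sigmaPrime, Finset.mul_sum,
        show A ∩ B = (m.divisors.filter fun d => ¬ p ∣ d).image (l * ·) from ?_,
        Finset.sum_image fun x _ y _ h => Nat.eq_of_mul_eq_mul_left hl.pos h]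
      ext d
      simp only [hA, hB, Finset.mem_inter, Finset.mem_filter, Nat.mem_divisors, Finset.mem_image]
      have hm : m ≠ 0 := fun h => hn (by simp [h])
      constructor
      · rintro ⟨⟨⟨hd, -⟩, -⟩, e, ⟨-, hpe⟩, rfl⟩
        exact ⟨e, ⟨⟨Nat.dvd_of_mul_dvd_mul_left hl.pos hd, hm⟩, hpe⟩, rfl⟩
      · rintro ⟨e, ⟨⟨he, -⟩, hpe⟩, rfl⟩
        exact ⟨⟨⟨mul_dvd_mul_left l he, hn⟩, fun h => hpe ((hmul e).mp h)⟩,
          e, ⟨⟨he.mul_left l, hn⟩, hpe⟩, rfl⟩
    · refine Finset.sum_eq_zero fun d hd => ?_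
      simp only [hA, hB, Finset.mem_inter, Finset.mem_filter, Nat.mem_divisors,
        Finset.mem_image] at hd
      obtain ⟨⟨⟨hd, -⟩, -⟩, e, -, rfl⟩ := hd
      exact absurd ((dvd_mul_right l e).trans hd) hln
  rw [← hinter, sigmaPrime, hunion, Finset.sum_union_inter, hsumB, sigmaPrime, ← hA]
  ring

lemma sigma_sub [Fact p.Prime] (n : ℕ) :
    (ArithmeticFunction.sigma 1 n : ℤ)
      - (if p ∣ n then (p : ℤ) * ArithmeticFunction.sigma 1 (n / p) else 0) = sigmaPrime p n := by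
  rcases eq_or_ne n 0 with rfl | hn
  · simp [sigmaPrime_zero]
  have hsum : (∑ d ∈ n.divisors with p ∣ d, d)
      = if p ∣ n then p * ArithmeticFunction.sigma 1 (n / p) else 0 := by
    split_ifs with hpn
    · obtain ⟨m, rfl⟩ := hpn
      rw [Nat.mul_div_cancel_left _ (NeZero.pos p), ArithmeticFunction.sigma_one_apply,
        Finset.mul_sum, show (p * m).divisors.filter (p ∣ ·) = m.divisors.image (p * ·) from ?_,
        Finset.sum_image fun x _ y _ h => Nat.eq_of_mul_eq_mul_left (NeZero.pos p) h]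
      ext d
      simp only [Finset.mem_filter, Nat.mem_divisors, Finset.mem_image]
      constructor
      · rintro ⟨⟨hd, -⟩, e, rfl⟩
        exact ⟨e, ⟨Nat.dvd_of_mul_dvd_mul_left (NeZero.pos p) hd, fun h => hn (by simp [h])⟩, rfl⟩
      · rintro ⟨e, ⟨he, -⟩, rfl⟩
        exact ⟨⟨mul_dvd_mul_left p he, hn⟩, dvd_mul_right p e⟩
    · refine Finset.sum_eq_zero fun d hd => ?_
      simp only [Finset.mem_filter, Nat.mem_divisors] at hd
      exact absurd (hd.2.trans hd.1.1) hpn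
  have h := Finset.sum_filter_add_sum_filter_not n.divisors (p ∣ ·) (fun d => d)
  rw [hsum, ← ArithmeticFunction.sigma_one_apply] at h
  rw [sigmaPrime, ← h]
  split_ifs <;> push_cast <;> ring

variable [Fact p.Prime]

/-- `p E₂(p z) - E₂(z)`. -/
def eisFun : ℍ → ℂ := E2 ∣[(2 : ℤ)] scaleGL p - E2

lemma eisFun_apply (z : ℍ) : eisFun p z = (p : ℂ) * E2 (scaleGL p • z) - E2 z := by
  simp [eisFun, scaleGL_eq, slash_heckeDiagMatrix_apply 2 (NeZero.ne p)]

lemma D2_slash_scaleGL {γ γ' : SL(2, ℤ)}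
    (h : scaleGL p * (γ : GL (Fin 2) ℝ) = (γ' : GL (Fin 2) ℝ) * scaleGL p) :
    D2 γ' ∣[(2 : ℤ)] scaleGL p = D2 γ := by
  funext z
  have hh : ∀ i j, ((scaleGL p * (γ : GL (Fin 2) ℝ) : GL (Fin 2) ℝ) : Matrix (Fin 2) (Fin 2) ℝ) i j
      = (((γ' : GL (Fin 2) ℝ) * scaleGL p : GL (Fin 2) ℝ) : Matrix (Fin 2) (Fin 2) ℝ) i j := by
    intro i j; rw [h]
  have h10 := hh 1 0
  have h11 := hh 1 1
  simp [Matrix.mul_apply, Fin.sum_univ_two] at h10 h11
  have h10' : ((γ 1 0 : ℤ) : ℂ) = ((γ' 1 0 : ℤ) : ℂ) * (p : ℂ) := by exact_mod_cast h10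
  have h11' : ((γ 1 1 : ℤ) : ℂ) = ((γ' 1 1 : ℤ) : ℂ) := by exact_mod_cast h11
  rw [scaleGL_eq, slash_heckeDiagMatrix_apply 2 (NeZero.ne p), D2, D2, ModularGroup.denom_apply,
    ModularGroup.denom_apply, coe_heckeDiagMatrix_smul (NeZero.ne p), h10', h11']
  norm_num
  ring

lemma eisFun_slash_Gamma0 {γ : SL(2, ℤ)} (hγ : γ ∈ Gamma0 p) :
    eisFun p ∣[(2 : ℤ)] γ = eisFun p := by
  obtain ⟨γ', hγ'⟩ := scaleGL_conj (N := p) hγ
  have h1 : (E2 ∣[(2 : ℤ)] scaleGL p) ∣[(2 : ℤ)] γ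
      = E2 ∣[(2 : ℤ)] scaleGL p - (1 / (2 * riemannZeta 2)) • D2 γ := by
    rw [ModularForm.SL_slash, ← SlashAction.slash_mul, hγ', SlashAction.slash_mul,
      ← ModularForm.SL_slash, E2_slash_action, sub_eq_add_neg, SlashAction.add_slash, SlashAction.neg_slash, ModularForm.smul_slash,
      D2_slash_scaleGL p hγ']
    simp [scaleGL_eq, σ_heckeDiagMatrix, sub_eq_add_neg]
  rw [eisFun, sub_eq_add_neg, SlashAction.add_slash, SlashAction.neg_slash, h1, E2_slash_action]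
  abel

lemma scaleGL_mul_S : scaleGL p * ((S : SL(2, ℤ)) : GL (Fin 2) ℝ)
    = ((S : SL(2, ℤ)) : GL (Fin 2) ℝ) * heckeMatrix p 0 := by
  apply Units.ext
  rw [Units.val_mul, Units.val_mul, val_heckeMatrix (NeZero.ne p), coe_scaleGL]
  ext i j
  fin_cases i <;> fin_cases j <;> simp [Matrix.mul_apply, Fin.sum_univ_two, coe_S]

lemma eisFun_slash_S :
    eisFun p ∣[(2 : ℤ)] (S : SL(2, ℤ)) = E2 ∣[(2 : ℤ)] heckeMatrix p 0 - E2 := by
  have hD : D2 S ∣[(2 : ℤ)] heckeMatrix p 0 = D2 S := by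
    funext z
    rw [slash_heckeMatrix_apply 2 (NeZero.ne p), D2_S, D2_S, coe_heckeMatrix_smul (NeZero.ne p)]
    have hp : (p : ℂ) ≠ 0 := Nat.cast_ne_zero.mpr (NeZero.ne p)
    have hz : (z : ℂ) ≠ 0 := z.ne_zero
    field_simp
    simp [hz]
  rw [eisFun, sub_eq_add_neg, SlashAction.add_slash, SlashAction.neg_slash, ModularForm.SL_slash, ← SlashAction.slash_mul,
    scaleGL_mul_S p, SlashAction.slash_mul, ← ModularForm.SL_slash, E2_slash_action,
    sub_eq_add_neg, SlashAction.add_slash, SlashAction.neg_slash, ModularForm.smul_slash, hD]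
  simp only [σ_heckeMatrix, ContinuousAlgEquiv.refl_apply, sub_eq_add_neg]
  abel

/-- The series of the Eisenstein series. -/
def eisSeries : PowerSeries ℤ :=
  PowerSeries.mk fun n => if n = 0 then (p : ℤ) - 1 else 24 * (sigmaPrime p n : ℤ)

lemma qexp_eisFun : QExp 1 (eisFun p) ((eisSeries p).map (Int.castRingHom ℂ)) := by
  set e : PowerSeries ℂ :=
    PowerSeries.mk fun m => if m = 0 then 1 else -24 * (ArithmeticFunction.sigma 1 m : ℂ) with he
  have h0 : QExp 1 E2 e := fun τ => by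
    simpa [he, Function.Periodic.qParam] using! hasSum_qExpansion_E2 (z := τ)
  have h1 := qexp_sub ((qexp_scale p h0).const_mul (p : ℂ)) h0
  have hser : (eisSeries p).map (Int.castRingHom ℂ)
      = PowerSeries.C (p : ℂ) * PowerSeries.expand p (NeZero.ne p) e - e := by
    ext n
    simp only [eisSeries, PowerSeries.coeff_map, PowerSeries.coeff_mk, map_sub,
      PowerSeries.coeff_C_mul, PowerSeries.coeff_expand, he, eq_intCast]
    rcases eq_or_ne n 0 with rfl | hn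
    · simp
    · rw [if_neg hn, if_neg hn, ← sigma_sub]
      push_cast
      split_ifs with hd hq
      · have := Nat.eq_zero_of_dvd_of_div_eq_zero hd hq
        exact absurd this hn
      · push_cast; ring
      · ring
  rw [hser]
  exact h1.congr fun z => (eisFun_apply p z).symm

theorem eisFun_mem : eisFun p ∈ modFun (Gamma0 p) 2 := by
  have hhol : MDifferentiable 𝓘(ℂ) 𝓘(ℂ) (eisFun p) :=
    (E2_mdifferentiable.slash _ _).sub E2_mdifferentiable
  have hE : IsBoundedAtImInfty E2 := isBoundedAtImInfty_E2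
  refine ⟨hhol, fun γ hγ => eisFun_slash_Gamma0 p hγ, fun δ => ?_⟩
  obtain ⟨i, hi⟩ := (cosetMap_bijective p).2 (cosetOf p δ)
  cases i with
  | none =>
    have hδ : δ ∈ Gamma0 p := by
      rw [cosetMap, baseCoset_eq, cosetOf, cosetOf, QuotientGroup.eq] at hi
      simpa using hi
    rw [eisFun_slash_Gamma0 p hδ, eisFun]
    exact (hE.slash _ (by simp)).sub hE
  | some j =>
    have hδ : stMat (j.val : ℤ) * δ⁻¹ ∈ Gamma0 p := by
      rw [cosetMap, cosetOf, cosetOf, QuotientGroup.eq] at hi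
      simpa using hi
    have h2 : δ = (stMat (j.val : ℤ) * δ⁻¹)⁻¹ * stMat (j.val : ℤ) := by group
    rw [h2, SlashAction.slash_mul, eisFun_slash_Gamma0 p ((Gamma0 p).inv_mem hδ), stMat,
      SlashAction.slash_mul, eisFun_slash_S]
    have hb : IsBoundedAtImInfty (E2 ∣[(2 : ℤ)] heckeMatrix p 0 - E2) :=
      (hE.slash _ (by simp [val_heckeMatrix (NeZero.ne p)])).sub hE
    rw [ModularForm.SL_slash]
    refine hb.slash _ ?_
    have h10 : ((T ^ (j.val : ℤ) : SL(2, ℤ)) 1 0) = 0 := by rw [coe_T_zpow]; rfl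
    show ((((T ^ (j.val : ℤ) : SL(2, ℤ)) 1 0) : ℤ) : ℝ) = 0
    rw [h10, Int.cast_zero]

lemma heckeU_eisFun (k : ℤ) : heckeU k p (eisFun p) = eisFun p := by
  refine eq_of_qexp (qexp_heckeU_modFun (eisFun_mem p) (qexp_eisFun p) k) ?_
  convert qexp_eisFun p using 1
  ext n
  simp only [coeff_uSeries, PowerSeries.coeff_map, eisSeries, PowerSeries.coeff_mk, mul_eq_zero,
    NeZero.ne p, false_or, sigmaPrime_self_mul]

theorem fricke_eisFun : eisFun p ∣[(2 : ℤ)] frickeGL p = -eisFun p := by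
  rw [fricke_eq_neg_heckeU (eisFun_mem p), heckeU_eisFun]

/-- `T_ℓ` acts by `1 + ℓ`. -/
theorem heckeT_eisFun {l : ℕ} (hl : l.Prime) (hlp : ¬ l ∣ p) :
    heckeT 2 l (eisFun p) = (1 + (l : ℂ)) • eisFun p := by
  have hper := modFun_periodic (eisFun_mem p)
  have hs : qExpansion 1 (eisFun p) = (eisSeries p).map (Int.castRingHom ℂ) :=
    (qexp_of_periodic one_pos (by exact_mod_cast hper) (eisFun_mem p).1
      (modFun_bdd (eisFun_mem p))).unique one_pos (qexp_eisFun p)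
  have hd : QExp 1 (eisFun p ∣[(2 : ℤ)] heckeDiagMatrix l) (PowerSeries.C (l : ℂ) *
      PowerSeries.expand l hl.ne_zero ((eisSeries p).map (Int.castRingHom ℂ))) := by
    haveI : NeZero l := ⟨hl.ne_zero⟩
    refine ((qexp_scale l (qexp_eisFun p)).const_mul (l : ℂ)).congr fun z => ?_
    rw [slash_heckeDiagMatrix_apply 2 hl.ne_zero]
    have : scaleGL l • z = heckeDiagMatrix l • z := by
      apply UpperHalfPlane.ext
      rw [coe_scaleGL_smul, coe_heckeDiagMatrix_smul hl.ne_zero]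
    rw [this]
    norm_num
  have hu : QExp 1 (heckeU 2 l (eisFun p)) (uSeries l ((eisSeries p).map (Int.castRingHom ℂ))) := by
    haveI : NeZero l := ⟨hl.ne_zero⟩
    exact qexp_heckeU l hper (eisFun_mem p).1 (modFun_bdd (eisFun_mem p)) (qexp_eisFun p) 2
  haveI : NeZero l := ⟨hl.ne_zero⟩
  refine eq_of_qexp (hu.add hd) ?_
  convert qexp_smul (qexp_eisFun p) (1 + (l : ℂ)) using 1
  ext n
  have h := sigmaPrime_hecke p hl hlp n
  simp only [(PowerSeries.coeff (R := ℂ) n).map_add, coeff_uSeries, PowerSeries.coeff_C_mul, PowerSeries.coeff_expand,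
    PowerSeries.coeff_map, eisSeries, PowerSeries.coeff_mk, eq_intCast, mul_eq_zero, hl.ne_zero,
    false_or]
  rcases eq_or_ne n 0 with rfl | hn
  · simp
    ring
  · have h' : ((sigmaPrime p (n * l) : ℂ) + if l ∣ n then (l : ℂ) * sigmaPrime p (n / l) else 0)
        = (1 + (l : ℂ)) * sigmaPrime p n := by exact_mod_cast h
    rw [if_neg hn, if_neg hn, mul_comm l n]
    split_ifs with hd hq
    · exact absurd (Nat.eq_zero_of_dvd_of_div_eq_zero hd hq) hn
    · rw [if_pos hd] at h'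
      push_cast
      linear_combination (24 : ℂ) * h'
    · rw [if_neg hd] at h'
      push_cast
      linear_combination (24 : ℂ) * h'

end Fermat.Agent.Eisenstein
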