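import Mathlib.RingTheory.Ideal.Quotient.Operations
import Mathlib.RingTheory.Int.Basic
import Mathlib.Data.ZMod.QuotientRing
import Mathlib.RingTheory.PrincipalIdealDomain

/-!
# The index of the image of the kernel of a character

Main result: `natCard_quotient_map_ker`.
-/

set_option autoImplicit false

namespace Fermat.Agent.Eisenstein

/-- For a surjection `ρ` and a character `e`, the index of `ρ (ker e)` is characterised by `n`. -/
theorem natCard_quotient_map_ker {A T : Type*} [CommRing A] [CommRing T] (ρ : A →+* T)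
    (hsur : Function.Surjective ρ) (e : A →+* ℤ) {n : ℕ} (hn : 0 < n)
    (hA : ∀ R, ρ R = 0 → (n : ℤ) ∣ e R)
    (hB : ∀ (m : ℕ) [NeZero m] (χ : T →+* ZMod m), (∀ R, χ (ρ R) = (e R : ZMod m)) → m ∣ n) :
    Nat.card (T ⧸ Ideal.map ρ (RingHom.ker e)) = n := by
  set J := Ideal.map ρ (RingHom.ker e) with hJ
  have hcast : ∀ Q, Ideal.Quotient.mk J (ρ Q) = ((e Q : ℤ) : T ⧸ J) := fun Q => by
    have hQ : Q - ((e Q : ℤ) : A) ∈ RingHom.ker e := by
      rw [RingHom.mem_ker, map_sub, map_intCast, Int.cast_id, sub_self]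
    have h := Ideal.Quotient.eq_zero_iff_mem.mpr (Ideal.mem_map_of_mem ρ hQ)
    rwa [map_sub, map_sub, map_intCast, map_intCast, sub_eq_zero] at h
  set cast : ℤ →+* T ⧸ J := Int.castRingHom _ with hcastdef
  have hcs : Function.Surjective cast := fun x => by
    obtain ⟨t, rfl⟩ := Ideal.Quotient.mk_surjective x
    obtain ⟨Q, rfl⟩ := hsur t
    exact ⟨e Q, (hcast Q).symm⟩
  obtain ⟨M, hM⟩ : ∃ M : ℕ, RingHom.ker cast = Ideal.span {(M : ℤ)} := by
    obtain ⟨m, hm⟩ := (IsPrincipalIdealRing.principal (RingHom.ker cast)).principal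
    refine ⟨m.natAbs, ?_⟩
    rw [hm, Int.span_natAbs]
  let eq1 : (T ⧸ J) ≃+* ZMod M :=
    (RingHom.quotientKerEquivOfSurjective hcs).symm.trans
      ((Ideal.quotEquivOfEq hM).trans (Int.quotientSpanNatEquivZMod M))
  rw [Nat.card_congr eq1.toEquiv, Nat.card_zmod]
  have hnM : n ∣ M := by
    set π : A →+* ZMod n := (Int.castRingHom _).comp e with hπ
    have hker : RingHom.ker ρ ≤ RingHom.ker π := fun R hR => by
      rw [RingHom.mem_ker, hπ, RingHom.comp_apply, eq_intCast,
        ZMod.intCast_zmod_eq_zero_iff_dvd]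
      exact hA R hR
    let χ := (RingHom.liftOfSurjective ρ hsur) ⟨π, hker⟩
    have hχ : ∀ R, χ (ρ R) = π R := fun R =>
      RingHom.liftOfRightInverse_comp_apply ρ _ _ ⟨π, hker⟩ R
    have hJ0 : J ≤ RingHom.ker χ := Ideal.map_le_iff_le_comap.mpr fun R hR => by
      rw [RingHom.mem_ker] at hR
      rw [Ideal.mem_comap, RingHom.mem_ker, hχ, hπ, RingHom.comp_apply, hR, map_zero]
    have hm : ((M : ℤ) : T) ∈ J := by
      rw [← Ideal.Quotient.eq_zero_iff_mem, map_intCast, ← eq_intCast cast, ← RingHom.mem_ker, hM]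
      exact Ideal.mem_span_singleton_self _
    have := hJ0 hm
    rw [RingHom.mem_ker, map_intCast, ZMod.intCast_zmod_eq_zero_iff_dvd] at this
    exact_mod_cast this
  have hchar : ∀ (m : ℕ) [NeZero m] (_ψ : ZMod M →+* ZMod m), m ∣ n := fun m _ ψ =>
    hB m ((ψ.comp eq1.toRingHom).comp (Ideal.Quotient.mk J)) fun R => by
      rw [RingHom.comp_apply, RingHom.comp_apply, hcast, map_intCast, map_intCast]
  rcases Nat.eq_zero_or_pos M with rfl | hMpos
  · have h := hchar (n + 1) (Int.castRingHom _)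
    have := Nat.le_of_dvd hn h
    omega
  · have : NeZero M := ⟨hMpos.ne'⟩
    exact Nat.dvd_antisymm (hchar M (RingHom.id _)) hnM

end Fermat.Agent.Eisenstein
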