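import Fermat.Agent.Eisenstein.Primitive
import Fermat.Agent.Period.EichlerShimura

/-!
# An integral homomorphism with value one on `T`, and a criterion for parabolicity

Main results: `exists_kappa`, `mem_parabolicHoms_of_T`.
-/

set_option autoImplicit false

noncomputable section

namespace Fermat.Agent.Eisenstein

open CongruenceSubgroup ModularGroup Fermat.Agent.Period ModularCurve
open scoped MatrixGroups

variable (p : ℕ) [Fact p.Prime]

lemma base_fixed {γ : SL(2, ℤ)} (hγ : γ ∈ Gamma0 p) : γ • baseCoset p = baseCoset p := by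
  rw [baseCoset, MulAction.Quotient.smul_mk, QuotientGroup.eq]
  simpa using hγ

lemma base_out_mem : (baseCoset p).out ∈ Gamma0 p := by
  have := QuotientGroup.out_eq' (baseCoset p)
  rw [baseCoset, QuotientGroup.eq, mul_one, Subgroup.inv_mem_iff] at this
  exact this

lemma shapiro_base (χ : Additive (Gamma0 p) →+ ℂ) (γ : Gamma0 p) :
    shapiro (γ : SL(2, ℤ)) χ (baseCoset p) = χ (Additive.ofMul γ) := by
  have hl : liftGamma0 (γ : SL(2, ℤ)) (baseCoset p)
      = ⟨_, base_out_mem p⟩⁻¹ * γ * ⟨_, base_out_mem p⟩ :=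
    Subtype.ext (by simpa using coe_liftGamma0_of_fix (base_fixed p γ.2))
  rw [shapiro_apply, hl, ofMul_mul, ofMul_mul, ofMul_inv, map_add, map_add, map_neg]
  abel

lemma sum_antiS {N : ℕ} [Fintype (Coset N)] {a : Coset N → ℂ} (ha : a ∈ antiS N) : ∑ q, a q = 0 := by
  rw [mem_antiS] at ha
  have h1 : ∑ q, (a q + a (S • q)) = 0 := Finset.sum_eq_zero fun q _ => ha q
  rw [Finset.sum_add_distrib,
    show ∑ q, a (S • q) = ∑ q, a q from Equiv.sum_comp (MulAction.toPerm (S : SL(2, ℤ))) a] at h1
  linear_combination (1 / 2 : ℂ) * h1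

lemma sum_triU {N : ℕ} [Fintype (Coset N)] {b : Coset N → ℂ} (hb : b ∈ triU N) : ∑ q, b q = 0 := by
  rw [mem_triU] at hb
  have h1 : ∑ q, (b q + b (ellU • q) + b (ellU • ellU • q)) = 0 := Finset.sum_eq_zero fun q _ => hb q
  rw [Finset.sum_add_distrib, Finset.sum_add_distrib,
    show ∑ q, b (ellU • q) = ∑ q, b q from Equiv.sum_comp (MulAction.toPerm ellU) b,
    show ∑ q, b (ellU • ellU • q) = ∑ q, b q from by
      rw [← Equiv.sum_comp (MulAction.toPerm (ellU * ellU)) b]
      exact Finset.sum_congr rfl fun q _ => by simp [mul_smul]] at h1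
  linear_combination (1 / 3 : ℂ) * h1

lemma sum_shapiro_T {N : ℕ} [Fintype (Coset N)] (χ : Additive (Gamma0 N) →+ ℂ) :
    ∑ q, shapiro T χ q = 0 := by
  simp only [shapiro_T, Finset.sum_add_distrib]
  rw [show ∑ q, shapiro S χ (ellU • q) = ∑ q, shapiro S χ q from
    Equiv.sum_comp (MulAction.toPerm ellU) (shapiro S χ), sum_antiS (shapiro_mem_antiS χ),
    sum_triU (shapiro_mem_triU χ), add_zero]

/-- A coset other than the base one. -/
lemma eq_base_or_orbit (q : Coset p) :
    q = baseCoset p ∨ ∃ j : ℕ, j < p ∧ q = (T ^ j : SL(2, ℤ)) • cosetOf p S := by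
  obtain ⟨i, hi⟩ := (cosetMap_bijective p).2 q
  cases i with
  | none => exact .inl hi.symm
  | some j =>
    refine .inr ⟨(-j).val, ZMod.val_lt _, ?_⟩
    rw [← hi, cosetMap, smul_cosetOf, cosetOf_eq_iff, ← zpow_natCast (T : SL(2, ℤ)),
      ← zpow_neg, ← stMat]
    simp [coe_stMat]

/-- The `T ^ p`-values vanish as soon as the value at `T` does. -/
lemma shapiro_T_pow_eq_zero {χ : Additive (Gamma0 p) →+ ℂ}
    (hχ : χ (Additive.ofMul (tGamma p)) = 0) (q : Coset p) : shapiro (T ^ p) χ q = 0 := by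
  classical
  have : Fintype (Coset p) := Fintype.ofFinite _
  have hbase : shapiro T χ (baseCoset p) = 0 := (shapiro_base p χ (tGamma p)).trans hχ
  have hTb : ∀ j : ℕ, (T ^ j : SL(2, ℤ)) • baseCoset p = baseCoset p := fun j =>
    base_fixed p (Subgroup.pow_mem _ (tGamma p).2 j)
  rcases eq_base_or_orbit p q with rfl | ⟨i, -, rfl⟩
  · rw [shapiro_T_pow]
    exact Finset.sum_eq_zero fun j _ => by rw [hTb, hbase]
  have horb : shapiro (T ^ p) χ (cosetOf p S) = 0 := by
    set g : ℕ → Coset p := fun j => (T ^ j : SL(2, ℤ)) • cosetOf p S with hg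
    have hinj : Set.InjOn g (Finset.range p : Finset ℕ) := by
      intro a ha b hb hab
      simp only [Finset.coe_range, Set.mem_Iio] at ha hb
      have key : ∀ j : ℕ, g j = cosetOf p (stMat (-(j : ℤ))) := fun j => by
        simp only [hg, smul_cosetOf, ← zpow_natCast (T : SL(2, ℤ)), ← zpow_neg]
        rfl
      rw [key, key, cosetOf_eq_iff] at hab
      simp [coe_stMat] at hab
      have := congrArg ZMod.val (show (a : ZMod p) = (b : ZMod p) by linear_combination hab)
      rwa [ZMod.val_cast_of_lt ha, ZMod.val_cast_of_lt hb] at this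
    have hcompl : ∀ q ∈ (Finset.univ : Finset (Coset p)), q ∉ (Finset.range p).image g →
        shapiro T χ q = 0 := by
      intro q _ hq
      rcases eq_base_or_orbit p q with rfl | ⟨j, hj, rfl⟩
      · exact hbase
      · exact absurd (Finset.mem_image.mpr ⟨j, Finset.mem_range.mpr hj, rfl⟩) hq
    have h := sum_shapiro_T χ
    rw [← Finset.sum_subset (Finset.subset_univ _) hcompl, Finset.sum_image hinj] at h
    rw [shapiro_T_pow]
    exact h
  have h1 := shapiro_mul χ (T ^ p) (T ^ i) (cosetOf p S)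
  have h2 := shapiro_mul χ (T ^ i) (T ^ p) (cosetOf p S)
  rw [← pow_add, add_comm] at h1
  rw [← pow_add, T_pow_smul, horb, h1] at h2
  linear_combination h2

/-- Homomorphisms vanishing at `T` are parabolic. -/
theorem mem_parabolicHoms_of_T {χ : Additive (Gamma0 p) →+ ℂ}
    (hχ : χ (Additive.ofMul (tGamma p)) = 0) : χ ∈ Period.parabolicHoms ℂ (Gamma0 p) ℂ := by
  intro γ hγ
  obtain ⟨δ, hδ⟩ := exists_conj_upper_of_trace_sq (γ : SL(2, ℤ)) hγ
  set u := δ⁻¹ * (γ : SL(2, ℤ)) * δ with hu
  have hdet : u 0 0 * u 1 1 = 1 := by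
    have h := u.det_coe
    rw [Matrix.det_fin_two, hδ, mul_zero, sub_zero] at h
    exact h
  have hq : u • ((δ⁻¹ : SL(2, ℤ)) : Coset p) = ((δ⁻¹ : SL(2, ℤ)) : Coset p) := by
    rw [MulAction.Quotient.smul_mk, QuotientGroup.eq,
      show (u • δ⁻¹)⁻¹ * δ⁻¹ = ((γ : SL(2, ℤ)))⁻¹ by rw [hu, smul_eq_mul]; group]
    exact (Gamma0 p).inv_mem γ.2
  set q : Coset p := ((δ⁻¹ : SL(2, ℤ)) : Coset p) with hqdef
  obtain ⟨g, hg⟩ := QuotientGroup.mk_out_eq_mul (Gamma0 p) δ⁻¹
  have hlift : shapiro u χ q = χ (Additive.ofMul γ) := by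
    have hl : liftGamma0 u q = g⁻¹ * γ * g := Subtype.ext (by
      rw [coe_liftGamma0_of_fix hq, hqdef, hg, hu]
      simp only [Subgroup.coe_mul, InvMemClass.coe_inv]
      group)
    rw [shapiro_apply, hl, ofMul_mul, ofMul_mul, ofMul_inv, map_add, map_add, map_neg]
    abel
  have hpow : ∀ n : ℕ, shapiro (u ^ n) χ q = n * shapiro u χ q ∧ (u ^ n) • q = q := by
    intro n
    induction n with
    | zero => exact ⟨by simp [shapiro_one], by simp⟩
    | succ m ih =>
      refine ⟨?_, by rw [pow_succ, mul_smul, hq, ih.2]⟩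
      rw [pow_succ, shapiro_mul, hq, ih.1]
      push_cast; ring
  have hTm : ∀ m : ℕ, shapiro ((T ^ p) ^ m) χ q = 0 := by
    intro m
    induction m with
    | zero => simp [shapiro_one]
    | succ k ih => rw [pow_succ, shapiro_mul, T_pow_smul, ih, shapiro_T_pow_eq_zero p hχ, add_zero]
  obtain ⟨m, hm⟩ : ∃ m : ℕ, (u ^ (2 * p)) = (T ^ p) ^ m ∨ ((u ^ (2 * p))⁻¹) = (T ^ p) ^ m := by
    have hu2 : u ^ 2 = T ^ (2 * u 0 0 * u 0 1) := by
      rcases Int.eq_one_or_neg_one_of_mul_eq_one' hdet with ⟨ha, hd⟩ | ⟨ha, hd⟩ <;>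
        · apply Subtype.ext
          rw [Matrix.SpecialLinearGroup.coe_pow, coe_T_zpow, sq,
            Matrix.eta_fin_two (u : Matrix (Fin 2) (Fin 2) ℤ), hδ, ha, hd, Matrix.mul_fin_two]
          ext i j
          fin_cases i <;> fin_cases j <;> simp <;> ring
    refine ⟨(2 * u 0 0 * u 0 1).natAbs, ?_⟩
    rw [pow_mul, hu2, ← pow_mul, ← zpow_natCast, ← zpow_natCast, ← zpow_mul, ← zpow_neg]
    rcases Int.natAbs_eq (2 * u 0 0 * u 0 1) with he | he
    · left; congr 1; push_cast; rw [Int.natCast_natAbs] at he; linear_combination (p : ℤ) * he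
    · right; congr 1; push_cast; rw [Int.natCast_natAbs] at he; linear_combination -(p : ℤ) * he
  obtain ⟨hpn, hfix⟩ := hpow (2 * p)
  have hzero : shapiro (u ^ (2 * p)) χ q = 0 := by
    rcases hm with hm | hm
    · rw [hm, hTm]
    · have h := shapiro_mul χ ((u ^ (2 * p))⁻¹) (u ^ (2 * p)) q
      rw [inv_mul_cancel, shapiro_one, hfix, hm, hTm] at h
      linear_combination -h
  rw [hzero, hlift] at hpn
  refine (mul_eq_zero.mp hpn.symm).resolve_left ?_
  exact Nat.cast_ne_zero.mpr (mul_ne_zero two_ne_zero (NeZero.ne p))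

/-- The pairs at the torsion generators of a parabolic homomorphism plus a multiple of the
Eisenstein periods. -/
def fullPair : (Period.parabolicHoms ℂ (Gamma0 p) ℂ × ℂ) × (Coset p → ℂ) →ₗ[ℂ] antiS p × triU p :=
  let L : Period.parabolicHoms ℂ (Gamma0 p) ℂ × ℂ →ₗ[ℂ] (Additive (Gamma0 p) →+ ℂ) :=
    LinearMap.coprod (Period.parabolicHoms ℂ (Gamma0 p) ℂ).subtype
      (LinearMap.toSpanSingleton ℂ _ (eisPeriod p))
  LinearMap.prod
    (LinearMap.codRestrict (antiS p)
      (LinearMap.coprod (shapiro S ∘ₗ L) (coboundary p S))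
      (fun x => by
        rw [LinearMap.coprod_apply]
        refine Submodule.add_mem _ (shapiro_mem_antiS (L x.1)) ?_
        rw [mem_antiS]; intro q; simp [coboundary, S_smul_S]))
    (LinearMap.codRestrict (triU p)
      (LinearMap.coprod (shapiro ellU ∘ₗ L) (coboundary p ellU))
      (fun x => by
        rw [LinearMap.coprod_apply]
        refine Submodule.add_mem _ (shapiro_mem_triU (L x.1)) ?_
        rw [mem_triU]; intro q; simp [coboundary, ellU_smul_cube]))

/-- The Shapiro cocycle twisted by a coboundary, over all of the modular group. -/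
lemma cocycle_induction {N : ℕ} (χ : Additive (Gamma0 N) →+ ℂ) (b : Coset N → ℂ) (G : AddSubgroup ℂ)
    (hS : ∀ q, shapiro S χ q + (b (S • q) - b q) ∈ G)
    (hU : ∀ q, shapiro ellU χ q + (b (ellU • q) - b q) ∈ G) (σ : SL(2, ℤ)) (q : Coset N) :
    shapiro σ χ q + (b (σ • q) - b q) ∈ G := by
  have hT : ∀ q, shapiro T χ q + (b (T • q) - b q) ∈ G := fun q => by
    rw [shapiro_T, ← S_smul_ellU]
    convert G.add_mem (hS (ellU • q)) (hU q) using 1
    ring
  have hg : σ ∈ Subgroup.closure ({S, T} : Set SL(2, ℤ)) := by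
    rw [SpecialLinearGroup.SL2Z_generators]; exact Subgroup.mem_top σ
  induction hg using Subgroup.closure_induction generalizing q with
  | mem y hy =>
    rcases hy with rfl | hy
    · exact hS q
    · rw [Set.mem_singleton_iff] at hy; subst hy; exact hT q
  | one => simpa [shapiro_one] using G.zero_mem
  | mul a c _ _ ha hc =>
    rw [shapiro_mul, mul_smul]
    convert G.add_mem (ha (c • q)) (hc q) using 1
    ring
  | inv a _ ha =>
    have h1 := shapiro_mul χ a a⁻¹ q
    rw [mul_inv_cancel, shapiro_one] at h1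
    have h2 := G.neg_mem (ha (a⁻¹ • q))
    rw [smul_inv_smul] at h2
    convert h2 using 1
    linear_combination -h1

lemma finrank_ker_fullPair_le : Module.finrank ℂ (LinearMap.ker (fullPair p)) ≤ 1 := by
  let ev : LinearMap.ker (fullPair p) →ₗ[ℂ] ℂ :=
    (LinearMap.proj (baseCoset p)).comp ((LinearMap.snd ℂ _ _).comp (LinearMap.ker (fullPair p)).subtype)
  have hinj : Function.Injective ev := by
    rw [injective_iff_map_eq_zero]
    rintro ⟨⟨⟨χ, c⟩, b⟩, hx⟩ hev
    change b (baseCoset p) = 0 at hev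
    rw [LinearMap.mem_ker] at hx
    set ψ : Additive (Gamma0 p) →+ ℂ := (χ : Additive (Gamma0 p) →+ ℂ) + c • eisPeriod p with hψ
    have hS : ∀ q, shapiro S ψ q + (b (S • q) - b q) ∈ (⊥ : AddSubgroup ℂ) := fun q => by
      have := congrArg (fun y : antiS p × triU p => (y.1 : Coset p → ℂ) q) hx
      rw [AddSubgroup.mem_bot]
      simpa [fullPair, coboundary, hψ, sub_eq_add_neg] using this
    have hU : ∀ q, shapiro ellU ψ q + (b (ellU • q) - b q) ∈ (⊥ : AddSubgroup ℂ) := fun q => by
      have := congrArg (fun y : antiS p × triU p => (y.2 : Coset p → ℂ) q) hx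
      rw [AddSubgroup.mem_bot]
      simpa [fullPair, coboundary, hψ, sub_eq_add_neg] using this
    have hall := fun σ q => (AddSubgroup.mem_bot).mp (cocycle_induction ψ b ⊥ hS hU σ q)
    have hψ0 : ψ = 0 := by
      refine AddMonoidHom.ext fun y => ?_
      obtain ⟨γ, rfl⟩ := Additive.ofMul.surjective y
      have h1 := hall (γ : SL(2, ℤ)) (baseCoset p)
      rw [base_fixed p γ.2, sub_self, add_zero, shapiro_base] at h1
      exact h1
    have hc : c = 0 := by
      have h := DFunLike.congr_fun hψ0 (Additive.ofMul (tGamma p))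
      have hpar : (χ : Additive (Gamma0 p) →+ ℂ) (Additive.ofMul (tGamma p)) = 0 := by
        refine χ.2 _ ?_
        simp [tGamma, coe_T, Matrix.trace_fin_two]
      rw [hψ, AddMonoidHom.add_apply, hpar, zero_add] at h
      change c * eisPeriod p (Additive.ofMul (tGamma p)) = 0 at h
      rw [eisPeriod_T, mul_eq_zero] at h
      refine h.resolve_right ?_
      rw [sub_eq_zero, Nat.cast_eq_one]
      exact (Fact.out : p.Prime).ne_one
    subst hc
    have hχ : χ = 0 := Subtype.ext (by simpa [hψ] using hψ0)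
    subst hχ
    have hb : b = 0 := funext fun q => by
      rw [eq_base_of_invariant (lam := b) (fun r => ?_) (fun r => ?_) q, hev]
      · rfl
      · have h := hall S r
        rw [hψ0] at h
        simpa [shapiro_apply, sub_eq_zero] using h
      · have h := hall T r
        rw [hψ0] at h
        simpa [shapiro_apply, sub_eq_zero] using h
    subst hb
    rfl
  simpa using LinearMap.finrank_le_finrank_of_injective hinj

lemma fullPair_surjective : Function.Surjective (fullPair p) := by
  have := parabolicHoms_finiteDimensional (N := p)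
  have : Fintype (Coset p) := Fintype.ofFinite _
  rw [← LinearMap.range_eq_top]
  apply Submodule.eq_top_of_finrank_eq
  refine le_antisymm (Submodule.finrank_le _) ?_
  have h1 := LinearMap.finrank_range_add_finrank_ker (fullPair p)
  have h2 := finrank_ker_fullPair_le p
  have h3 := finrank_antiS (N := p)
  have h4 := finrank_triU (N := p)
  have h5 := twelve_mul_finrank_cuspForm_two p
  have h6 := finrank_parabolicHoms p
  rw [← card_coset (N := p), ← fixCard_S (N := p), ← fixCard_ellU (N := p)] at h5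
  have hc : cuspCount p = 2 := by
    rw [cuspCount, (Fact.out : p.Prime).divisors]
    rw [Finset.sum_pair (Fact.out : p.Prime).ne_one.symm]
    simp [(Fact.out : p.Prime).pos]
  rw [hc] at h5
  rw [Module.finrank_prod, Module.finrank_prod, Module.finrank_self,
    Module.finrank_fintype_fun_eq_card, ← Nat.card_eq_fintype_card] at h1
  rw [Module.finrank_prod]
  omega

/-- An integral homomorphism with value one at `T`. -/
theorem exists_kappa : ∃ κ : Additive (Gamma0 p) →+ ℂ,
    κ (Additive.ofMul (tGamma p)) = 1 ∧ ∀ γ, ∃ m : ℤ, κ (Additive.ofMul γ) = m := by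
  classical
  set a : Coset p := ellU • baseCoset p with ha
  have hne : a ≠ baseCoset p := by
    intro h
    rw [ha, baseCoset, MulAction.Quotient.smul_mk, QuotientGroup.eq, smul_eq_mul, mul_one, mul_one,
      Subgroup.inv_mem_iff] at h
    rw [Gamma0_mem] at h
    simp [coe_ellU] at h
  have hSa : S • a = baseCoset p := by rw [ha, S_smul_ellU]; exact base_fixed p (tGamma p).2
  set f : Coset p → ℂ := Pi.single a 1 - Pi.single (baseCoset p) 1 with hf
  have hfmem : f ∈ antiS p := by
    rw [mem_antiS]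
    intro q
    simp only [hf, Pi.sub_apply, Pi.single_apply]
    have e1 : S • q = a ↔ q = baseCoset p := by
      constructor
      · intro h; rw [← hSa, ← h, S_smul_S]
      · intro h; rw [h, ← hSa, S_smul_S]
    have e2 : S • q = baseCoset p ↔ q = a := by
      constructor
      · intro h; rw [← S_smul_S q, h, ← hSa, S_smul_S]
      · intro h; rw [h, hSa]
    rw [if_congr e1 rfl rfl, if_congr e2 rfl rfl]
    ring
  obtain ⟨⟨⟨χ, c⟩, b⟩, hx⟩ := fullPair_surjective p (⟨f, hfmem⟩, 0)
  set κ : Additive (Gamma0 p) →+ ℂ := (χ : Additive (Gamma0 p) →+ ℂ) + c • eisPeriod p with hκ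
  have hS : ∀ q, shapiro S κ q + (b (S • q) - b q) = f q := fun q => by
    have := congrArg (fun y : antiS p × triU p => (y.1 : Coset p → ℂ) q) hx
    simpa [fullPair, coboundary, hκ, sub_eq_add_neg] using this
  have hU : ∀ q, shapiro ellU κ q + (b (ellU • q) - b q) = 0 := fun q => by
    have := congrArg (fun y : antiS p × triU p => (y.2 : Coset p → ℂ) q) hx
    simpa [fullPair, coboundary, hκ, sub_eq_add_neg] using this
  refine ⟨κ, ?_, fun γ => ?_⟩
  · rw [← shapiro_base, show ((tGamma p : Gamma0 p) : SL(2, ℤ)) = T from rfl, shapiro_T]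
    have e1 := hS a
    rw [hSa, hf, Pi.sub_apply, Pi.single_eq_same, Pi.single_eq_of_ne hne, sub_zero] at e1
    have e2 := hU (baseCoset p)
    rw [← ha] at e2 ⊢
    linear_combination e1 + e2
  · have hZ : ∀ q, f q ∈ (Int.castAddHom ℂ).range := fun q => by
      refine ⟨(Pi.single a 1 : Coset p → ℤ) q - (Pi.single (baseCoset p) 1 : Coset p → ℤ) q, ?_⟩
      simp only [hf, Int.coe_castAddHom, Pi.sub_apply, Pi.single_apply]
      split_ifs <;> simp
    have h := cocycle_induction κ b (Int.castAddHom ℂ).range (fun q => by rw [hS]; exact hZ q)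
      (fun q => by rw [hU]; exact AddSubgroup.zero_mem _) (γ : SL(2, ℤ)) (baseCoset p)
    rw [base_fixed p γ.2, sub_self, add_zero, shapiro_base] at h
    obtain ⟨m, hm⟩ := h
    exact ⟨m, hm.symm⟩

end Fermat.Agent.Eisenstein
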