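import Fermat.Agent.Period.Rank
import Fermat.Agent.Period.CosetCount
import Fermat.Prelude.Def_ModularForm_HeckeOperator

/-!
# Prime level: the `p + 1` cosets, the Fricke matrix and the trace to level one

Main results: `cosetEquiv`, `frickeGL`, `slash_ST`, `trace_mem_lev`, `fricke_eq_neg_heckeU`.
-/

set_option autoImplicit false

noncomputable section

namespace Fermat.Agent.Eisenstein

open UpperHalfPlane CongruenceSubgroup ModularGroup ModularForm Fermat.Agent.Period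
open scoped MatrixGroups ModularForm Manifold

variable (p : ℕ) [Fact p.Prime]

/-- The representative `S * T ^ j`. -/
def stMat (j : ℤ) : SL(2, ℤ) := S * T ^ j

lemma coe_stMat (j : ℤ) : (stMat j : Matrix (Fin 2) (Fin 2) ℤ) = !![0, -1; 1, j] := by
  rw [stMat, Matrix.SpecialLinearGroup.coe_mul, coe_S, coe_T_zpow]
  simp [Matrix.mul_fin_two]

lemma stMat_row (j : ℤ) : stMat j 1 0 = 1 ∧ stMat j 1 1 = j := by
  constructor <;> simp [coe_stMat]

/-- The cosets at prime level. -/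
def cosetMap : Option (ZMod p) → Coset p
  | none => baseCoset p
  | some j => cosetOf p (stMat (j.val : ℤ))

lemma baseCoset_eq : baseCoset p = cosetOf p 1 := by simp [baseCoset, cosetOf]

lemma cosetMap_bijective : Function.Bijective (cosetMap p) := by
  have hp := (Fact.out : p.Prime)
  refine ⟨?_, fun q => ?_⟩
  · rintro (_ | i) (_ | j) h <;> simp only [cosetMap, baseCoset_eq] at h
    · rfl
    · rw [cosetOf_eq_iff_dvd] at h
      simp [coe_stMat] at h
      rw [Int.natCast_dvd] at h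
      exact absurd (by simpa using h) hp.ne_one
    · rw [cosetOf_eq_iff_dvd] at h
      simp [coe_stMat] at h
      rw [Int.natCast_dvd] at h
      exact absurd (by simpa using h) hp.ne_one
    · rw [cosetOf_eq_iff] at h
      simp [coe_stMat] at h
      congr 1
      linear_combination -h
  · obtain ⟨g, rfl⟩ := cosetOf_surjective q
    by_cases hc : (p : ℤ) ∣ g 1 0
    · refine ⟨none, ?_⟩
      rw [cosetMap, baseCoset_eq, cosetOf_eq_iff_dvd]
      simpa using hc
    · have hcz : (g 1 0 : ZMod p) ≠ 0 := by rwa [Ne, ZMod.intCast_zmod_eq_zero_iff_dvd]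
      refine ⟨some ((g 1 1 : ZMod p) / (g 1 0 : ZMod p)), ?_⟩
      rw [cosetMap, cosetOf_eq_iff]
      simp [coe_stMat]
      field_simp
      ring

/-- The cosets of `Γ₀(p)`: the identity and `S * T ^ j`. -/
def cosetEquiv : Option (ZMod p) ≃ Coset p := Equiv.ofBijective _ (cosetMap_bijective p)

@[simp] lemma cosetEquiv_apply (i : Option (ZMod p)) : cosetEquiv p i = cosetMap p i := rfl

/-- The Fricke matrix `(0, -1; p, 0)`. -/
def frickeGL : GL (Fin 2) ℝ := ((S : SL(2, ℤ)) : GL (Fin 2) ℝ) * scaleGL p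

lemma scaleGL_eq : scaleGL p = heckeDiagMatrix p := by
  apply Units.ext
  rw [coe_scaleGL, val_heckeDiagMatrix (NeZero.ne p)]

lemma coe_frickeGL :
    ((frickeGL p : GL (Fin 2) ℝ) : Matrix (Fin 2) (Fin 2) ℝ) = !![0, -1; (p : ℝ), 0] := by
  rw [frickeGL, Units.val_mul, coe_scaleGL]
  ext i j
  fin_cases i <;> fin_cases j <;> simp [Matrix.mul_apply, Fin.sum_univ_two, coe_S]

lemma det_frickeGL : ((frickeGL p).det : ℝ) = p := by
  rw [Matrix.GeneralLinearGroup.val_det_apply, coe_frickeGL, Matrix.det_fin_two_of]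
  ring

lemma det_frickeGL_pos : 0 < ((frickeGL p).det : ℝ) := by
  rw [det_frickeGL]
  exact_mod_cast (Fact.out : p.Prime).pos

lemma coe_frickeGL_smul (z : ℍ) : ((frickeGL p • z : ℍ) : ℂ) = -1 / ((p : ℂ) * z) := by
  rw [coe_smul_of_det_pos (det_frickeGL_pos p)]
  simp [num, denom, coe_frickeGL]

lemma frickeGL_smul_smul (z : ℍ) : frickeGL p • (frickeGL p • z) = z := by
  apply UpperHalfPlane.ext
  rw [coe_frickeGL_smul, coe_frickeGL_smul]
  have hp : (p : ℂ) ≠ 0 := Nat.cast_ne_zero.mpr (NeZero.ne p)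
  have hz : (z : ℂ) ≠ 0 := z.ne_zero
  field_simp

lemma slash_frickeGL_apply (k : ℤ) (f : ℍ → ℂ) (z : ℍ) :
    (f ∣[k] frickeGL p) z =
      f (frickeGL p • z) * (p : ℂ) ^ (k - 1) * ((p : ℂ) * z) ^ (-k) := by
  rw [ModularForm.slash_apply, UpperHalfPlane.σ, if_pos (det_frickeGL_pos p), det_frickeGL]
  simp [denom, coe_frickeGL]

lemma frickeGL_conj {γ : SL(2, ℤ)} (hγ : γ ∈ Gamma0 p) :
    ∃ γ' ∈ Gamma0 p, frickeGL p * (γ : GL (Fin 2) ℝ) = (γ' : GL (Fin 2) ℝ) * frickeGL p ∧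
      γ' 0 0 = γ 1 1 ∧ (p : ℤ) * γ' 0 1 = -γ 1 0 ∧ γ' 1 0 = -((p : ℤ) * γ 0 1) ∧
      γ' 1 1 = γ 0 0 := by
  rw [Gamma0_mem, ZMod.intCast_zmod_eq_zero_iff_dvd] at hγ
  obtain ⟨c, hc⟩ := hγ
  have hdet : γ 0 0 * γ 1 1 - γ 0 1 * γ 1 0 = 1 := by
    rw [← Matrix.det_fin_two (γ : Matrix (Fin 2) (Fin 2) ℤ)]; exact γ.det_coe
  obtain ⟨γ', e00, e01, e10, e11⟩ : ∃ γ' : SL(2, ℤ), γ' 0 0 = γ 1 1 ∧ γ' 0 1 = -c ∧
      γ' 1 0 = -((p : ℤ) * γ 0 1) ∧ γ' 1 1 = γ 0 0 := by
    refine ⟨⟨!![γ 1 1, -c; -((p : ℤ) * γ 0 1), γ 0 0], ?_⟩, rfl, rfl, rfl, rfl⟩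
    rw [Matrix.det_fin_two_of]
    rw [hc] at hdet
    linear_combination hdet
  refine ⟨γ', ?_, ?_, e00, by rw [e01, hc]; ring, e10, e11⟩
  · rw [Gamma0_mem, e10]
    simp
  · apply Units.ext
    rw [Units.val_mul, Units.val_mul, coe_frickeGL]
    ext i j
    fin_cases i <;> fin_cases j <;>
      simp [Matrix.mul_apply, Fin.sum_univ_two, hc, e00, e01, e10, e11, mul_comm]

variable {p}

lemma slash_fricke_mem {k : ℤ} {f : ℍ → ℂ} (hf : f ∈ modFun (Gamma0 p) k) :
    f ∣[k] frickeGL p ∈ modFun (Gamma0 p) k := by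
  refine ⟨hf.1.slash _ _, fun γ hγ => ?_, fun δ => ?_⟩
  · obtain ⟨γ', hγ', h, -⟩ := frickeGL_conj p hγ
    rw [ModularForm.SL_slash, ← SlashAction.slash_mul, h, SlashAction.slash_mul,
      ← ModularForm.SL_slash, modFun.slash_eq hf hγ']
  · obtain ⟨σ, hσ⟩ := exists_upper_scaleGL (N := p) δ
    rw [ModularForm.SL_slash, ← SlashAction.slash_mul,
      show frickeGL p * (δ : GL (Fin 2) ℝ) = ((S * σ : SL(2, ℤ)) : GL (Fin 2) ℝ)
        * (((σ⁻¹ : SL(2, ℤ)) : GL (Fin 2) ℝ) * (scaleGL p * (δ : GL (Fin 2) ℝ))) by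
        simp [frickeGL, ← mul_assoc],
      SlashAction.slash_mul, ← ModularForm.SL_slash]
    exact IsBoundedAtImInfty.slash _ hσ (modFun.bdd hf (S * σ))

/-- Conjugates of `f` are translates of its Fricke transform. -/
lemma slash_ST (k : ℤ) (f : ℍ → ℂ) (j : ℕ) :
    f ∣[k] stMat (j : ℤ) =
      (p : ℂ) ^ (2 - k) • ((f ∣[k] frickeGL p) ∣[k] heckeMatrix p j) := by
  funext z
  have hp : (p : ℂ) ≠ 0 := Nat.cast_ne_zero.mpr (NeZero.ne p)
  rw [Pi.smul_apply, smul_eq_mul, slash_heckeMatrix_apply k (NeZero.ne p), slash_frickeGL_apply,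
    ModularForm.SL_slash_apply]
  have hval : (p : ℂ) * ((heckeMatrix p j • z : ℍ) : ℂ) = (z : ℂ) + j := by
    rw [coe_heckeMatrix_smul (NeZero.ne p)]
    field_simp
  have hpt : frickeGL p • (heckeMatrix p j • z) = stMat (j : ℤ) • z := by
    apply UpperHalfPlane.ext
    rw [coe_frickeGL_smul, hval, coe_specialLinearGroup_apply]
    simp [coe_stMat]
  rw [hpt, hval, ModularGroup.denom_apply, coe_stMat]
  simp only [Matrix.of_apply, Matrix.cons_val', Matrix.cons_val_zero, Matrix.cons_val_one,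
    Matrix.cons_val_fin_one, Int.cast_one, one_mul, Int.cast_natCast]
  rw [show (2 - k : ℤ) = 1 - (k - 1) by ring, zpow_sub₀ hp, zpow_one]
  have := zpow_ne_zero (k - 1) hp
  field_simp

lemma slash_cosetMap {k : ℤ} {f : ℍ → ℂ} (hf : f ∈ modFun (Gamma0 p) k) (i : Option (ZMod p)) :
    branch k f (cosetMap p i) = i.elim f
      (fun j => (p : ℂ) ^ (2 - k) • ((f ∣[k] frickeGL p) ∣[k] heckeMatrix p j.val)) := by
  cases i with
  | none => rw [cosetMap, baseCoset_eq, cosetOf, ← slash_eq_branch hf, SlashAction.slash_one]; rfl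
  | some j => rw [cosetMap, cosetOf, ← slash_eq_branch hf, slash_ST (p := p)]; rfl

/-- The trace to level one. -/
theorem trace_mem_lev {k : ℤ} {f : ℍ → ℂ} (hf : f ∈ modFun (Gamma0 p) k) :
    f + (p : ℂ) ^ (2 - k) • heckeU k p (f ∣[k] frickeGL p) ∈ lev k := by
  classical
  have hsum : f + (p : ℂ) ^ (2 - k) • heckeU k p (f ∣[k] frickeGL p)
      = ∑ i : Option (ZMod p), branch k f (cosetMap p i) := by
    rw [Fintype.sum_option, slash_cosetMap hf, heckeU_def, Finset.smul_sum]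
    congr 1
    rw [Finset.sum_congr rfl fun (j : ZMod p) _ => slash_cosetMap hf (some j)]
    refine Finset.sum_bij' (fun j _ => (j : ZMod p)) (fun j _ => j.val) ?_ ?_ ?_ ?_ ?_
    · simp
    · intro j _; simp [ZMod.val_lt]
    · intro j hj; simp [ZMod.val_cast_of_lt (Finset.mem_range.mp hj)]
    · intro j _; simp
    · intro j hj; simp [ZMod.val_cast_of_lt (Finset.mem_range.mp hj)]
  rw [hsum]
  have : Fintype (Coset p) := Fintype.ofFinite _
  rw [show ∑ i : Option (ZMod p), branch k f (cosetMap p i) = ∑ q : Coset p, branch k f q from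
    Equiv.sum_comp (cosetEquiv p) (fun q => branch k f q)]
  refine ⟨?_, fun γ _ => ?_, fun δ => ?_⟩
  · exact Finset.sum_induction _ (fun g : ℍ → ℂ => MDifferentiable 𝓘(ℂ) 𝓘(ℂ) g)
      (fun _ _ => MDifferentiable.add) mdifferentiable_const fun q _ => hf.1.slash _ _
  · rw [SlashAction.sum_slash, Finset.sum_congr rfl fun q _ => branch_slash hf q γ]
    exact Equiv.sum_comp (MulAction.toPerm γ⁻¹) (fun q => branch k f q)
  · rw [SlashAction.sum_slash]
    refine Finset.sum_induction _ (fun g : ℍ → ℂ => IsBoundedAtImInfty g)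
      (fun _ _ => Filter.BoundedAtFilter.add) (Filter.const_boundedAtFilter _ 0) fun q _ => ?_
    rw [branch, ← SlashAction.slash_mul]
    exact modFun.bdd hf _

theorem fricke_sq (f : ℍ → ℂ) : (f ∣[(2 : ℤ)] frickeGL p) ∣[(2 : ℤ)] frickeGL p = f := by
  funext z
  have hp : (p : ℂ) ≠ 0 := Nat.cast_ne_zero.mpr (NeZero.ne p)
  have hz : (z : ℂ) ≠ 0 := z.ne_zero
  rw [slash_frickeGL_apply, slash_frickeGL_apply, frickeGL_smul_smul, coe_frickeGL_smul]
  field_simp
  norm_num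

/-- In weight two and prime level the Fricke transform is `-U_p`. -/
theorem fricke_eq_neg_heckeU {f : ℍ → ℂ} (hf : f ∈ modFun (Gamma0 p) 2) :
    f ∣[(2 : ℤ)] frickeGL p = -heckeU 2 p f := by
  have h := lev_weight_two (trace_mem_lev (p := p) (slash_fricke_mem (p := p) hf))
  rw [fricke_sq, sub_self, zpow_zero, one_smul] at h
  exact eq_neg_of_add_eq_zero_left h

end Fermat.Agent.Eisenstein
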