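import Fermat.Agent.Eisenstein.DeltaSeries
import Fermat.Agent.GalRep.Embeddings
import Mathlib.RingTheory.MvPolynomial.WeightedHomogeneous
import Mathlib.Algebra.MvPolynomial.Funext

/-!
# Integral forms of level one as polynomials in `E₄`, `E₆`, `Δ`

Main results: `exists_formPoly`, `aeval_eq_of_evForm`, `exists_dvd_aeval`.
-/

set_option autoImplicit false

noncomputable section

namespace Fermat.Agent.Eisenstein

open UpperHalfPlane CongruenceSubgroup ModularGroup ModularForm EisensteinSeries
  Fermat.Agent.Period Fermat.Agent.MCurve Filter Topology MvPolynomial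
open scoped MatrixGroups ModularForm Manifold

local notation "Δ" => ModularForm.discriminant

/-- Polynomials in the three generators. -/
abbrev FormPoly : Type := MvPolynomial (Fin 3) ℤ

/-- Weights of the generators. -/
def formWt : Fin 3 → ℕ := ![4, 6, 12]

/-- The series of `E₄` over `ℤ`. -/
def e4Ser : PowerSeries ℤ :=
  PowerSeries.mk fun m => if m = 0 then 1 else 240 * (ArithmeticFunction.sigma 3 m : ℤ)

/-- The series of `E₆` over `ℤ`. -/
def e6Ser : PowerSeries ℤ :=
  PowerSeries.mk fun m => if m = 0 then 1 else -504 * (ArithmeticFunction.sigma 5 m : ℤ)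

lemma qexp_E4 : QExp 1 (E₄ : ℍ → ℂ) (toC e4Ser) := by
  have h := qexp_of_periodic one_pos (lev_periodic E4_mem) E4_mem.1 (modFun_bdd E4_mem)
  convert h using 1
  ext m
  rw [PowerSeries.coeff_map, e4Ser, PowerSeries.coeff_mk, eq_intCast,
    E_qExpansion_coeff (by norm_num) ⟨2, rfl⟩, show bernoulli 4 = -1 / 30 by decide +kernel]
  split_ifs <;> push_cast <;> ring

lemma qexp_E6 : QExp 1 (E₆ : ℍ → ℂ) (toC e6Ser) := by
  have h := qexp_of_periodic one_pos (lev_periodic E6_mem) E6_mem.1 (modFun_bdd E6_mem)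
  convert h using 1
  ext m
  rw [PowerSeries.coeff_map, e6Ser, PowerSeries.coeff_mk, eq_intCast,
    E_qExpansion_coeff (by norm_num) ⟨3, rfl⟩, show bernoulli 6 = 1 / 42 by decide +kernel]
  split_ifs <;> push_cast <;> ring

/-- Evaluation on the generators. -/
def evForm : FormPoly →ₐ[ℤ] (ℍ → ℂ) := aeval ![(E₄ : ℍ → ℂ), (E₆ : ℍ → ℂ), Δ]

/-- Series of a polynomial in the generators. -/
def serForm : FormPoly →ₐ[ℤ] PowerSeries ℤ := aeval ![e4Ser, e6Ser, deltaSer]

lemma qexp_evForm (P : FormPoly) : QExp 1 (evForm P) (toC (serForm P)) := by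
  induction P using MvPolynomial.induction_on with
  | C a =>
    simp only [evForm, serForm, eq_intCast, map_intCast]
    have h := QExp.C (h := 1) (a : ℂ)
    rw [map_intCast] at h
    exact h
  | add P Q hP hQ => simpa only [map_add] using hP.add hQ
  | mul_X P i hP =>
    rw [map_mul, map_mul, map_mul]
    refine hP.mul ?_
    fin_cases i <;> simp [evForm, serForm, qexp_E4, qexp_E6, qexp_discriminant]

lemma evForm_mem {k : ℕ} {P : FormPoly} (hP : IsWeightedHomogeneous formWt P k) :
    evForm P ∈ lev (k : ℤ) := by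
  rw [P.as_sum, map_sum]
  refine sum_mem fun d hd => ?_
  have hw := hP (mem_support_iff.mp hd)
  simp only [evForm, aeval_monomial, eq_intCast]
  rw [Finsupp.prod_fintype _ _ (fun _ => pow_zero _), Fin.prod_univ_three]
  have h1 := modFun_mul (modFun_mul (modFun_pow E4_mem (d 0)) (modFun_pow E6_mem (d 1)))
    (modFun_pow Δ_mem (d 2))
  have h2 : (d 0 : ℤ) * 4 + (d 1 : ℤ) * 6 + (d 2 : ℤ) * 12 = k := by
    rw [← hw, Finsupp.weight_apply, Finsupp.sum_fintype _ _ (fun i => zero_smul ℕ (formWt i)),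
      Fin.sum_univ_three]
    simp [formWt]
  rw [show ((coeff d P : ℤ) : ℍ → ℂ) = fun _ => ((coeff d P : ℤ) : ℂ) from rfl]
  exact modFun_weight (by rw [← h2]; ring) (modFun_mul (const_mem_lev _) h1)

lemma lev_odd {k : ℤ} (hk : Odd k) {g : ℍ → ℂ} (hg : g ∈ lev k) : g = 0 := by
  funext z
  have h := congrFun (lev.slash_eq hg (-1 : SL(2, ℤ))) z
  rw [ModularForm.SL_slash_apply] at h
  have hd : denom ((-1 : SL(2, ℤ)) : GL (Fin 2) ℝ) z = -1 := by simp [denom]
  have hz : (-1 : SL(2, ℤ)) • z = z := by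
    apply UpperHalfPlane.ext
    simp
  rw [hd, hz, zpow_neg, hk.neg_one_zpow] at h
  show g z = 0
  linear_combination (-(1 : ℂ) / 2) * h

lemma constantCoeff_e4Ser : PowerSeries.constantCoeff e4Ser = 1 := by
  rw [← PowerSeries.coeff_zero_eq_constantCoeff_apply, e4Ser, PowerSeries.coeff_mk, if_pos rfl]

lemma constantCoeff_e6Ser : PowerSeries.constantCoeff e6Ser = 1 := by
  rw [← PowerSeries.coeff_zero_eq_constantCoeff_apply, e6Ser, PowerSeries.coeff_mk, if_pos rfl]

lemma constantCoeff_deltaSer : PowerSeries.constantCoeff deltaSer = 0 := by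
  rw [← PowerSeries.coeff_zero_eq_constantCoeff_apply, coeff_deltaSer_zero]

lemma serForm_mon (a b : ℕ) :
    (serForm (X 0 ^ a * X 1 ^ b)).coeff 0 = 1 := by
  rw [PowerSeries.coeff_zero_eq_constantCoeff, map_mul, map_pow, map_pow]
  simp [serForm, constantCoeff_e4Ser, constantCoeff_e6Ser]

lemma constantCoeff_serForm (P : FormPoly) :
    PowerSeries.constantCoeff (serForm P) = aeval ![(1 : ℤ), 1, 0] P := by
  induction P using MvPolynomial.induction_on with
  | C a => simp [serForm]
  | add P Q hP hQ => simp [map_add, hP, hQ]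
  | mul_X P i hP =>
    rw [map_mul, map_mul, map_mul, hP]
    congr 1
    fin_cases i <;>
      simp [serForm, constantCoeff_e4Ser, constantCoeff_e6Ser, constantCoeff_deltaSer]

lemma serForm_unique {P : FormPoly} {s : PowerSeries ℤ} {g : ℍ → ℂ} (h : evForm P = g)
    (hs : QExp 1 g (toC s)) : serForm P = s :=
  toC_injective ((h ▸ qexp_evForm P).unique one_pos hs)

/-- An integral form of level one is an integral polynomial in the generators. -/
theorem exists_formPoly : ∀ (k : ℕ) (g : ℍ → ℂ) (s : PowerSeries ℤ), g ∈ lev (k : ℤ) →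
    QExp 1 g (toC s) →
    ∃ P : FormPoly, IsWeightedHomogeneous formWt P k ∧ evForm P = g ∧ serForm P = s := by
  intro k
  induction k using Nat.strong_induction_on with
  | _ k ih =>
    intro g s hg hs
    suffices ∃ P : FormPoly, IsWeightedHomogeneous formWt P k ∧ evForm P = g from
      let ⟨P, h1, h2⟩ := this
      ⟨P, h1, h2, serForm_unique h2 hs⟩
    have hzero : g = 0 → ∃ P : FormPoly, IsWeightedHomogeneous formWt P k ∧ evForm P = g :=
      fun h => ⟨0, isWeightedHomogeneous_zero _ _ _, by rw [map_zero, h]⟩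
    rcases Nat.even_or_odd k with hev | hodd
    swap
    · exact hzero (lev_odd (Int.odd_coe_nat k |>.mpr hodd) hg)
    rcases eq_or_ne k 2 with rfl | hk2
    · exact hzero (lev_weight_two hg)
    obtain ⟨a, b, hab⟩ : ∃ a b : ℕ, a * 4 + b * 6 = k := by
      obtain ⟨c, rfl⟩ := hev
      rcases Nat.even_or_odd c with ⟨d, rfl⟩ | ⟨d, rfl⟩
      · exact ⟨d, 0, by ring⟩
      · exact ⟨d - 1, 1, by omega⟩
    set M : FormPoly := C (s.coeff 0) * (X 0 ^ a * X 1 ^ b) with hM
    have hMh : IsWeightedHomogeneous formWt M k := by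
      have h := ((isWeightedHomogeneous_X (R := ℤ) formWt 0).pow a).mul
        ((isWeightedHomogeneous_X (R := ℤ) formWt 1).pow b)
      have h' := (isWeightedHomogeneous_C (R := ℤ) formWt (s.coeff 0)).mul h
      rwa [show 0 + (a • formWt 0 + b • formWt 1) = k from by simp [formWt, hab]] at h'
    set g1 := g - evForm M with hg1
    set s1 := s - serForm M with hs1
    have hg1m : g1 ∈ lev (k : ℤ) := sub_mem hg (evForm_mem hMh)
    have hs1q : QExp 1 g1 (toC s1) := by
      rw [hs1, map_sub]
      exact qexp_sub hs (qexp_evForm M)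
    have h0 : s1.coeff 0 = 0 := by
      rw [hs1, map_sub, hM, map_mul, show serForm (C (s.coeff 0)) = PowerSeries.C (s.coeff 0) by
        simp [serForm], PowerSeries.coeff_C_mul, serForm_mon]
      ring
    have ht := tendsto_of_qexp one_pos (lev_periodic hg1m) hg1m.1 (modFun_bdd hg1m) hs1q
    rw [PowerSeries.coeff_map, h0, map_zero] at ht
    have hh : (fun τ => g1 τ / Δ τ) ∈ lev ((k : ℤ) - 12) := div_discriminant_mem hg1m fun δ => by
      rw [lev.slash_eq hg1m δ]
      exact isBounded_div_discriminant (lev_periodic hg1m) hg1m.1 ht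
    rcases lt_or_ge k 12 with hk | hk
    · refine ⟨M, hMh, ?_⟩
      have h := modFun_eq_zero_of_neg (by omega) hh
      funext τ
      have := congrFun h τ
      simp only [hg1, Pi.zero_apply, div_eq_zero_iff, discriminant_ne_zero τ, or_false,
        Pi.sub_apply, sub_eq_zero] at this
      exact this.symm
    have hh' : (fun τ => g1 τ / Δ τ) ∈ lev ((k - 12 : ℕ) : ℤ) :=
      modFun_weight (by omega) hh
    set u : PowerSeries ℤ := PowerSeries.mk fun n => s1.coeff (n + 1) with hu
    set t : PowerSeries ℤ := u * PowerSeries.invOfUnit etaPow 1 with ht'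
    have hts : deltaSer * t = s1 := by
      have hu' : s1 = PowerSeries.X * u := by
        rw [hu]
        ext n
        cases n with
        | zero => simpa using h0
        | succ n => simp [PowerSeries.coeff_succ_X_mul]
      rw [hu', deltaSer, ht', mul_assoc, mul_left_comm etaPow,
        PowerSeries.mul_invOfUnit etaPow 1 constantCoeff_etaPow, mul_one]
    have hhq : QExp 1 (fun τ => g1 τ / Δ τ) (toC t) := by
      have hv := qexp_of_periodic one_pos (lev_periodic hh) hh.1 (modFun_bdd hh)
      have h1 := (qexp_discriminant.mul hv).congr (g := g1) fun τ => by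
        rw [Pi.mul_apply, mul_div_cancel₀ _ (discriminant_ne_zero τ)]
      have h2 := h1.unique one_pos hs1q
      rw [← hts, map_mul] at h2
      have hne : toC deltaSer ≠ 0 := fun h => by
        have := congrArg (PowerSeries.coeff 1) h
        simp [PowerSeries.coeff_map, coeff_deltaSer_one] at this
      rwa [mul_left_cancel₀ hne h2] at hv
    obtain ⟨Q, hQh, hQ, -⟩ := ih (k - 12) (by omega) _ t hh' hhq
    refine ⟨M + X 2 * Q, hMh.add ?_, ?_⟩
    · have h := (isWeightedHomogeneous_X (R := ℤ) formWt 2).mul hQh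
      rwa [show formWt 2 + (k - 12) = k from by
        show 12 + (k - 12) = k
        omega] at h
    · funext τ
      simp only [map_add, map_mul, hQ]
      simp only [evForm, aeval_X, Pi.add_apply, Pi.mul_apply, hg1, Pi.sub_apply, Matrix.cons_val]
      rw [mul_div_cancel₀ _ (discriminant_ne_zero τ)]
      ring

lemma exists_reduced (R : FormPoly) : ∃ (N : ℕ) (S : MvPolynomial (Fin 2) ℤ),
    ∀ (A : Type) [CommRing A] (v : Fin 3 → A), 1728 * v 2 = v 0 ^ 3 - v 1 ^ 2 →
      (1728 : A) ^ N * aeval v R = aeval ![v 0, v 1] S := by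
  induction R using MvPolynomial.induction_on with
  | C a => exact ⟨0, C a, fun A _ v _ => by simp⟩
  | add P Q hP hQ =>
    obtain ⟨n, S, hS⟩ := hP
    obtain ⟨m, S', hS'⟩ := hQ
    refine ⟨n + m, C (1728 ^ m) * S + C (1728 ^ n) * S', fun A _ v hv => ?_⟩
    simp only [map_add, map_mul, map_pow, map_ofNat]
    rw [← hS A v hv, ← hS' A v hv]
    ring
  | mul_X P i hP =>
    obtain ⟨n, S, hS⟩ := hP
    fin_cases i
    · exact ⟨n, S * X 0, fun A _ v hv => by simp [← hS A v hv, mul_assoc]⟩
    · exact ⟨n, S * X 1, fun A _ v hv => by simp [← hS A v hv, mul_assoc]⟩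
    · refine ⟨n + 1, S * (X 0 ^ 3 - X 1 ^ 2), fun A _ v hv => ?_⟩
      simp only [map_mul, aeval_X, map_sub, map_pow, Matrix.cons_val_zero, Matrix.cons_val_one,
        ← hv, ← hS A v hv]
      show (1728 : A) ^ (n + 1) * (aeval v P * v 2) = _
      ring

/-- `E₄` and `E₆` are algebraically independent. -/
theorem eq_zero_of_aeval_E4_E6 {S : MvPolynomial (Fin 2) ℤ}
    (h : ∀ z, aeval ![E₄ z, E₆ z] S = 0) : S = 0 := by
  set S' : MvPolynomial (Fin 2) ℂ := MvPolynomial.map (Int.castRingHom ℂ) S with hS'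
  have hev : ∀ v : Fin 2 → ℂ, MvPolynomial.eval v S' = aeval v S := fun v => by
    rw [hS', MvPolynomial.eval_map]; rfl
  -- vanishing along the weighted lines
  have hline : ∀ (z : ℍ) (r : ℂ), aeval ![r ^ 4 * E₄ z, r ^ 6 * E₆ z] S = 0 := by
    intro z r
    set q : Polynomial ℂ := aeval ![Polynomial.X ^ 4 * Polynomial.C (E₄ z),
      Polynomial.X ^ 6 * Polynomial.C (E₆ z)] S with hq
    have hqr : ∀ r : ℂ, q.eval r = aeval ![r ^ 4 * E₄ z, r ^ 6 * E₆ z] S := by
      intro r
      have e : (Polynomial.aeval (R := ℂ) r).toRingHom.toIntAlgHom.comp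
          (aeval ![Polynomial.X ^ 4 * Polynomial.C (E₄ z), Polynomial.X ^ 6 * Polynomial.C (E₆ z)])
          = aeval ![r ^ 4 * E₄ z, r ^ 6 * E₆ z] := by
        apply MvPolynomial.algHom_ext
        intro i
        show Polynomial.aeval r (aeval _ (X i)) = _
        rw [aeval_X, aeval_X]
        fin_cases i <;> simp <;> ring
      rw [← e, AlgHom.comp_apply]
      exact (congrFun (Polynomial.coe_aeval_eq_eval r) q).symm
    have hinf : ({r : ℂ | q.IsRoot r}).Infinite := by
      refine Set.infinite_of_injective_forall_mem (f := fun d : ℤ => (z : ℂ) + d)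
        (fun a b hab => by simpa using hab) fun d => ?_
      show q.IsRoot ((z : ℂ) + d)
      rw [Polynomial.IsRoot, hqr, ← h (stMat d • z)]
      have hd : denom ((stMat d : SL(2, ℤ)) : GL (Fin 2) ℝ) z = (z : ℂ) + d := by
        simp [denom, coe_stMat]
      have h4 := congrFun (lev.slash_eq E4_mem (stMat d)) z
      have h6 := congrFun (lev.slash_eq E6_mem (stMat d)) z
      rw [ModularForm.SL_slash_apply, hd] at h4 h6
      have hne : ((z : ℂ) + d) ≠ 0 := fun h0 => by
        have := congrArg Complex.im h0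
        simp [z.im_ne_zero] at this
      rw [zpow_neg, ← div_eq_mul_inv, div_eq_iff (zpow_ne_zero _ hne)] at h4 h6
      rw [h4, h6]
      norm_num [mul_comm]
    rw [← hqr, Polynomial.eq_zero_of_infinite_isRoot q hinf, Polynomial.eval_zero]
  have hprod : X 0 * X 1 * (X 0 ^ 3 - X 1 ^ 2) * S' = 0 := by
    refine MvPolynomial.funext fun v => ?_
    simp only [map_mul, map_sub, map_pow, eval_X, map_zero]
    by_cases hv : v 0 = 0 ∨ v 1 = 0 ∨ v 0 ^ 3 - v 1 ^ 2 = 0
    · rcases hv with hv | hv | hv <;> simp [hv]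
    simp only [not_or] at hv
    obtain ⟨hx, hy, hxy⟩ := hv
    obtain ⟨z, hz⟩ := GalRep.jFun_surjective (1728 * v 0 ^ 3 / (v 0 ^ 3 - v 1 ^ 2))
    have hΔ := discriminant_ne_zero z
    rw [jFun, div_eq_div_iff hΔ hxy] at hz
    have hrel : E₄ z ^ 3 * v 1 ^ 2 = E₆ z ^ 2 * v 0 ^ 3 := by
      linear_combination (-1 : ℂ) * hz + v 0 ^ 3 * E4_cube_sub_E6_sq z
    have ha : E₄ z ≠ 0 := fun ha => not_common_zero z ha (by
      rw [ha] at hrel
      simpa [hx] using hrel.symm)
    have hb : E₆ z ≠ 0 := fun hb => by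
      rw [hb] at hrel
      simp [ha, hy] at hrel
    obtain ⟨r, hr⟩ := IsAlgClosed.exists_pow_nat_eq (v 1 * E₄ z / (v 0 * E₆ z)) two_pos
    have hv' : v = ![r ^ 4 * E₄ z, r ^ 6 * E₆ z] := by
      funext i
      fin_cases i
      · show v 0 = r ^ 4 * E₄ z
        rw [show r ^ 4 = (r ^ 2) ^ 2 by ring, hr]
        field_simp
        linear_combination (-1 : ℂ) * hrel
      · show v 1 = r ^ 6 * E₆ z
        rw [show r ^ 6 = (r ^ 2) ^ 3 by ring, hr]
        field_simp
        linear_combination (-1 : ℂ) * hrel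
    rw [hev, hv', hline, mul_zero]
  have h0 : (X 0 * X 1 * (X 0 ^ 3 - X 1 ^ 2) : MvPolynomial (Fin 2) ℂ) ≠ 0 := fun h => by
    have := congrArg (MvPolynomial.eval ![(2 : ℂ), 1]) h
    norm_num at this
  have := (mul_eq_zero.mp hprod).resolve_left h0
  exact MvPolynomial.map_injective _ Int.cast_injective (this.trans (map_zero _).symm)

/-- A vanishing form vanishes in every model of the ring of level one forms. -/
theorem aeval_eq_zero_of_evForm {R : FormPoly} (h : evForm R = 0) {A : Type} [CommRing A]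
    {v : Fin 3 → A} (hv : 1728 * v 2 = v 0 ^ 3 - v 1 ^ 2)
    (hreg : IsLeftRegular (1728 : A)) : aeval v R = 0 := by
  obtain ⟨N, S, hS⟩ := exists_reduced R
  have hS0 : S = 0 := eq_zero_of_aeval_E4_E6 fun z => by
    have h1 := hS ℂ ![E₄ z, E₆ z, Δ z] (by
      show 1728 * Δ z = E₄ z ^ 3 - E₆ z ^ 2
      rw [E4_cube_sub_E6_sq])
    have h2 : aeval ![E₄ z, E₆ z, Δ z] R = evForm R z := by
      have e : (Pi.evalRingHom (fun _ : ℍ => ℂ) z).toIntAlgHom.comp evForm
          = aeval ![E₄ z, E₆ z, Δ z] := by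
        apply MvPolynomial.algHom_ext
        intro i
        show evForm (X i) z = _
        rw [evForm, aeval_X, aeval_X]
        fin_cases i <;> rfl
      exact (DFunLike.congr_fun e R).symm
    rw [h2, h, Pi.zero_apply, mul_zero] at h1
    exact h1.symm
  have h3 := hS A v hv
  rw [hS0, map_zero] at h3
  exact (hreg.pow N) (h3.trans (mul_zero _).symm)

/-- Congruences of series pass to every model. -/
theorem exists_dvd_aeval {k : ℕ} {R : FormPoly} (hR : IsWeightedHomogeneous formWt R k) {M : ℤ}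
    (hM : ∀ n, M ∣ (serForm R).coeff n) {A : Type} [CommRing A]
    {v : Fin 3 → A} (hv : 1728 * v 2 = v 0 ^ 3 - v 1 ^ 2)
    (hreg : IsLeftRegular (1728 : A)) : ∃ x, aeval v R = (M : A) * x := by
  rcases eq_or_ne M 0 with rfl | hM0
  · refine ⟨0, ?_⟩
    rw [mul_zero]
    refine aeval_eq_zero_of_evForm (eq_of_qexp (qexp_evForm R) ?_) hv hreg
    rw [show serForm R = 0 from PowerSeries.ext fun n => by simpa using zero_dvd_iff.mp (hM n),
      map_zero]
    exact QExp.zero
  choose c hc using hM
  have hM' : (M : ℂ) ≠ 0 := Int.cast_ne_zero.mpr hM0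
  have hq : QExp 1 ((M : ℂ)⁻¹ • evForm R) (toC (PowerSeries.mk c)) := by
    have h := qexp_smul (qexp_evForm R) (M : ℂ)⁻¹
    convert h using 1
    ext n
    simp [PowerSeries.coeff_map, hc n, hM']
  obtain ⟨P, -, hP, -⟩ := exists_formPoly k _ _ (Submodule.smul_mem _ _ (evForm_mem hR)) hq
  refine ⟨aeval v P, ?_⟩
  have h0 : evForm (R - C M * P) = 0 := by
    rw [map_sub, map_mul, hP]
    funext z
    simp [evForm, hM']
  have := aeval_eq_zero_of_evForm h0 hv hreg
  rw [map_sub, map_mul, aeval_C, eq_intCast, sub_eq_zero] at this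
  exact this

end Fermat.Agent.Eisenstein
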