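import Fermat.Agent.Eisenstein.LevelOneInt
import Mathlib.Algebra.Polynomial.Degree.TrailingDegree
import Mathlib.Algebra.Polynomial.FieldDivision

/-!
# Forms of level one congruent to a constant

Main result: `no_unit_congruence`.
-/

set_option autoImplicit false

noncomputable section

namespace Fermat.Agent.Eisenstein

open UpperHalfPlane CongruenceSubgroup ModularGroup ModularForm Fermat.Agent.Period
  Fermat.Agent.MCurve
open scoped MatrixGroups ModularForm Manifold

variable {l : ℕ} [Fact l.Prime]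

/-- The model at `E₆ = 1` over the prime field. -/
def lineModel (l : ℕ) [Fact l.Prime] : Fin 3 → Polynomial (ZMod l) :=
  ![Polynomial.X, 1, Polynomial.C (1728 : ZMod l)⁻¹ * (Polynomial.X ^ 3 - 1)]

lemma ne_zero_1728 (hl : 5 ≤ l) : (1728 : ZMod l) ≠ 0 := by
  intro h
  have hp : l.Prime := Fact.out
  have h' : l ∣ 2 ^ 6 * 3 ^ 3 := (ZMod.natCast_eq_zero_iff (2 ^ 6 * 3 ^ 3) l).mp (by
    norm_num; exact h)
  rcases hp.dvd_mul.mp h' with h | h
  · have := Nat.le_of_dvd two_pos (hp.dvd_of_dvd_pow h); omega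
  · have := Nat.le_of_dvd three_pos (hp.dvd_of_dvd_pow h); omega

lemma lineModel_rel (hl : 5 ≤ l) :
    1728 * lineModel l 2 = lineModel l 0 ^ 3 - lineModel l 1 ^ 2 := by
  show 1728 * (Polynomial.C (1728 : ZMod l)⁻¹ * (Polynomial.X ^ 3 - 1)) = Polynomial.X ^ 3 - 1 ^ 2
  rw [← mul_assoc, show (1728 : Polynomial (ZMod l)) = Polynomial.C (1728 : ZMod l) from
    (map_ofNat Polynomial.C 1728).symm, ← map_mul, mul_inv_cancel₀ (ne_zero_1728 hl), map_one,
    one_mul, one_pow]

lemma isLeftRegular_1728 (hl : 5 ≤ l) : IsLeftRegular (1728 : Polynomial (ZMod l)) := by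
  refine IsLeftCancelMulZero.mul_left_cancel_of_ne_zero ?_
  rw [show (1728 : Polynomial (ZMod l)) = Polynomial.C (1728 : ZMod l) from
    (map_ofNat Polynomial.C 1728).symm]
  exact Polynomial.C_ne_zero.mpr (ne_zero_1728 hl)

lemma lineModel_bounds {w : ℕ} {P : FormPoly}
    (hP : MvPolynomial.IsWeightedHomogeneous formWt P w) :
    4 * (MvPolynomial.aeval (lineModel l) P).natDegree ≤ w ∧
      (¬ 3 ∣ w → (MvPolynomial.aeval (lineModel l) P).coeff 0 = 0) := by
  classical
  rw [P.as_sum, map_sum]
  have hmon : ∀ d ∈ P.support, 4 * d 0 + 6 * d 1 + 12 * d 2 = w := fun d hd => by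
    have hw := hP (MvPolynomial.mem_support_iff.mp hd)
    rw [Finsupp.weight_apply, Finsupp.sum_fintype _ _ (fun i => zero_smul ℕ (formWt i)),
      Fin.sum_univ_three] at hw
    simp [formWt] at hw
    omega
  have hterm : ∀ d : Fin 3 →₀ ℕ, MvPolynomial.aeval (lineModel l)
      (MvPolynomial.monomial d (MvPolynomial.coeff d P)) =
      Polynomial.X ^ d 0 * (((MvPolynomial.coeff d P : ℤ) : Polynomial (ZMod l)) *
        (Polynomial.C (1728 : ZMod l)⁻¹ * (Polynomial.X ^ 3 - 1)) ^ d 2) := by
    intro d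
    rw [MvPolynomial.aeval_monomial, Finsupp.prod_fintype _ _ (fun _ => pow_zero _),
      Fin.prod_univ_three, eq_intCast]
    simp [lineModel]
    ring
  refine ⟨?_, fun h3 => ?_⟩
  · suffices h : (∑ d ∈ P.support, MvPolynomial.aeval (lineModel l)
        (MvPolynomial.monomial d (MvPolynomial.coeff d P))).natDegree ≤ w / 4 by omega
    refine Polynomial.natDegree_sum_le_of_forall_le _ _ fun d hd => ?_
    rw [hterm]
    have h1 : ((Polynomial.X : Polynomial (ZMod l)) ^ 3 - 1).natDegree ≤ 3 := by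
      refine (Polynomial.natDegree_sub_le _ _).trans ?_
      simp
    have h2 : ((((MvPolynomial.coeff d P : ℤ) : Polynomial (ZMod l)) *
        (Polynomial.C (1728 : ZMod l)⁻¹ * (Polynomial.X ^ 3 - 1)) ^ d 2)).natDegree ≤ 3 * d 2 := by
      refine Polynomial.natDegree_mul_le.trans ?_
      rw [Polynomial.natDegree_intCast, zero_add]
      refine Polynomial.natDegree_pow_le.trans ?_
      rw [mul_comm 3]
      exact Nat.mul_le_mul_left _ ((Polynomial.natDegree_C_mul_le _ _).trans h1)
    refine Polynomial.natDegree_mul_le.trans ?_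
    rw [Polynomial.natDegree_X_pow]
    have := hmon d hd
    omega
  · rw [Polynomial.finsetSum_coeff]
    refine Finset.sum_eq_zero fun d hd => ?_
    rw [hterm, Polynomial.coeff_X_pow_mul', if_neg]
    intro h0
    apply h3
    have := hmon d hd
    omega

lemma lineModel_eval_one (P : FormPoly) :
    (MvPolynomial.aeval (lineModel l) P).eval 1
      = ((PowerSeries.constantCoeff (serForm P) : ℤ) : ZMod l) := by
  rw [constantCoeff_serForm]
  induction P using MvPolynomial.induction_on with
  | C a => simp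
  | add P Q hP hQ => simp [map_add, hP, hQ]
  | mul_X P i hP =>
    simp only [map_mul, Polynomial.eval_mul, hP, Int.cast_mul, MvPolynomial.aeval_X]
    congr 1
    fin_cases i <;> simp [lineModel]

lemma natTrailingDegree_pow' {K : Type*} [Field K] {f : Polynomial K} (hf : f ≠ 0) (n : ℕ) :
    (f ^ n).natTrailingDegree = n * f.natTrailingDegree := by
  induction n with
  | zero => simp
  | succ n ih => rw [pow_succ, Polynomial.natTrailingDegree_mul (pow_ne_zero n hf) hf, ih]; ring

/-- No form of level one and this weight is congruent to a unit. -/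
theorem no_unit_congruence (hl : 5 ≤ l) {wF wA : ℕ} (hgcd : Nat.gcd wF wA = 2) (h3 : ¬ 3 ∣ wF)
    (hwA : 0 < wA) {F A : ℍ → ℂ} {sF sA : PowerSeries ℤ} (hF : F ∈ lev (wF : ℤ))
    (hqF : QExp 1 F (toC sF)) (hA : A ∈ lev (wA : ℤ)) (hqA : QExp 1 A (toC sA)) {u : ℤ}
    (hu : (u : ZMod l) ≠ 0)
    (hsF : sF.map (Int.castRingHom (ZMod l)) = PowerSeries.C (u : ZMod l))
    (hsA : sA.map (Int.castRingHom (ZMod l)) = 1) : False := by
  classical
  set φ := Int.castRingHom (ZMod l) with hφ
  obtain ⟨P, hPh, -, hPs⟩ := exists_formPoly wF F sF hF hqF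
  obtain ⟨Q, hQh, -, hQs⟩ := exists_formPoly wA A sA hA hqA
  obtain ⟨k, hk⟩ : ∃ k : ℤ, k = u ^ wA := ⟨_, rfl⟩
  set R : FormPoly := P ^ wA - MvPolynomial.C k * Q ^ wF with hR
  have hRh : MvPolynomial.IsWeightedHomogeneous formWt R (wA * wF) := by
    refine MvPolynomial.IsWeightedHomogeneous.sub ?_ ?_
    · simpa using hPh.pow wA
    · have h := (MvPolynomial.isWeightedHomogeneous_C formWt k).mul (hQh.pow wF)
      rw [zero_add, smul_eq_mul, mul_comm wF] at h
      exact h
  have hdvd : ∀ n, (l : ℤ) ∣ (serForm R).coeff n := by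
    have h : (serForm R).map φ = 0 := by
      rw [hR, map_sub, map_mul, map_pow, map_pow, hPs, hQs,
        show serForm (MvPolynomial.C k) = PowerSeries.C k by simp [serForm],
        map_sub, map_mul, map_pow, map_pow, PowerSeries.map_C, hsF, hsA, one_pow, mul_one, hk]
      simp [hφ]
    intro n
    rw [← ZMod.intCast_zmod_eq_zero_iff_dvd]
    simpa [PowerSeries.coeff_map, hφ] using congrArg (PowerSeries.coeff n) h
  obtain ⟨x, hx⟩ := exists_dvd_aeval hRh hdvd (lineModel_rel hl) (isLeftRegular_1728 hl)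
  rw [Int.cast_natCast, CharP.cast_eq_zero (Polynomial (ZMod l)) l, zero_mul] at hx
  rw [hR, map_sub, map_mul, map_pow, map_pow, MvPolynomial.aeval_C, sub_eq_zero] at hx
  set f := MvPolynomial.aeval (lineModel l) P with hf
  set g := MvPolynomial.aeval (lineModel l) Q with hg
  have hf0 : f.eval 1 ≠ 0 := by
    rw [hf, lineModel_eval_one, hPs]
    have := congrArg (PowerSeries.coeff 0) hsF
    rw [PowerSeries.coeff_map, PowerSeries.coeff_C, if_pos rfl,
      PowerSeries.coeff_zero_eq_constantCoeff_apply] at this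
    rwa [← eq_intCast φ, this]
  have hfne : f ≠ 0 := fun h => hf0 (by simp [h])
  have hgne : g ≠ 0 := by
    intro h
    have h1 : g.eval 1 = 1 := by
      rw [hg, lineModel_eval_one, hQs]
      have := congrArg (PowerSeries.coeff 0) hsA
      rw [PowerSeries.coeff_map, PowerSeries.coeff_one, if_pos rfl,
        PowerSeries.coeff_zero_eq_constantCoeff_apply] at this
      simpa [hφ] using this
    simp [h] at h1
  have hc : (algebraMap ℤ (Polynomial (ZMod l))) k ≠ 0 := by
    rw [hk, eq_intCast, ← Polynomial.C_eq_intCast, Polynomial.C_ne_zero, Int.cast_pow]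
    exact pow_ne_zero _ hu
  have hdeg : (f ^ wA).natTrailingDegree
      = ((algebraMap ℤ (Polynomial (ZMod l))) k * g ^ wF).natTrailingDegree := congrArg _ hx
  rw [Polynomial.natTrailingDegree_mul hc (pow_ne_zero _ hgne), natTrailingDegree_pow' hfne,
    natTrailingDegree_pow' hgne, eq_intCast, Polynomial.natTrailingDegree_intCast, zero_add]
    at hdeg
  have hbf : f.coeff 0 = 0 := (lineModel_bounds (l := l) hPh).2 h3
  have hbg : 4 * g.natDegree ≤ wA := (lineModel_bounds (l := l) hQh).1
  have h1 : f.natTrailingDegree ≠ 0 := fun h => by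
    have := (Polynomial.trailingCoeff_nonzero_iff_nonzero (p := f)).mpr hfne
    rw [Polynomial.trailingCoeff, h] at this
    exact this hbf
  have h2 := Polynomial.natTrailingDegree_le_natDegree g
  obtain ⟨a, ha⟩ : 2 ∣ wA := hgcd ▸ Nat.gcd_dvd_right wF wA
  obtain ⟨b, hb⟩ : 2 ∣ wF := hgcd ▸ Nat.gcd_dvd_left wF wA
  have hab : Nat.Coprime a b := by
    rw [Nat.coprime_comm, Nat.Coprime]
    rw [ha, hb, Nat.gcd_mul_left] at hgcd
    omega
  subst ha hb
  have he : a * f.natTrailingDegree = b * g.natTrailingDegree := by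
    have : 2 * (a * f.natTrailingDegree) = 2 * (b * g.natTrailingDegree) := by linarith
    omega
  have hdiv : a ∣ g.natTrailingDegree := hab.dvd_of_dvd_mul_left ⟨_, he.symm⟩
  have hpos : 0 < g.natTrailingDegree := by
    rcases Nat.eq_zero_or_pos g.natTrailingDegree with h | h
    · rw [h, mul_zero, mul_eq_zero] at he
      omega
    · exact h
  have := Nat.le_of_dvd hpos hdiv
  omega

end Fermat.Agent.Eisenstein
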