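import Fermat.Agent.Eisenstein.DeltaSeries
import Mathlib.RingTheory.MvPowerSeries.Expand
import Mathlib.Algebra.CharP.Frobenius
import Mathlib.FieldTheory.Finite.Basic

/-!
# Auxiliary forms built from `Δ(p z)`

Main results: `qexp_div`, `mem_of_fricke`, `lev_cusp_eq_zero`, `dvd_sq_sub_one`,
`exists_unit_form`, `exists_shifted_form`.
-/

set_option autoImplicit false

noncomputable section

namespace Fermat.Agent.Eisenstein

open UpperHalfPlane CongruenceSubgroup ModularGroup ModularForm Fermat.Agent.Period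
  Fermat.Agent.MCurve Filter Topology
open scoped MatrixGroups ModularForm Manifold Real

local notation "Δ" => ModularForm.discriminant
local notation "𝕢" => Function.Periodic.qParam

section General

variable {h : ℝ} {f g : ℍ → ℂ} {s t u : PowerSeries ℂ}

lemma periodic_of_qexp (hh : h ≠ 0) (hf : QExp h f s) : Function.Periodic (f ∘ ofComplex) h := by
  intro w
  by_cases hw : 0 < w.im
  · have hw' : 0 < (w + (h : ℂ)).im := by simpa using hw
    simp only [Function.comp_apply]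
    rw [ofComplex_apply_of_im_pos hw', ofComplex_apply_of_im_pos hw]
    have h1 := hf ⟨_, hw'⟩
    have h2 := hf ⟨_, hw⟩
    have he : 𝕢 h (w + (h : ℂ)) = 𝕢 h w := by
      simp only [Function.Periodic.qParam]
      rw [show 2 * (π : ℂ) * Complex.I * (w + h) / h
          = 2 * π * Complex.I * w / h + 2 * π * Complex.I by
        have : (h : ℂ) ≠ 0 := Complex.ofReal_ne_zero.mpr hh
        field_simp, Complex.exp_add, Complex.exp_two_pi_mul_I, mul_one]
    simp only [he] at h1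
    exact h1.unique h2
  · have hw' : (w + (h : ℂ)).im ≤ 0 := by simpa using hw
    simp only [Function.comp_apply]
    rw [ofComplex_apply_eq_of_im_nonpos hw' (le_of_not_gt hw)]

lemma tendsto_of_qexp' (hh : 0 < h) (hf : QExp h f s) : Tendsto f atImInfty (𝓝 (s.coeff 0)) := by
  set q0 : ℂ := 𝕢 h (Complex.I : ℂ) with hq0
  have hsum : Summable fun m => ‖s.coeff m * q0 ^ m‖ := (hf UpperHalfPlane.I).summable.norm
  have hle : ∀ᶠ z : ℍ in atImInfty, ‖𝕢 h (z : ℂ)‖ ≤ ‖q0‖ :=
    (atImInfty_mem _).mpr ⟨1, fun z hz => by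
      simp only [hq0, Function.Periodic.norm_qParam, Complex.I_im, Set.mem_ofPred_eq]
      apply Real.exp_le_exp.mpr
      simp only [UpperHalfPlane.coe_im] at *
      rw [div_le_div_iff_of_pos_right hh]
      nlinarith [Real.pi_pos]⟩
  have h1 : Tendsto (fun z : ℍ => ∑' m, s.coeff m * 𝕢 h (z : ℂ) ^ m) atImInfty
      (𝓝 (∑' m, s.coeff m * (0 : ℂ) ^ m)) := by
    refine tendsto_tsum_of_dominated_convergence hsum
      (fun m => ((qParam_tendsto_atImInfty hh).pow m).const_mul _) ?_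
    filter_upwards [hle] with z hz m
    rw [norm_mul, norm_mul, norm_pow, norm_pow]
    gcongr
  rw [tsum_eq_single 0 (fun m hm => by simp [hm]), pow_zero, mul_one] at h1
  exact h1.congr fun z => (hf z).tsum_eq

lemma isBounded_of_qexp (hh : 0 < h) (hf : QExp h f s) : IsBoundedAtImInfty f :=
  (tendsto_of_qexp' hh hf).isBigO_one ℝ

lemma qexp_div (hh : 0 < h) (hf : QExp h f s) (hg : QExp h g t) (hg0 : ∀ z, g z ≠ 0)
    (hfd : MDifferentiable 𝓘(ℂ) 𝓘(ℂ) f) (hgd : MDifferentiable 𝓘(ℂ) 𝓘(ℂ) g)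
    (ht : t.coeff 0 ≠ 0) (hu : t * u = s) : QExp h (fun z => f z / g z) u := by
  have hd : MDifferentiable 𝓘(ℂ) 𝓘(ℂ) (fun z => f z / g z) := by
    rw [mdifferentiable_iff] at hfd hgd ⊢
    exact hfd.div hgd fun z _ => hg0 _
  have hper : Function.Periodic ((fun z => f z / g z) ∘ ofComplex) h := fun w => by
    have h1 := periodic_of_qexp hh.ne' hf w
    have h2 := periodic_of_qexp hh.ne' hg w
    simp only [Function.comp_apply] at h1 h2 ⊢
    rw [h1, h2]
  have hb : IsBoundedAtImInfty (fun z => f z / g z) :=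
    ((tendsto_of_qexp' hh hf).div (tendsto_of_qexp' hh hg) ht).isBigO_one ℝ
  have hv := qexp_of_periodic hh hper hd hb
  have h1 := ((hg.mul hv).congr (g := f) fun z => by
    rw [Pi.mul_apply, mul_div_cancel₀ _ (hg0 z)]).unique hh hf
  rw [← hu] at h1
  have ht0 : t ≠ 0 := fun h0 => ht (by simp [h0])
  rwa [mul_left_cancel₀ ht0 h1] at hv

end General

variable {p : ℕ} [Fact p.Prime]

/-- Membership from expansions at the two cusps. -/
lemma mem_of_fricke {k : ℤ} {f : ℍ → ℂ} (hhol : MDifferentiable 𝓘(ℂ) 𝓘(ℂ) f)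
    (hinv : ∀ γ ∈ Gamma0 p, f ∣[k] γ = f) {s t : PowerSeries ℂ} (hs : QExp 1 f s)
    (ht : QExp 1 (f ∣[k] frickeGL p) t) : f ∈ modFun (Gamma0 p) k := by
  refine mem_modFun_of hhol hinv (isBounded_of_qexp one_pos hs) ?_
  have h := slash_ST (p := p) k f 0
  rw [show stMat ((0 : ℕ) : ℤ) = (S : SL(2, ℤ)) by simp [stMat]] at h
  rw [h]
  refine Filter.BoundedAtFilter.smul _ ?_
  exact (isBounded_of_qexp one_pos ht).slash _ (by simp [val_heckeMatrix (NeZero.ne p)])

lemma slash_fricke_mul (k l : ℤ) (f g : ℍ → ℂ) :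
    (f * g) ∣[k + l] frickeGL p = (p : ℂ) • ((f ∣[k] frickeGL p) * (g ∣[l] frickeGL p)) := by
  funext z
  have hp : (p : ℂ) ≠ 0 := Nat.cast_ne_zero.mpr (NeZero.ne p)
  have hz : (p : ℂ) * (z : ℂ) ≠ 0 := mul_ne_zero hp z.ne_zero
  rw [Pi.smul_apply, Pi.mul_apply, slash_frickeGL_apply, slash_frickeGL_apply,
    slash_frickeGL_apply, Pi.mul_apply, neg_add, zpow_add₀ hz, smul_eq_mul,
    show k + l - 1 = 1 + ((k - 1) + (l - 1)) by ring, zpow_add₀ hp, zpow_add₀ hp, zpow_one]
  ring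

/-- A level one cusp form of small weight vanishes. -/
lemma lev_cusp_eq_zero {k : ℤ} (hk : k < 12 ∨ k = 14) {g : ℍ → ℂ} (hg : g ∈ lev k)
    {s : PowerSeries ℂ} (hs : QExp 1 g s) (h0 : s.coeff 0 = 0) : g = 0 := by
  have ht := tendsto_of_qexp' one_pos hs
  rw [h0] at ht
  have hh : (fun τ => g τ / Δ τ) ∈ lev (k - 12) := div_discriminant_mem hg fun δ => by
    rw [lev.slash_eq hg δ]
    exact isBounded_div_discriminant (lev_periodic hg) hg.1 ht
  have h : (fun τ => g τ / Δ τ) = 0 := by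
    rcases hk with hk | rfl
    · exact modFun_eq_zero_of_neg (by omega) hh
    · exact lev_weight_two (modFun_weight (by norm_num) hh)
  funext τ
  simpa [discriminant_ne_zero τ] using congrFun h τ

/-- `Δ(p z)`. -/
def discScale (p : ℕ) [Fact p.Prime] : ℍ → ℂ := fun z => Δ (scaleGL p • z)

lemma discScale_ne_zero (z : ℍ) : discScale p z ≠ 0 := discriminant_ne_zero _

lemma discriminant_neg_inv (z w : ℍ) (hw : (w : ℂ) = -1 / (z : ℂ)) :
    Δ w = (z : ℂ) ^ (12 : ℕ) * Δ z := by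
  have h := congrFun (lev.slash_eq Δ_mem (S : SL(2, ℤ))) z
  rw [ModularForm.SL_slash_apply, ModularGroup.denom_apply] at h
  have he : (S : SL(2, ℤ)) • z = w :=
    UpperHalfPlane.ext (by rw [hw, modular_S_smul]; simp [inv_neg, neg_div])
  rw [he] at h
  simp [coe_S] at h
  rw [← h]
  have := z.ne_zero
  field_simp

lemma fricke_smul_eq (z : ℍ) :
    Δ (frickeGL p • z) = ((p : ℂ) * z) ^ (12 : ℕ) * discScale p z := by
  have h := discriminant_neg_inv (scaleGL p • z) (frickeGL p • z) (by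
    rw [coe_frickeGL_smul, coe_scaleGL_smul])
  rw [h, coe_scaleGL_smul]
  rfl

lemma scale_fricke_smul (z : ℍ) :
    discScale p (frickeGL p • z) = (z : ℂ) ^ (12 : ℕ) * Δ z := by
  refine discriminant_neg_inv z _ ?_
  rw [coe_scaleGL_smul, coe_frickeGL_smul]
  have : (p : ℂ) ≠ 0 := Nat.cast_ne_zero.mpr (NeZero.ne p)
  field_simp

lemma fricke_discriminant : Δ ∣[(12 : ℤ)] frickeGL p = (p : ℂ) ^ (11 : ℕ) • discScale p := by
  funext z
  have hp : (p : ℂ) ≠ 0 := Nat.cast_ne_zero.mpr (NeZero.ne p)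
  have hz := z.ne_zero
  rw [slash_frickeGL_apply, fricke_smul_eq, Pi.smul_apply, smul_eq_mul,
    show ((12 : ℤ) - 1) = ((11 : ℕ) : ℤ) from rfl, show (-(12 : ℤ)) = -((12 : ℕ) : ℤ) from rfl,
    zpow_natCast, zpow_neg, zpow_natCast]
  field_simp

lemma discScale_mem : discScale p ∈ modFun (Gamma0 p) 12 := by
  have hp : (p : ℂ) ^ (11 : ℕ) ≠ 0 := pow_ne_zero _ (Nat.cast_ne_zero.mpr (NeZero.ne p))
  have h := Submodule.smul_mem _ ((p : ℂ) ^ (11 : ℕ))⁻¹
    (slash_fricke_mem (p := p) (lev_le (Γ := Gamma0 p) Δ_mem))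
  rwa [fricke_discriminant, inv_smul_smul₀ hp] at h

lemma fricke_discScale : discScale p ∣[(12 : ℤ)] frickeGL p = (p : ℂ)⁻¹ • Δ := by
  funext z
  have hp : (p : ℂ) ≠ 0 := Nat.cast_ne_zero.mpr (NeZero.ne p)
  have hz := z.ne_zero
  rw [slash_frickeGL_apply, scale_fricke_smul, Pi.smul_apply, smul_eq_mul,
    show ((12 : ℤ) - 1) = ((11 : ℕ) : ℤ) from rfl, show (-(12 : ℤ)) = -((12 : ℕ) : ℤ) from rfl,
    zpow_natCast, zpow_neg, zpow_natCast]
  field_simp

/-- The series of `Δ(p z)`. -/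
def discScaleSer (p : ℕ) [Fact p.Prime] : PowerSeries ℤ :=
  PowerSeries.expand p (NeZero.ne p) deltaSer

lemma qexp_discScale : QExp 1 (discScale p) (toC (discScaleSer p)) := by
  rw [discScaleSer, toC, PowerSeries.map_expand]
  exact qexp_scale p qexp_discriminant

lemma qexp_toC_uSeries {f : ℍ → ℂ} {k : ℤ} (hf : f ∈ modFun (Gamma0 p) k) {s : PowerSeries ℤ}
    (hs : QExp 1 f (toC s)) (l : ℤ) : QExp 1 (heckeU l p f) (toC (uSeries p s)) := by
  convert qexp_heckeU_modFun hf hs l using 1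
  ext n
  simp [PowerSeries.coeff_map]

variable {G : ℍ → ℂ} {sG : PowerSeries ℤ}

lemma qexp_fricke_int (hG : G ∈ modFun (Gamma0 p) 2) (hs : QExp 1 G (toC sG)) :
    QExp 1 (G ∣[(2 : ℤ)] frickeGL p) (toC (-uSeries p sG)) := by
  rw [fricke_eq_neg_heckeU hG, map_neg]
  exact (qexp_toC_uSeries hG hs 2).neg

/-- The congruence forced by `Δ`. -/
theorem dvd_sq_sub_one (hG : G ∈ modFun (Gamma0 p) 2) (hs : QExp 1 G (toC sG)) {M c : ℤ}
    (h0 : sG.coeff 0 = c) (hM : ∀ n, n ≠ 0 → M ∣ sG.coeff n) :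
    M ∣ c * (p : ℤ) ^ 11 * ((p : ℤ) + 1) := by
  have hp : p.Prime := Fact.out
  have hpC : (p : ℂ) ≠ 0 := Nat.cast_ne_zero.mpr hp.ne_zero
  have hK : G * discScale p ∈ modFun (Gamma0 p) (2 + 12) := modFun_mul hG discScale_mem
  have hKW : (G * discScale p) ∣[(2 : ℤ) + 12] frickeGL p
      = (G ∣[(2 : ℤ)] frickeGL p) * Δ := by
    rw [slash_fricke_mul, fricke_discScale, mul_smul_comm, smul_smul, mul_inv_cancel₀ hpC,
      one_smul]
  have htr := qexp_trace hK (t := toC (-uSeries p sG * deltaSer))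
    (hs.mul qexp_discScale) (by
      rw [hKW, map_mul]
      exact (qexp_fricke_int hG hs).mul qexp_discriminant)
  set a : PowerSeries ℂ := toC sG * toC (discScaleSer p) +
    PowerSeries.C ((p : ℂ) ^ (2 - ((2 : ℤ) + 12))) *
      uSeries p (toC (-uSeries p sG * deltaSer)) with ha
  have hc0 : a.coeff 0 = 0 := by
    simp [ha, PowerSeries.coeff_map, discScaleSer, coeff_deltaSer_zero,
      PowerSeries.coeff_mul, PowerSeries.coeff_expand, -PowerSeries.coeff_zero_eq_constantCoeff]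
  have hzero := lev_cusp_eq_zero (Or.inr (by norm_num)) htr.1 htr.2 hc0
  have ha0 : a = 0 := htr.2.unique one_pos (hzero ▸ QExp.zero)
  have key : ∀ n, (p : ℤ) ^ 12 * (sG * discScaleSer p).coeff n
      = (uSeries p sG * deltaSer).coeff (p * n) := by
    intro n
    have h := congrArg (PowerSeries.coeff n) ha0
    simp only [ha, map_add, PowerSeries.coeff_C_mul, coeff_uSeries, map_zero, ← map_mul,
      PowerSeries.coeff_map, eq_intCast, neg_mul, map_neg] at h
    rw [show (2 : ℤ) - (2 + 12) = -((12 : ℕ) : ℤ) by norm_num, zpow_neg, zpow_natCast] at h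
    apply Int.cast_injective (α := ℂ)
    push_cast
    have hp12 := pow_ne_zero 12 hpC
    field_simp at h
    linear_combination h
  -- congruences modulo `M`
  set φ := Int.castRingHom (ZMod M.natAbs) with hφ
  have hφ0 : ∀ x : ℤ, φ x = 0 ↔ M ∣ x := fun x => by
    rw [hφ, eq_intCast, ZMod.intCast_zmod_eq_zero_iff_dvd, Int.natAbs_dvd]
  have hsG : sG.map φ = PowerSeries.C (φ c) := PowerSeries.ext fun n => by
    rcases eq_or_ne n 0 with rfl | hn
    · simp [PowerSeries.coeff_map, h0]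
    · rw [PowerSeries.coeff_map, (hφ0 _).mpr (hM n hn), PowerSeries.coeff_C, if_neg hn]
  have huG : (uSeries p sG).map φ = PowerSeries.C (φ c) := PowerSeries.ext fun n => by
    rw [PowerSeries.coeff_map, coeff_uSeries, ← PowerSeries.coeff_map, hsG,
      PowerSeries.coeff_C, PowerSeries.coeff_C]
    simp [hp.ne_zero]
  have key' : ∀ n, φ (c * ((p : ℤ) ^ 12 * (discScaleSer p).coeff n))
      = φ (c * deltaSer.coeff (p * n)) := by
    intro n
    have h := congrArg φ (key n)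
    rw [map_mul, ← PowerSeries.coeff_map, map_mul, hsG, PowerSeries.coeff_C_mul,
      PowerSeries.coeff_map, ← PowerSeries.coeff_map φ (p * n), map_mul, huG,
      PowerSeries.coeff_C_mul, PowerSeries.coeff_map] at h
    rw [map_mul φ c, map_mul φ c, map_mul, ← h]
    ring
  -- the trace of `Δ(p z)`
  have htr2 := qexp_trace (discScale_mem (p := p)) qexp_discScale
    (t := PowerSeries.C ((p : ℂ)⁻¹) * toC deltaSer) (by
      rw [fricke_discScale]
      exact qexp_smul qexp_discriminant _)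
  obtain ⟨b, hb⟩ := lev_twelve_cusp htr2.1 htr2.2 (by
    simp [PowerSeries.coeff_map, PowerSeries.coeff_C_mul, discScaleSer, PowerSeries.coeff_expand,
      coeff_deltaSer_zero, -PowerSeries.coeff_zero_eq_constantCoeff])
  have e1 := congrArg (PowerSeries.coeff 1) hb
  have ep := congrArg (PowerSeries.coeff p) hb
  have hp1 : ¬ p ∣ 1 := fun h => hp.one_lt.ne' (Nat.dvd_one.mp h)
  simp only [map_add, PowerSeries.coeff_C_mul, coeff_uSeries, PowerSeries.coeff_map, discScaleSer,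
    PowerSeries.coeff_expand, eq_intCast, mul_one, coeff_deltaSer_one, if_neg hp1, dvd_refl,
    if_true, Nat.div_self hp.pos] at e1 ep
  rw [show (2 : ℤ) - 12 = -((10 : ℕ) : ℤ) by norm_num, zpow_neg, zpow_natCast] at e1 ep
  push_cast at e1 ep
  have hτ : deltaSer.coeff (p * p) + (p : ℤ) ^ 11 = deltaSer.coeff p * deltaSer.coeff p := by
    apply Int.cast_injective (α := ℂ)
    push_cast
    rw [mul_one] at e1
    rw [← e1] at ep
    field_simp at ep
    linear_combination ep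
  have k1 := key' 1
  have kp := key' p
  simp only [discScaleSer, PowerSeries.coeff_expand, if_neg hp1, dvd_refl, if_true,
    Nat.div_self hp.pos, coeff_deltaSer_one, mul_one, mul_zero, map_zero] at k1 kp
  rw [← hφ0]
  rw [eq_sub_of_add_eq hτ, mul_sub, map_sub, ← mul_assoc, map_mul φ (c * deltaSer.coeff p),
    ← k1, zero_mul, zero_sub] at kp
  rw [show c * (p : ℤ) ^ 11 * ((p : ℤ) + 1) = c * (p : ℤ) ^ 12 + c * (p : ℤ) ^ 11 by ring,
    map_add, kp, neg_add_cancel]

/-- `Δ ^ p / Δ(p z)`. -/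
def quotFun (p : ℕ) [Fact p.Prime] : ℍ → ℂ := fun z => Δ z ^ p / discScale p z

/-- `Δ(p z) ^ p / Δ`. -/
def quotTwin (p : ℕ) [Fact p.Prime] : ℍ → ℂ := fun z => discScale p z ^ p / Δ z

/-- The series of `quotFun`. -/
def quotSer (p : ℕ) [Fact p.Prime] : PowerSeries ℤ :=
  etaPow ^ p * PowerSeries.invOfUnit (PowerSeries.expand p (NeZero.ne p) etaPow) 1

/-- The series of `quotTwin`. -/
def twinSer (p : ℕ) [Fact p.Prime] : PowerSeries ℤ :=
  PowerSeries.X ^ (p * p - 1) * PowerSeries.expand p (NeZero.ne p) etaPow ^ p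
    * PowerSeries.invOfUnit etaPow 1

lemma qParam_scale (z : ℍ) : 𝕢 1 ((scaleGL p • z : ℍ) : ℂ) = 𝕢 1 (z : ℂ) ^ p := by
  simp only [coe_scaleGL_smul, Function.Periodic.qParam, ← Complex.exp_nat_mul, Complex.ofReal_one,
    div_one]
  congr 1
  ring

lemma qexp_quotFun : QExp 1 (quotFun p) (toC (quotSer p)) := by
  have hd := qexp_scale p qexp_etaPow
  have hη : ∀ z : ℍ, Δ z = 𝕢 1 (z : ℂ) * etaFn (𝕢 1 (z : ℂ)) ^ 24 :=
    fun z => by simp [discriminant_eq_qParam_mul]
  have hne : ∀ z : ℍ, etaFn (𝕢 1 (z : ℂ)) ^ 24 ≠ 0 := fun z h => by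
    have := discriminant_ne_zero z
    rw [hη z, h, mul_zero] at this
    exact this rfl
  have hmd : MDifferentiable 𝓘(ℂ) 𝓘(ℂ) (fun z : ℍ => etaFn (𝕢 1 (z : ℂ)) ^ 24) := by
    have : (fun z : ℍ => etaFn (𝕢 1 (z : ℂ)) ^ 24)
        = fun z : ℍ => Δ z / 𝕢 1 (z : ℂ) := funext fun z => by
      rw [hη z, mul_div_cancel_left₀ _ (Function.Periodic.qParam_ne_zero _)]
    rw [this, mdifferentiable_iff]
    refine DifferentiableOn.div ?_ ?_ fun z _ => Function.Periodic.qParam_ne_zero _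
    · exact mdifferentiable_iff.mp Δ_mem.1
    · exact (Function.Periodic.differentiable_qParam (h := 1)).differentiableOn.congr fun z hz => by
        simp [ofComplex_apply_of_im_pos hz]
  have hmd' : MDifferentiable 𝓘(ℂ) 𝓘(ℂ)
      (fun z : ℍ => etaFn (𝕢 1 ((scaleGL p • z : ℍ) : ℂ)) ^ 24) :=
    hmd.comp (mdifferentiable_smul (by
      rw [Matrix.GeneralLinearGroup.val_det_apply, coe_scaleGL, Matrix.det_fin_two_of]
      simp [NeZero.pos p]))
  refine (qexp_div one_pos (qexp_etaPow.pow p) hd (fun z => hne _) (hmd.pow p) hmd' ?_ ?_).congr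
    fun z => ?_
  · simp [PowerSeries.coeff_expand, constantCoeff_etaPow]
  · rw [← PowerSeries.map_expand, ← map_mul, ← map_pow, quotSer]
    congr 1
    rw [mul_left_comm, PowerSeries.mul_invOfUnit _ 1 (by simp [constantCoeff_etaPow]), mul_one]
  · have := Function.Periodic.qParam_ne_zero (h := 1) (z : ℂ)
    simp only [quotFun, discScale, hη, Pi.pow_apply, qParam_scale]
    field_simp
    ring

lemma qexp_quotTwin : QExp 1 (quotTwin p) (toC (twinSer p)) := by
  have hη : ∀ z : ℍ, Δ z = 𝕢 1 (z : ℂ) * etaFn (𝕢 1 (z : ℂ)) ^ 24 :=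
    fun z => by simp [discriminant_eq_qParam_mul]
  have hne : ∀ z : ℍ, etaFn (𝕢 1 (z : ℂ)) ^ 24 ≠ 0 := fun z h => by
    have := discriminant_ne_zero z
    rw [hη z, h, mul_zero] at this
    exact this rfl
  have hmd : MDifferentiable 𝓘(ℂ) 𝓘(ℂ) (fun z : ℍ => etaFn (𝕢 1 (z : ℂ)) ^ 24) := by
    have : (fun z : ℍ => etaFn (𝕢 1 (z : ℂ)) ^ 24)
        = fun z : ℍ => Δ z / 𝕢 1 (z : ℂ) := funext fun z => by
      rw [hη z, mul_div_cancel_left₀ _ (Function.Periodic.qParam_ne_zero _)]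
    rw [this, mdifferentiable_iff]
    refine DifferentiableOn.div ?_ ?_ fun z _ => Function.Periodic.qParam_ne_zero _
    · exact mdifferentiable_iff.mp Δ_mem.1
    · exact (Function.Periodic.differentiable_qParam (h := 1)).differentiableOn.congr fun z hz => by
        simp [ofComplex_apply_of_im_pos hz]
  have hscale : MDifferentiable 𝓘(ℂ) 𝓘(ℂ) (fun z : ℍ => scaleGL p • z) :=
    mdifferentiable_smul (by
      rw [Matrix.GeneralLinearGroup.val_det_apply, coe_scaleGL, Matrix.det_fin_two_of]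
      simp [NeZero.pos p])
  have hq := (QExp.qParam_pow (h := 1) (p * p - 1)).mul ((qexp_scale p qexp_etaPow).pow p)
  refine (qexp_div one_pos hq qexp_etaPow hne ?_ hmd ?_ (u := toC (twinSer p)) ?_).congr
    fun z => ?_
  · refine MDifferentiable.mul ?_ ((hmd.comp hscale).pow p)
    rw [mdifferentiable_iff]
    exact ((Function.Periodic.differentiable_qParam (h := 1)).pow (p * p - 1)).differentiableOn.congr
      fun z hz => by simp [ofComplex_apply_of_im_pos hz]
  · simp [constantCoeff_etaPow]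
  · rw [twinSer, map_mul, mul_left_comm, ← map_mul toC etaPow,
      PowerSeries.mul_invOfUnit _ 1 constantCoeff_etaPow, map_one, mul_one, map_mul, map_pow,
      map_pow, PowerSeries.map_X, PowerSeries.map_expand]
  · have := Function.Periodic.qParam_ne_zero (h := 1) (z : ℂ)
    obtain ⟨n, hn⟩ : ∃ n, p * p = n + 1 := ⟨p * p - 1, by have := NeZero.pos p; nlinarith [Nat.sub_add_cancel (Nat.mul_pos (NeZero.pos p) (NeZero.pos p))]⟩
    simp only [quotTwin, discScale, hη, Pi.pow_apply, Pi.mul_apply, qParam_scale, mul_pow,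
      ← pow_mul, hn, Nat.add_sub_cancel, pow_succ (𝕢 1 (z : ℂ)) n]
    field_simp

lemma quotFun_slash {γ : SL(2, ℤ)} (hγ : γ ∈ Gamma0 p) :
    quotFun p ∣[12 * ((p : ℤ) - 1)] γ = quotFun p := by
  funext z
  have h1 := congrFun (lev.slash_eq Δ_mem γ) z
  have h2 := congrFun (modFun.slash_eq (discScale_mem (p := p)) hγ) z
  rw [ModularForm.SL_slash_apply] at h1 h2 ⊢
  simp only [quotFun]
  set j := denom (γ : GL (Fin 2) ℝ) z with hj
  have hj0 : j ≠ 0 := denom_ne_zero _ z
  have hV := discScale_ne_zero (p := p) (γ • z)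
  rw [← h1, ← h2, show -(12 * ((p : ℤ) - 1)) = (-(12 : ℤ)) * ((p : ℕ) : ℤ) + 12 by ring,
    zpow_add₀ hj0, zpow_mul, zpow_natCast, mul_pow, zpow_neg]
  field_simp

lemma fricke_quotFun :
    quotFun p ∣[12 * ((p : ℤ) - 1)] frickeGL p = (p : ℂ) ^ (12 * p - 1) • quotTwin p := by
  funext z
  have hp : (p : ℂ) ≠ 0 := Nat.cast_ne_zero.mpr (NeZero.ne p)
  have hz := z.ne_zero
  have hΔ := discriminant_ne_zero z
  obtain ⟨n, hn⟩ : ∃ n, 12 * p = n + 1 := ⟨12 * p - 1, by have := NeZero.pos p; omega⟩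
  have hn' : (12 : ℤ) * p = n + 1 := by exact_mod_cast hn
  rw [slash_frickeGL_apply, Pi.smul_apply, smul_eq_mul, quotFun, quotTwin, fricke_smul_eq,
    scale_fricke_smul, hn, Nat.add_sub_cancel,
    show (12 * ((p : ℤ) - 1) - 1) = (n : ℤ) - 12 by linear_combination hn',
    show -(12 * ((p : ℤ) - 1)) = 12 - ((12 * p : ℕ) : ℤ) by push_cast; ring,
    zpow_sub₀ hp, zpow_sub₀ (mul_ne_zero hp hz), zpow_natCast, zpow_natCast, mul_pow _ _ p,
    ← pow_mul]
  rw [show (12 : ℤ) = ((12 : ℕ) : ℤ) from rfl, zpow_natCast, zpow_natCast]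
  field_simp

lemma quotFun_mem : quotFun p ∈ modFun (Gamma0 p) (12 * ((p : ℤ) - 1)) := by
  refine mem_of_fricke ?_ (fun γ hγ => quotFun_slash hγ) qexp_quotFun
    (t := PowerSeries.C ((p : ℂ) ^ (12 * p - 1)) * toC (twinSer p)) ?_
  · have h1 : MDifferentiable 𝓘(ℂ) 𝓘(ℂ) (Δ ^ p) := (Δ_mem.1).pow p
    rw [mdifferentiable_iff] at h1 ⊢
    exact h1.div (mdifferentiable_iff.mp (discScale_mem (p := p)).1) fun z _ => discScale_ne_zero _
  · rw [fricke_quotFun]
    exact qexp_smul qexp_quotTwin _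

lemma map_quotSer : (quotSer p).map (Int.castRingHom (ZMod p)) = 1 := by
  set φ := Int.castRingHom (ZMod p)
  have h : (etaPow.map φ) ^ p = PowerSeries.expand p (NeZero.ne p) (etaPow.map φ) := by
    have h1 := MvPowerSeries.map_frobenius_expand (p := p) (R := ZMod p) (σ := Unit) (NeZero.ne p)
      (f := etaPow.map φ)
    rw [ZMod.frobenius_zmod, MvPowerSeries.map_id] at h1
    exact h1.symm
  rw [quotSer, map_mul, map_pow, h, ← PowerSeries.map_expand, ← map_mul,
    PowerSeries.mul_invOfUnit _ 1 (by simp [constantCoeff_etaPow]), map_one]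

/-- A level one form congruent to one. -/
theorem exists_unit_form :
    ∃ (A : ℍ → ℂ) (sA : PowerSeries ℤ), A ∈ lev (12 * ((p : ℤ) - 1)) ∧ QExp 1 A (toC sA) ∧
      sA.map (Int.castRingHom (ZMod p)) = 1 := by
  have htr := qexp_trace (quotFun_mem (p := p)) qexp_quotFun
    (t := PowerSeries.C ((p : ℂ) ^ (12 * p - 1)) * toC (twinSer p)) (by
      rw [fricke_quotFun]; exact qexp_smul qexp_quotTwin _)
  refine ⟨_, quotSer p + PowerSeries.C ((p : ℤ) ^ 13) * uSeries p (twinSer p), htr.1, ?_, ?_⟩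
  · convert htr.2 using 1
    ext n
    simp only [PowerSeries.coeff_map, map_add, PowerSeries.coeff_C_mul, coeff_uSeries]
    simp only [eq_intCast]
    push_cast
    have hp : (p : ℂ) ≠ 0 := Nat.cast_ne_zero.mpr (NeZero.ne p)
    rw [← mul_assoc, ← zpow_natCast (p : ℂ) (12 * p - 1), ← zpow_add₀ hp,
      ← zpow_natCast (p : ℂ) 13,
      show (2 - 12 * ((p : ℤ) - 1)) + ((12 * p - 1 : ℕ) : ℤ) = ((13 : ℕ) : ℤ) by
        have := NeZero.pos p
        omega]
  · rw [map_add, map_quotSer, map_mul, PowerSeries.map_C]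
    simp

/-- A form of weight `2 + 12 (p - 1)` congruent to a constant. -/
theorem exists_shifted_form (hG : G ∈ modFun (Gamma0 p) 2) (hs : QExp 1 G (toC sG)) {c : ℤ}
    (h0 : sG.coeff 0 = c) (hM : ∀ n, n ≠ 0 → (p : ℤ) ∣ sG.coeff n) :
    ∃ (F : ℍ → ℂ) (sF : PowerSeries ℤ), F ∈ lev (2 + 12 * ((p : ℤ) - 1)) ∧ QExp 1 F (toC sF) ∧
      sF.map (Int.castRingHom (ZMod p)) = PowerSeries.C (c : ZMod p) := by
  have hpC : (p : ℂ) ≠ 0 := Nat.cast_ne_zero.mpr (NeZero.ne p)
  have hW : QExp 1 ((G * quotFun p) ∣[2 + 12 * ((p : ℤ) - 1)] frickeGL p)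
      (PowerSeries.C ((p : ℂ) * (p : ℂ) ^ (12 * p - 1)) * toC (-uSeries p sG * twinSer p)) := by
    have h := qexp_smul ((qexp_fricke_int hG hs).mul (qexp_quotTwin (p := p)))
      ((p : ℂ) * (p : ℂ) ^ (12 * p - 1))
    rw [← map_mul] at h
    rw [slash_fricke_mul 2 (12 * ((p : ℤ) - 1)) G (quotFun p), fricke_quotFun]
    rwa [mul_smul_comm, smul_smul]
  have hQ : G * quotFun p ∈ modFun (Gamma0 p) (2 + 12 * ((p : ℤ) - 1)) :=
    modFun_mul hG quotFun_mem
  have hsQ : QExp 1 (G * quotFun p) (toC sG * toC (quotSer p)) := hs.mul qexp_quotFun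
  have htr := qexp_trace hQ hsQ hW
  refine ⟨_, sG * quotSer p +
    PowerSeries.C ((p : ℤ) ^ 12) * uSeries p (-uSeries p sG * twinSer p), htr.1, ?_, ?_⟩
  · convert htr.2 using 1
    ext n
    simp only [map_add, ← map_mul, PowerSeries.coeff_map, PowerSeries.coeff_C_mul, coeff_uSeries]
    simp only [eq_intCast]
    push_cast
    rw [← mul_assoc, ← pow_succ', ← zpow_natCast (p : ℂ) (12 * p - 1 + 1), ← zpow_add₀ hpC,
      ← zpow_natCast (p : ℂ) 12,
      show (2 - (2 + 12 * ((p : ℤ) - 1))) + ((12 * p - 1 + 1 : ℕ) : ℤ) = ((12 : ℕ) : ℤ) by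
        have := NeZero.pos p
        omega]
  · rw [map_add, map_mul, map_quotSer, mul_one, map_mul, PowerSeries.map_C]
    simp only [map_pow, map_natCast, ZMod.natCast_self, ne_eq, OfNat.ofNat_ne_zero,
      not_false_eq_true, zero_pow, map_zero, zero_mul, add_zero]
    ext n
    rw [PowerSeries.coeff_map, eq_intCast, PowerSeries.coeff_C]
    rcases eq_or_ne n 0 with rfl | hn
    · simp [h0]
    · rw [if_neg hn, ZMod.intCast_zmod_eq_zero_iff_dvd]
      exact hM n hn

end Fermat.Agent.Eisenstein
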