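import Fermat.Agent.Eisenstein.Symmetric
import Fermat.Agent.Eisenstein.QSeriesTools
import Fermat.Agent.Eisenstein.ModModel

/-!
# Local obstructions to Eisenstein congruences

Main results: `not_congr_self`, `not_congr_large`, `not_congr_three`, `not_congr_two`.
-/

set_option autoImplicit false

noncomputable section

namespace Fermat.Agent.Eisenstein

open UpperHalfPlane CongruenceSubgroup ModularGroup ModularForm EisensteinSeries Fermat.Agent.Period
  Fermat.Agent.MCurve
open scoped MatrixGroups ModularForm Manifold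

local notation "Δ" => ModularForm.discriminant

variable {p : ℕ} [Fact p.Prime] {G : ℍ → ℂ} {sG : PowerSeries ℤ} {c : ℤ}

lemma map_eq_C_of_dvd {l : ℕ} (h0 : sG.coeff 0 = c) (hM : ∀ n, n ≠ 0 → (l : ℤ) ∣ sG.coeff n) :
    sG.map (Int.castRingHom (ZMod l)) = PowerSeries.C (c : ZMod l) := by
  ext n
  rw [PowerSeries.coeff_map, eq_intCast, PowerSeries.coeff_C]
  rcases eq_or_ne n 0 with rfl | hn
  · simp [h0]
  · rw [if_neg hn, ZMod.intCast_zmod_eq_zero_iff_dvd]
    exact hM n hn

lemma uSeries_eq_C_of {R : Type*} [CommRing R] {s : PowerSeries R} {a : R}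
    (h : s = PowerSeries.C a) : uSeries p s = PowerSeries.C a := by
  ext n
  rw [h, coeff_uSeries, PowerSeries.coeff_C, PowerSeries.coeff_C]
  simp [(Fact.out : p.Prime).ne_zero]

lemma map_uSeries {R S : Type*} [CommRing R] [CommRing S] (φ : R →+* S) (s : PowerSeries R) :
    (uSeries p s).map φ = uSeries p (s.map φ) := by
  ext n; simp [PowerSeries.coeff_map]

/-- The level itself does not divide. -/
theorem not_congr_self (hp5 : 5 ≤ p) (hG : G ∈ modFun (Gamma0 p) 2) (hs : QExp 1 G (toC sG))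
    (h0 : sG.coeff 0 = c) (hM : ∀ n, n ≠ 0 → (p : ℤ) ∣ sG.coeff n) : (p : ℤ) ∣ c := by
  by_contra hc
  obtain ⟨F, sF, hF, hqF, hsF⟩ := exists_shifted_form hG hs h0 hM
  obtain ⟨A, sA, hA, hqA, hsA⟩ := exists_unit_form (p := p)
  have e1 : (2 : ℤ) + 12 * ((p : ℤ) - 1) = ((2 + 12 * (p - 1) : ℕ) : ℤ) := by omega
  have e2 : 12 * ((p : ℤ) - 1) = ((12 * (p - 1) : ℕ) : ℤ) := by omega
  refine no_unit_congruence hp5 ?_ ?_ (by omega) (modFun_weight e1 hF) hqF
    (modFun_weight e2 hA) hqA (u := c) ?_ hsF hsA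
  · rw [Nat.gcd_add_self_left]
    exact Nat.gcd_eq_left ⟨6 * (p - 1), by ring⟩
  · omega
  · rwa [Ne, ZMod.intCast_zmod_eq_zero_iff_dvd]

lemma qexp_scaled_conj (hG : G ∈ modFun (Gamma0 p) 2) (hs : QExp 1 G (toC sG)) (j : ℕ) :
    QExp (p : ℝ) (((p : ℂ) • G) ∣[(2 : ℤ)] stMat (j : ℤ))
      (twistSeries p j (toC (-uSeries p sG))) := by
  refine (qexp_translate p (qexp_fricke_int hG hs) j).congr fun z => ?_
  rw [SL_smul_slash', slash_ST (p := p), sub_self, zpow_zero, one_smul, Pi.smul_apply,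
    smul_eq_mul, slash_heckeMatrix_apply 2 (NeZero.ne p)]
  have hp : (p : ℂ) ≠ 0 := Nat.cast_ne_zero.mpr (NeZero.ne p)
  field_simp

omit [Fact p.Prime] in
lemma qexp_scaled (hs : QExp 1 G (toC sG)) :
    QExp 1 ((p : ℂ) • G) (toC (PowerSeries.C (p : ℤ) * sG)) := by
  rw [map_mul, PowerSeries.map_C, map_natCast]
  exact qexp_smul hs _

lemma coeff_sub_pow_prime_pow {R : Type*} [CommRing R] {l : ℕ} [Fact l.Prime] [CharP R l] (b : R)
    (v r : ℕ) (hr : 0 < r) :
    ((Polynomial.X - Polynomial.C b) ^ (l ^ v * r)).coeff (l ^ v * (r - 1))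
      = -((r : R) * b ^ l ^ v) := by
  have hl : 0 < l ^ v := pow_pos (NeZero.pos l) v
  rw [pow_mul, sub_pow_char_pow, ← map_pow,
    show (Polynomial.X : Polynomial R) ^ l ^ v - Polynomial.C (b ^ l ^ v)
      = Polynomial.expand R (l ^ v) (Polynomial.X - Polynomial.C (b ^ l ^ v)) by simp,
    ← map_pow, mul_comm (l ^ v), Polynomial.coeff_expand_mul hl, sub_eq_add_neg, ← map_neg,
    Polynomial.coeff_X_add_C_pow, show r - (r - 1) = 1 by omega, pow_one,
    Nat.choose_symm (show 1 ≤ r by omega), Nat.choose_one_right]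
  ring

/-- A large prime dividing `p + 1` does not divide. -/
theorem not_congr_large {l : ℕ} [Fact l.Prime] (hl5 : 5 ≤ l) (hlp : l ∣ p + 1)
    (hG : G ∈ modFun (Gamma0 p) 2) (hs : QExp 1 G (toC sG)) (h0 : sG.coeff 0 = c)
    (hM : ∀ n, n ≠ 0 → (l : ℤ) ∣ sG.coeff n) : (l : ℤ) ∣ c := by
  by_contra hc
  have hl : l.Prime := Fact.out
  obtain ⟨v, r, hr, hvr⟩ := Nat.exists_eq_pow_mul_and_not_dvd (show p + 1 ≠ 0 by omega) l hl.ne_one
  have hr0 : 0 < r := Nat.pos_of_ne_zero fun h => hr (by simp [h])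
  have hlv : 0 < l ^ v := pow_pos hl.pos v
  have : CharP (PowerSeries (ZMod l)) l :=
    charP_of_injective_ringHom (f := PowerSeries.C) PowerSeries.C_injective l
  set φ := Int.castRingHom (ZMod l) with hφ
  have hsG := map_eq_C_of_dvd (l := l) h0 hM
  set K : ZMod l := -(c : ZMod l) with hK
  have hp1 : (p : ZMod l) = -1 := by
    rw [eq_neg_iff_add_eq_zero]
    exact_mod_cast (ZMod.natCast_eq_zero_iff (p + 1) l).mpr hlp
  have e1 : (PowerSeries.C (p : ℤ) * sG).map φ = PowerSeries.C K := by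
    rw [map_mul, PowerSeries.map_C, hsG, ← map_mul, hK, hφ, eq_intCast, Int.cast_natCast, hp1,
      neg_one_mul]
  have e2 : (-uSeries p sG).map φ = PowerSeries.expand p (NeZero.ne p) (PowerSeries.C K) := by
    rw [map_neg, map_uSeries, uSeries_eq_C_of hsG, ← map_neg, PowerSeries.expand_C]
  set k := l ^ v * (r - 1) with hk
  have hkn : k ≤ p + 1 := by rw [hvr, hk]; exact Nat.mul_le_mul_left _ (Nat.sub_le r 1)
  have hcoef : ((charSer p (PowerSeries.C (p : ℤ) * sG) (-uSeries p sG)).coeff k).map φ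
      = PowerSeries.C (-((r : ZMod l) * K ^ l ^ v)) := by
    rw [← Polynomial.coeff_map, map_charSer, e1, e2, charSer_expand, ← pow_succ', hk, hvr,
      coeff_sub_pow_prime_pow _ v r hr0]
    simp only [map_neg, map_mul, map_pow, map_natCast, hK]
  have hmem : (p : ℂ) • G ∈ modFun (Gamma0 p) 2 := Submodule.smul_mem _ _ hG
  have hFm := conjPoly_coeff_mem hmem hkn
  have hFq := qexp_conjPoly_coeff hmem (qexp_scaled hs) (fun j _ => qexp_scaled_conj hG hs j) hkn
  obtain ⟨A, sA, hA, hqA, hsA⟩ := exists_unit_form (p := l)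
  have e : p + 1 - k = l ^ v := by
    rw [hvr, hk, ← Nat.mul_sub, show r - (r - 1) = 1 by omega, mul_one]
  refine no_unit_congruence hl5 (wF := 2 * l ^ v) (wA := 12 * (l - 1)) ?_ ?_ (by omega)
    (modFun_weight (by rw [e]; push_cast; ring) hFm) hFq
    (modFun_weight (by omega) hA) hqA (u := -((r : ℤ) * (-c) ^ l ^ v)) ?_ ?_ hsA
  · have hcop : Nat.Coprime l (6 * (l - 1)) := (Nat.Prime.coprime_iff_not_dvd hl).mpr fun h => by
      rcases hl.dvd_mul.mp h with h | h
      · have := Nat.le_of_dvd (by norm_num) h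
        interval_cases l <;> first | omega | norm_num at hl
      · have := Nat.le_of_dvd (by omega) h
        omega
    rw [show 12 * (l - 1) = 2 * (6 * (l - 1)) by ring, Nat.gcd_mul_left,
      (hcop.pow_left v).gcd_eq_one, mul_one]
  · intro h
    rcases Nat.prime_three.dvd_mul.mp h with h | h
    · norm_num at h
    · have := (Nat.prime_dvd_prime_iff_eq Nat.prime_three hl).mp (Nat.prime_three.dvd_of_dvd_pow h)
      omega
  · push_cast
    rw [neg_ne_zero]
    refine mul_ne_zero ?_ (pow_ne_zero _ (neg_ne_zero.mpr ?_))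
    · rwa [Ne, ZMod.natCast_eq_zero_iff]
    · rwa [Ne, ZMod.intCast_zmod_eq_zero_iff_dvd]
  · rw [hcoef, hK]
    push_cast
    rfl

/-- The series of the divisor sums. -/
def sigmaSer (k : ℕ) : PowerSeries ℤ :=
  PowerSeries.mk fun n => if n = 0 then 0 else (ArithmeticFunction.sigma k n : ℤ)

lemma e4Ser_eq : e4Ser = 1 + 240 * sigmaSer 3 := by
  ext n
  rw [e4Ser, PowerSeries.coeff_mk, map_add, PowerSeries.coeff_one,
    show (240 : PowerSeries ℤ) = PowerSeries.C (240 : ℤ) from (map_ofNat _ 240).symm,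
    PowerSeries.coeff_C_mul, sigmaSer, PowerSeries.coeff_mk]
  split_ifs <;> ring

lemma e6Ser_eq : e6Ser = 1 - 504 * sigmaSer 5 := by
  ext n
  rw [e6Ser, PowerSeries.coeff_mk, map_sub, PowerSeries.coeff_one,
    show (504 : PowerSeries ℤ) = PowerSeries.C (504 : ℤ) from (map_ofNat _ 504).symm,
    PowerSeries.coeff_C_mul, sigmaSer, PowerSeries.coeff_mk]
  split_ifs <;> ring

/-- The weight six form `(p G E₄ - p c E₆) / d`. -/
lemma exists_sixForm (hG : G ∈ modFun (Gamma0 p) 2) (hs : QExp 1 G (toC sG)) (h0 : sG.coeff 0 = c)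
    (d e a b q : ℤ) (hd : d ≠ 0) (hq : (p : ℤ) + 1 = d * e * q) (ha : 240 = d * a) (hb : 504 = d * b)
    (hM : ∀ n, n ≠ 0 → d * e ∣ sG.coeff n) :
    ∃ (H : ℍ → ℂ) (sH tH : PowerSeries ℤ), H ∈ modFun (Gamma0 p) 6 ∧ QExp 1 H (toC sH) ∧
      (∀ j < p, QExp (p : ℝ) (H ∣[(6 : ℤ)] stMat (j : ℤ)) (twistSeries p j (toC tH))) ∧
      (∀ γ : SL(2, ℤ), (d : ℂ) • (H ∣[(6 : ℤ)] γ)
        = (E₄ : ℍ → ℂ) * (((p : ℂ) • G) ∣[(2 : ℤ)] γ) - ((p : ℂ) * c) • (E₆ : ℍ → ℂ)) ∧
      ∀ {R : Type} [CommRing R] (φ : ℤ →+* R), φ e = 0 →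
        sH.map φ = PowerSeries.C (φ (p * c)) *
          (PowerSeries.C (φ a) * (sigmaSer 3).map φ + PowerSeries.C (φ b) * (sigmaSer 5).map φ) ∧
        tH.map φ = PowerSeries.expand p (NeZero.ne p) (PowerSeries.C (φ (p * c)) *
          (PowerSeries.C (φ a) * (sigmaSer 3).map φ + PowerSeries.C (φ b) * (sigmaSer 5).map φ)) := by
  have hdC : (d : ℂ) ≠ 0 := Int.cast_ne_zero.mpr hd
  choose D0 hD0 using hM
  set D : PowerSeries ℤ := PowerSeries.mk fun n => if h : n = 0 then 0 else D0 n h with hD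
  have hsG : sG = PowerSeries.C c + PowerSeries.C (d * e) * D := by
    ext n
    rw [map_add, PowerSeries.coeff_C, PowerSeries.coeff_C_mul, hD, PowerSeries.coeff_mk]
    rcases eq_or_ne n 0 with rfl | hn
    · simp [h0]
    · rw [if_neg hn, dif_neg hn, zero_add]; exact hD0 n hn
  have huG : uSeries p sG = PowerSeries.C c + PowerSeries.C (d * e) * uSeries p D := by
    ext n
    simp only [coeff_uSeries, hsG, map_add, PowerSeries.coeff_C_mul, PowerSeries.coeff_C]
    simp [(Fact.out : p.Prime).ne_zero]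
  have h240 : (240 : PowerSeries ℤ) = PowerSeries.C d * PowerSeries.C a := by
    rw [← map_mul, ← ha, map_ofNat]
  have h504 : (504 : PowerSeries ℤ) = PowerSeries.C d * PowerSeries.C b := by
    rw [← map_mul, ← hb, map_ofNat]
  set W : PowerSeries ℤ :=
    PowerSeries.C a * sigmaSer 3 + PowerSeries.C b * sigmaSer 5 with hW
  set X4 := PowerSeries.expand p (NeZero.ne p) e4Ser with hX4
  set X6 := PowerSeries.expand p (NeZero.ne p) e6Ser with hX6
  set sH : PowerSeries ℤ :=
    PowerSeries.C (e * p) * D * e4Ser + PowerSeries.C (p * c) * W with hsH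
  set tH : PowerSeries ℤ := -(PowerSeries.C e * uSeries p D * X4) - PowerSeries.C (e * c * q) * X4
    + PowerSeries.C (p * c) * PowerSeries.expand p (NeZero.ne p) W with htH
  have hdiff : e4Ser - e6Ser = PowerSeries.C d * W := by
    rw [e4Ser_eq, e6Ser_eq, hW, h240, h504]; ring
  have hsnum : PowerSeries.C d * sH
      = PowerSeries.C (p : ℤ) * sG * e4Ser - PowerSeries.C ((p : ℤ) * c) * e6Ser := by
    rw [hsG, hsH]
    simp only [map_mul]
    linear_combination (-(PowerSeries.C (p : ℤ) * PowerSeries.C c)) * hdiff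
  have htnum : PowerSeries.C d * tH
      = -uSeries p sG * X4 - PowerSeries.C ((p : ℤ) * c) * X6 := by
    have h1 : X4 - X6 = PowerSeries.C d * PowerSeries.expand p (NeZero.ne p) W := by
      rw [hX4, hX6, ← map_sub, hdiff, map_mul, PowerSeries.expand_C]
    have h2 : PowerSeries.C (p : ℤ) + 1
        = PowerSeries.C d * PowerSeries.C e * PowerSeries.C q := by
      rw [← map_mul, ← map_mul, ← hq, map_add, map_one]
    rw [huG, htH]
    simp only [map_mul]
    linear_combination (-(PowerSeries.C (p : ℤ) * PowerSeries.C c)) * h1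
      + (PowerSeries.C c * X4) * h2
  set Gt : ℍ → ℂ := (p : ℂ) • G with hGt
  have hGtm : Gt ∈ modFun (Gamma0 p) 2 := Submodule.smul_mem _ _ hG
  set H : ℍ → ℂ :=
    (d : ℂ)⁻¹ • ((E₄ : ℍ → ℂ) * Gt - ((p : ℂ) * c) • (E₆ : ℍ → ℂ)) with hH
  have hHm : H ∈ modFun (Gamma0 p) 6 := by
    refine Submodule.smul_mem _ _ (sub_mem ?_ (Submodule.smul_mem _ _ (lev_le E6_mem)))
    exact modFun_weight (by norm_num) (modFun_mul (lev_le E4_mem) hGtm)
  have hslash : ∀ γ : SL(2, ℤ), (d : ℂ) • (H ∣[(6 : ℤ)] γ)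
      = (E₄ : ℍ → ℂ) * (Gt ∣[(2 : ℤ)] γ) - ((p : ℂ) * c) • (E₆ : ℍ → ℂ) := by
    intro γ
    rw [hH, SL_smul_slash', smul_smul, mul_inv_cancel₀ hdC, one_smul, sub_eq_add_neg,
      SlashAction.add_slash, SlashAction.neg_slash, SL_smul_slash', lev.slash_eq E6_mem,
      show ((E₄ : ℍ → ℂ) * Gt) ∣[(6 : ℤ)] γ = ((E₄ : ℍ → ℂ) ∣[(4 : ℤ)] γ) * (Gt ∣[(2 : ℤ)] γ) from
        ModularForm.mul_slash_SL2 4 2 γ (E₄ : ℍ → ℂ) Gt, lev.slash_eq E4_mem,
      ← sub_eq_add_neg]
  refine ⟨H, sH, tH, hHm, ?_, fun j hj => ?_, hslash, fun {R} _ φ hφ => ?_⟩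
  · have h := qexp_smul (qexp_sub (qexp_E4.mul (qexp_scaled (p := p) hs))
      (qexp_smul qexp_E6 ((p : ℂ) * c))) (d : ℂ)⁻¹
    convert h using 1
    rw [← map_mul, show PowerSeries.C ((p : ℂ) * c) = toC (PowerSeries.C ((p : ℤ) * c)) by
        simp, ← map_mul, ← map_sub, mul_comm e4Ser, ← hsnum, map_mul,
      PowerSeries.map_C, ← mul_assoc, ← map_mul, eq_intCast, inv_mul_cancel₀ hdC, map_one, one_mul]
  · have h4 : QExp (p : ℝ) (E₄ : ℍ → ℂ) (twistSeries p j (toC X4)) := by
      rw [hX4, toC, PowerSeries.map_expand, zetaRoot_twist_expand]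
      exact qexp_expand p qexp_E4
    have h6 : QExp (p : ℝ) (E₆ : ℍ → ℂ) (twistSeries p j (toC X6)) := by
      rw [hX6, toC, PowerSeries.map_expand, zetaRoot_twist_expand]
      exact qexp_expand p qexp_E6
    have h := qexp_smul (qexp_sub (h4.mul (qexp_scaled_conj hG hs j))
      (qexp_smul h6 ((p : ℂ) * c))) (d : ℂ)⁻¹
    have hC : ∀ x : ℂ, twistSeries p j (PowerSeries.C x) = PowerSeries.C x := fun x => by
      ext n
      rw [twistSeries, PowerSeries.coeff_rescale, PowerSeries.coeff_C]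
      split_ifs with hn <;> simp [hn]
    have hts : toC tH = PowerSeries.C (d : ℂ)⁻¹ * (toC X4 * toC (-uSeries p sG)
        - PowerSeries.C ((p : ℂ) * c) * toC X6) := by
      rw [← map_mul, show PowerSeries.C ((p : ℂ) * c) = toC (PowerSeries.C ((p : ℤ) * c)) by
          simp, ← map_mul, ← map_sub, mul_comm X4, ← htnum, map_mul,
        PowerSeries.map_C, ← mul_assoc, ← map_mul, eq_intCast, inv_mul_cancel₀ hdC, map_one,
        one_mul]
    convert h using 1
    · rw [← hGt, ← hslash, inv_smul_smul₀ hdC]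
    · rw [hts]
      simp only [twistSeries, map_mul, map_sub]
      simp only [show ∀ x : ℂ, PowerSeries.rescale (zetaRoot p ^ j) (PowerSeries.C x)
          = PowerSeries.C x from hC]
  · constructor
    · rw [hsH]
      simp only [map_add, map_mul, hW, PowerSeries.map_C, hφ, zero_mul, map_zero, zero_add]
    · rw [htH]
      simp only [map_add, map_sub, map_neg, map_mul, hW, PowerSeries.map_C, hφ, zero_mul, map_zero,
        neg_zero, sub_zero, zero_add, PowerSeries.map_expand, PowerSeries.expand_C]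

lemma prod_affine {R ι : Type*} [CommRing R] (s : Finset ι) (g : ι → R) (a Y : R) :
    ∏ x ∈ s, (Y - a * g x) = ∑ k ∈ Finset.range (s.card + 1),
      a ^ (s.card - k) * Y ^ k * (∏ x ∈ s, (Polynomial.X - Polynomial.C (g x))).coeff k := by
  classical
  simp only [sub_eq_add_neg, ← map_neg, ← mul_neg]
  simp only [add_comm Y]
  rw [Finset.prod_add, Finset.sum_powerset]
  conv_lhs => rw [← Finset.sum_range_reflect]
  refine Finset.sum_congr rfl fun k hk => ?_
  have hk' : k ≤ s.card := Nat.lt_succ_iff.mp (Finset.mem_range.mp hk)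
  rw [Finset.prod_X_add_C_coeff _ _ hk', Finset.mul_sum]
  simp only [Nat.add_sub_cancel]
  refine Finset.sum_congr rfl fun t ht => ?_
  obtain ⟨hts, htc⟩ := Finset.mem_powersetCard.mp ht
  rw [Finset.prod_mul_distrib, Finset.prod_const, Finset.prod_const,
    Finset.card_sdiff_of_subset hts, htc, show s.card - (s.card - k) = k by omega]
  ring

lemma coeff_prod_C {R ι : Type*} [CommRing R] (s : Finset ι) (g : ι → R) (k : ℕ) :
    (∏ x ∈ s, (Polynomial.X - Polynomial.C (Polynomial.C (g x)))).coeff k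
      = Polynomial.C ((∏ x ∈ s, (Polynomial.X - Polynomial.C (g x))).coeff k) := by
  rw [← Polynomial.coeff_map, Polynomial.map_prod]
  simp

/-- The model used at the prime two. -/
def twoModel : Fin 3 → Polynomial ℤ :=
  ![Polynomial.X ^ 4 - 24 * Polynomial.X, -Polynomial.X ^ 6 + 36 * Polynomial.X ^ 3 - 216,
    Polynomial.X ^ 3 - 27]

/-- The prime two does not divide. -/
theorem not_congr_two (h8 : 8 ∣ p + 1) (hG : G ∈ modFun (Gamma0 p) 2) (hs : QExp 1 G (toC sG))
    (h0 : sG.coeff 0 = c) (hM : ∀ n, n ≠ 0 → (8 : ℤ) ∣ sG.coeff n) : (2 : ℤ) ∣ c := by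
  by_contra hc
  obtain ⟨q, hq⟩ := h8
  obtain ⟨H, sH, tH, hHm, hHq, hHt, hHs, -⟩ := exists_sixForm hG hs h0 8 1 30 63 q (by norm_num)
    (by rw [mul_one]; exact_mod_cast hq) (by norm_num) (by norm_num) (by simpa using hM)
  set n := p + 1 with hn
  set Gt : ℍ → ℂ := (p : ℂ) • G with hGt
  have hGtm : Gt ∈ modFun (Gamma0 p) 2 := Submodule.smul_mem _ _ hG
  have hE : ∀ k ≤ n, ∃ P : FormPoly,
      evForm P = (conjPoly (p := p) 2 Gt).coeff k := fun k hk => by
    obtain ⟨P, -, hP, -⟩ := exists_formPoly (2 * (p + 1 - k)) _ _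
      (modFun_weight (by push_cast; ring) (conjPoly_coeff_mem hGtm hk))
      (qexp_conjPoly_coeff hGtm (qexp_scaled hs) (fun j _ => qexp_scaled_conj hG hs j) hk)
    exact ⟨P, hP⟩
  have hK : ∀ k ≤ n, ∃ P : FormPoly, evForm P = (conjPoly (p := p) 6 H).coeff k := fun k hk => by
    obtain ⟨P, -, hP, -⟩ := exists_formPoly (6 * (p + 1 - k)) _ _
      (modFun_weight (by push_cast; ring) (conjPoly_coeff_mem hHm hk))
      (qexp_conjPoly_coeff hHm hHq hHt hk)
    exact ⟨P, hP⟩
  choose Ep hEp using hE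
  choose Kp hKp using hK
  set Cc : ℤ := (p : ℤ) * c with hCc
  set E' : ℕ → FormPoly := fun k => if h : k ≤ n then Ep k h else 0 with hE'
  set K' : ℕ → FormPoly := fun k => if h : k ≤ n then Kp k h else 0 with hK'
  set Lp : Polynomial FormPoly := ∑ k ∈ Finset.range (n + 1),
    8 ^ (n - k) * Polynomial.X ^ k * Polynomial.C (K' k) with hLp
  set Rp : Polynomial FormPoly := ∑ k ∈ Finset.range (n + 1),
    Polynomial.C (MvPolynomial.X 0) ^ (n - k) *
      (Polynomial.X + Polynomial.C (MvPolynomial.C Cc * MvPolynomial.X 1)) ^ k *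
      Polynomial.C (E' k) with hRp
  -- both sides evaluate to the same product
  have hroot : ∀ x : Option (Fin p), 8 * (H ∣[(6 : ℤ)] cosetRep x)
      = (E₄ : ℍ → ℂ) * (Gt ∣[(2 : ℤ)] cosetRep x) - (Cc : ℍ → ℂ) * (E₆ : ℍ → ℂ) := fun x => by
    funext z
    have h := congrFun (hHs (cosetRep x)) z
    simp only [Pi.smul_apply, Pi.sub_apply, Pi.mul_apply, smul_eq_mul] at h
    simp only [hCc, Pi.mul_apply, Pi.sub_apply, Pi.intCast_apply, Pi.ofNat_apply]
    push_cast at h ⊢
    linear_combination h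
  have hmap : Lp.map evForm.toRingHom = Rp.map evForm.toRingHom := by
    have hL : Lp.map evForm.toRingHom = ∏ x : Option (Fin p),
        (Polynomial.X - 8 * Polynomial.C (H ∣[(6 : ℤ)] cosetRep x)) := by
      rw [prod_affine, hLp, Polynomial.map_sum, Finset.card_univ, Fintype.card_option,
        Fintype.card_fin]
      refine Finset.sum_congr rfl fun k hk => ?_
      have hk' : k ≤ n := Nat.lt_succ_iff.mp (Finset.mem_range.mp hk)
      simp only [Polynomial.map_mul, Polynomial.map_pow, Polynomial.map_X, Polynomial.map_C,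
        Polynomial.map_ofNat, hK', dif_pos hk']
      rw [show evForm.toRingHom (Kp k hk') = _ from hKp k hk', coeff_prod_C]
      rfl
    have hR : Rp.map evForm.toRingHom = ∏ x : Option (Fin p),
        (Polynomial.X + Polynomial.C ((Cc : ℍ → ℂ) * (E₆ : ℍ → ℂ))
          - Polynomial.C (E₄ : ℍ → ℂ) * Polynomial.C (Gt ∣[(2 : ℤ)] cosetRep x)) := by
      rw [prod_affine, hRp, Polynomial.map_sum, Finset.card_univ, Fintype.card_option,
        Fintype.card_fin]
      refine Finset.sum_congr rfl fun k hk => ?_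
      have hk' : k ≤ n := Nat.lt_succ_iff.mp (Finset.mem_range.mp hk)
      simp only [Polynomial.map_mul, Polynomial.map_pow, Polynomial.map_X, Polynomial.map_C,
        Polynomial.map_add, hE', dif_pos hk']
      rw [show evForm.toRingHom (Ep k hk') = _ from hEp k hk', coeff_prod_C,
        show evForm.toRingHom (MvPolynomial.X 0) = (E₄ : ℍ → ℂ) by simp [evForm],
        show evForm.toRingHom (MvPolynomial.C Cc * MvPolynomial.X 1)
          = (Cc : ℍ → ℂ) * (E₆ : ℍ → ℂ) by simp [evForm]]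
      rfl
    rw [hL, hR]
    refine Finset.prod_congr rfl fun x _ => ?_
    rw [show (8 : Polynomial (ℍ → ℂ)) = Polynomial.C 8 from (map_ofNat _ _).symm, ← map_mul,
      hroot x, map_sub, map_mul]
    ring
  -- transport to the model
  set ψ : FormPoly →+* Polynomial ℤ := (MvPolynomial.aeval twoModel).toRingHom with hψ
  have hrel : 1728 * twoModel 2 = twoModel 0 ^ 3 - twoModel 1 ^ 2 := by
    show 1728 * (Polynomial.X ^ 3 - 27) = (Polynomial.X ^ 4 - 24 * Polynomial.X) ^ 3
      - (-Polynomial.X ^ 6 + 36 * Polynomial.X ^ 3 - 216) ^ 2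
    ring
  have hreg : IsLeftRegular (1728 : Polynomial ℤ) :=
    IsLeftCancelMulZero.mul_left_cancel_of_ne_zero (by norm_num)
  have hLR : Lp.map ψ = Rp.map ψ := by
    refine Polynomial.ext fun i => ?_
    rw [Polynomial.coeff_map, Polynomial.coeff_map, ← sub_eq_zero, ← map_sub]
    refine aeval_eq_zero_of_evForm ?_ hrel hreg
    have h := congrArg (fun P => Polynomial.coeff P i) hmap
    simp only [Polynomial.coeff_map] at h
    rw [map_sub, sub_eq_zero]
    exact h
  have htop : ψ (K' n) = 1 := by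
    rw [← sub_eq_zero, ← map_one ψ, ← map_sub]
    refine aeval_eq_zero_of_evForm ?_ hrel hreg
    rw [map_sub, map_one, hK']
    simp only [le_refl, dif_pos, hKp]
    rw [sub_eq_zero, conjPoly]
    have hmon : (∏ x : Option (Fin p), (Polynomial.X - Polynomial.C
        (H ∣[(6 : ℤ)] cosetRep x))).Monic :=
      Polynomial.monic_prod_of_monic _ _ fun x _ => Polynomial.monic_X_sub_C _
    have hdeg : (∏ x : Option (Fin p), (Polynomial.X - Polynomial.C
        (H ∣[(6 : ℤ)] cosetRep x))).natDegree = n := by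
      rw [Polynomial.natDegree_prod_of_monic _ _ fun x _ => Polynomial.monic_X_sub_C _]
      simp [hn]
    rw [← hdeg]
    exact hmon
  set W : Polynomial ℤ := -(Polynomial.C Cc * (3 * Polynomial.X ^ 3 - 54)) with hW
  have hev := congrArg (Polynomial.eval (4 * W)) hLR
  set a : Polynomial ℤ := Polynomial.X ^ 4 - 24 * Polynomial.X with ha
  set Q : Polynomial ℤ := ∑ k ∈ Finset.range (n + 1), 2 ^ (n - k) * W ^ k * ψ (K' k) with hQ
  set N : Polynomial ℤ := ∑ k ∈ Finset.range (n + 1),
    (-(Polynomial.C Cc * Polynomial.X ^ 2)) ^ k * ψ (E' k) with hN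
  have hev' : (4 : Polynomial ℤ) ^ n * Q = a ^ n * N := by
    rw [hQ, hN, Finset.mul_sum, Finset.mul_sum]
    simp only [hLp, hRp, Polynomial.map_sum, Polynomial.eval_finsetSum, Polynomial.map_mul,
      Polynomial.map_pow, Polynomial.map_X, Polynomial.map_C, Polynomial.map_ofNat,
      Polynomial.map_add, Polynomial.eval_mul, Polynomial.eval_pow, Polynomial.eval_X,
      Polynomial.eval_C, Polynomial.eval_add, Polynomial.eval_ofNat] at hev
    refine Eq.trans ?_ (hev.trans ?_)
    · refine Finset.sum_congr rfl fun k hk => ?_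
      have hk' : n - k + k = n := Nat.sub_add_cancel (Nat.lt_succ_iff.mp (Finset.mem_range.mp hk))
      calc (4 : Polynomial ℤ) ^ n * (2 ^ (n - k) * W ^ k * ψ (K' k))
          = (4 ^ (n - k) * 2 ^ (n - k)) * (4 ^ k * W ^ k) * ψ (K' k) := by
            conv_lhs => rw [← hk', pow_add]
            rw [hk']; ring
        _ = 8 ^ (n - k) * (4 * W) ^ k * ψ (K' k) := by rw [← mul_pow, ← mul_pow]; norm_num
    · refine Finset.sum_congr rfl fun k hk => ?_
      have hk' : n - k + k = n := Nat.sub_add_cancel (Nat.lt_succ_iff.mp (Finset.mem_range.mp hk))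
      have h0' : ψ (MvPolynomial.X 0) = a := by simp [hψ, twoModel, ha]
      have h1' : 4 * W + ψ (MvPolynomial.C Cc * MvPolynomial.X 1)
          = a * -(Polynomial.C Cc * Polynomial.X ^ 2) := by
        simp [hψ, twoModel, ha, hW]
        ring
      rw [h0', h1', mul_pow]
      calc a ^ (n - k) * (a ^ k * (-(Polynomial.C Cc * Polynomial.X ^ 2)) ^ k) * ψ (E' k)
          = a ^ (n - k + k) * ((-(Polynomial.C Cc * Polynomial.X ^ 2)) ^ k * ψ (E' k)) := by
            rw [pow_add]; ring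
        _ = a ^ n * ((-(Polynomial.C Cc * Polynomial.X ^ 2)) ^ k * ψ (E' k)) := by rw [hk']
  have hamon : (a ^ n).Monic := by
    refine Polynomial.Monic.pow ?_ n
    rw [ha, sub_eq_add_neg]
    refine Polynomial.monic_X_pow_add ?_
    rw [Polynomial.degree_neg]
    refine lt_of_le_of_lt (Polynomial.degree_mul_le _ _) ?_
    rw [show (24 : Polynomial ℤ) = Polynomial.C 24 from (map_ofNat _ _).symm,
      Polynomial.degree_C (by norm_num), Polynomial.degree_X, zero_add]
    norm_num
  obtain ⟨N', hN'⟩ : Polynomial.C ((4 : ℤ) ^ n) ∣ N := by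
    rw [Polynomial.C_dvd_iff_dvd_coeff]
    set φ := Int.castRingHom (ZMod (4 ^ n)) with hφ
    have h : (a ^ n).map φ * N.map φ = 0 := by
      rw [← Polynomial.map_mul, ← hev', Polynomial.map_mul, Polynomial.map_pow,
        Polynomial.map_ofNat, show (4 : Polynomial (ZMod (4 ^ n))) ^ n
          = Polynomial.C (((4 ^ n : ℕ) : ZMod (4 ^ n))) by
            rw [Nat.cast_pow, map_pow, Nat.cast_ofNat, map_ofNat],
        ZMod.natCast_self, map_zero, zero_mul]
    have hN0 : N.map φ = 0 := (hamon.map φ).mul_right_eq_zero_iff.mp h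
    intro i
    have := congrArg (fun P => Polynomial.coeff P i) hN0
    simp only [Polynomial.coeff_map, Polynomial.coeff_zero, hφ, eq_intCast,
      ZMod.intCast_zmod_eq_zero_iff_dvd] at this
    exact_mod_cast this
  have hQN : Q = a ^ n * N' := by
    have h4 : (4 : Polynomial ℤ) ^ n ≠ 0 := pow_ne_zero _ (by norm_num)
    refine mul_left_cancel₀ h4 ?_
    rw [hev', hN', map_pow, map_ofNat]
    ring
  -- reduction modulo two
  set φ := Int.castRingHom (ZMod 2) with hφ
  have hCc : φ Cc = 1 := by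
    have hp2 : ((p : ℤ) : ZMod 2) = 1 := by
      have h : ((p + 1 : ℕ) : ZMod 2) = 0 := by
        rw [ZMod.natCast_eq_zero_iff]; omega
      push_cast at h ⊢
      linear_combination h - (by decide : (2 : ZMod 2) = 0)
    rw [hφ, eq_intCast, hCc, Int.cast_mul, hp2, one_mul]
    exact ZMod.intCast_eq_one_iff_odd.mpr (Int.not_even_iff_odd.mp fun h => hc h.two_dvd)
  have h2 := congrArg (Polynomial.map φ) hQN
  have hQ2 : Q.map φ = Polynomial.X ^ (3 * n) := by
    rw [hQ, Polynomial.map_sum, Finset.sum_eq_single n]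
    · rw [Nat.sub_self, pow_zero, one_mul, htop, mul_one, Polynomial.map_pow, hW,
        Polynomial.map_neg, Polynomial.map_mul, Polynomial.map_C, hCc, map_one, one_mul,
        Polynomial.map_sub, Polynomial.map_mul, Polynomial.map_pow, Polynomial.map_X,
        Polynomial.map_ofNat, Polynomial.map_ofNat]
      rw [show (3 : Polynomial (ZMod 2)) = 1 by
          rw [show (3 : Polynomial (ZMod 2)) = Polynomial.C 3 from (map_ofNat _ _).symm,
            show (3 : ZMod 2) = 1 from rfl, map_one],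
        show (54 : Polynomial (ZMod 2)) = 0 by
          rw [show (54 : Polynomial (ZMod 2)) = Polynomial.C 54 from (map_ofNat _ _).symm,
            show (54 : ZMod 2) = 0 from rfl, map_zero],
        one_mul, sub_zero, CharTwo.neg_eq, pow_mul]
    · intro k hk hkn
      have hk' : k < n := lt_of_le_of_ne (Nat.lt_succ_iff.mp (Finset.mem_range.mp hk)) hkn
      rw [Polynomial.map_mul, Polynomial.map_mul, Polynomial.map_pow, Polynomial.map_ofNat,
        show (2 : Polynomial (ZMod 2)) = 0 from CharTwo.two_eq_zero, zero_pow (by omega), zero_mul,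
        zero_mul]
    · intro h; exact absurd (Finset.self_mem_range_succ n) h
  have ha2 : a.map φ = Polynomial.X ^ 4 := by
    rw [ha, Polynomial.map_sub, Polynomial.map_mul, Polynomial.map_pow, Polynomial.map_X,
      Polynomial.map_ofNat, show (24 : Polynomial (ZMod 2)) = 0 by
        rw [show (24 : Polynomial (ZMod 2)) = Polynomial.C 24 from (map_ofNat _ _).symm,
          show (24 : ZMod 2) = 0 from rfl, map_zero],
      zero_mul, sub_zero]
  rw [hQ2, Polynomial.map_mul, Polynomial.map_pow, ha2, ← pow_mul] at h2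
  have h3 := congrArg (fun P => Polynomial.coeff P (3 * n)) h2
  simp only [Polynomial.coeff_X_pow, if_true] at h3
  rw [Polynomial.coeff_X_pow_mul', if_neg (by omega)] at h3
  exact one_ne_zero h3

end Fermat.Agent.Eisenstein
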