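import Fermat.Agent.Eisenstein.Eis
import Fermat.Agent.Hecke.LatticeFinite
import Fermat.Prelude.Def_CuspForm_HeckeLocal
import Fermat.Prelude.Def_CuspForm_HeckeEvalForms
import Fermat.Prelude.Def_ModularCurve_ModularUnit
import Mathlib.LinearAlgebra.FreeModule.Finite.Quotient

/-!
# The perfect pairing between the Hecke algebra and the integral cusp forms

Main result: `exists_form_of_eisenstein`.
-/

set_option autoImplicit false

noncomputable section

namespace Fermat.Agent.Eisenstein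

open CongruenceSubgroup CuspForm ModularCurve ModularFormClass
open Fermat.Agent.Hecke

variable (p : ℕ) [Fact p.Prime]

local notation "TZ" => heckeLatticeAlgebra p (∅ : Set ℕ)
local notation "LZ" => intLattice p 2

/-- The integral coefficient. -/
def coeffZ (n : ℕ) : LZ →ₗ[ℤ] ℤ where
  toFun f := (mem_intLattice_iff.mp f.2 n).choose
  map_add' f g := by
    apply Int.cast_injective (α := ℂ)
    rw [Int.cast_add, ← (mem_intLattice_iff.mp f.2 n).choose_spec,
      ← (mem_intLattice_iff.mp g.2 n).choose_spec, ← (mem_intLattice_iff.mp (f + g).2 n).choose_spec]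
    exact qCoeff_add _ _ _
  map_smul' c f := by
    apply Int.cast_injective (α := ℂ)
    rw [RingHom.id_apply, smul_eq_mul, Int.cast_mul, ← (mem_intLattice_iff.mp f.2 n).choose_spec,
      ← (mem_intLattice_iff.mp (c • f).2 n).choose_spec]
    exact qCoeff_intCast_smul _ _ _

lemma coeffZ_spec (n : ℕ) (f : LZ) :
    qCoeff ⇑(f : CuspForm (Gamma0 p) 2) n = (coeffZ p n f : ℂ) :=
  (mem_intLattice_iff.mp f.2 n).choose_spec

lemma coeffZ_zero (f : LZ) : coeffZ p 0 f = 0 := by
  apply Int.cast_injective (α := ℂ)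
  rw [← coeffZ_spec, qCoeff_cusp_zero, Int.cast_zero]

/-- The map from Hecke polynomials to the lattice algebra. -/
abbrev latticeEval : HeckeAlg →+* TZ :=
  (latticeRestrictHom p (∅ : Set ℕ)).toRingHom.comp (heckeEvalForms p 2)

/-- The image of a generator. -/
def latticeGen (l : Nat.Primes) : TZ := latticeEval p (MvPolynomial.X l)

lemma coe_latticeEval (Q : HeckeAlg) (f : LZ) :
    (((latticeEval p Q : TZ) : Module.End ℤ LZ) f : CuspForm (Gamma0 p) 2)
      = (heckeEvalForms p 2 Q : Module.End ℂ (CuspForm (Gamma0 p) 2)) f := rfl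

lemma coe_latticeGen (l : Nat.Primes) (f : LZ) :
    (((latticeGen p l : TZ) : Module.End ℤ LZ) f : CuspForm (Gamma0 p) 2)
      = (heckeFormsGen p 2 l : Module.End ℂ (CuspForm (Gamma0 p) 2)) f := by
  rw [latticeGen, coe_latticeEval, ← heckeEvalForms_heckeGen]
  rfl

lemma latticeEval_surjective : Function.Surjective (latticeEval p) := by
  refine (latticeRestrictHom_surjective p (∅ : Set ℕ)).comp ?_
  intro t
  obtain ⟨s, hs⟩ := t
  induction hs using Algebra.adjoin_induction with
  | mem x hx =>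
    rcases hx with ⟨l, hl, hlp, -, rfl⟩ | ⟨q, hq, hqp, -, rfl⟩
    · refine ⟨MvPolynomial.X ⟨l, hl⟩, Subtype.ext ?_⟩
      rw [show heckeEvalForms p 2 (MvPolynomial.X ⟨l, hl⟩) = _ from heckeEvalForms_heckeGen p 2 _,
        heckeFormsGen_of_not_dvd (ℓ := ⟨l, hl⟩) hlp]
      rfl
    · refine ⟨MvPolynomial.X ⟨q, hqp⟩, Subtype.ext ?_⟩
      rw [show heckeEvalForms p 2 (MvPolynomial.X ⟨q, hqp⟩) = _ from heckeEvalForms_heckeGen p 2 _,
        heckeFormsGen_of_dvd (q := ⟨q, hqp⟩) hq]
      rfl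
  | algebraMap r => exact ⟨MvPolynomial.C r, by rw [heckeEvalForms_C]; exact Subtype.ext rfl⟩
  | add x y _ _ hx hy =>
    obtain ⟨a, ha⟩ := hx
    obtain ⟨b, hb⟩ := hy
    exact ⟨a + b, by rw [map_add, ha, hb]; rfl⟩
  | mul x y _ _ hx hy =>
    obtain ⟨a, ha⟩ := hx
    obtain ⟨b, hb⟩ := hy
    exact ⟨a * b, by rw [map_mul, ha, hb]; rfl⟩

lemma coeffZ_gen_of_not_dvd (l : Nat.Primes) (h : ¬ (l : ℕ) ∣ p) (n : ℕ) (f : LZ) :
    coeffZ p n ((latticeGen p l : Module.End ℤ LZ) f) = coeffZ p (n * l) f +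
      if (l : ℕ) ∣ n then ((l : ℕ) : ℤ) * coeffZ p (n / l) f else 0 := by
  apply Int.cast_injective (α := ℂ)
  rw [← coeffZ_spec, coe_latticeGen, heckeFormsGen_of_not_dvd h, heckeAlgebra.coe_T,
    qCoeff_heckeTLin l.2 h]
  split_ifs with hln
  · push_cast
    rw [coeffZ_spec, coeffZ_spec]
    norm_num
  · simp [coeffZ_spec]

lemma coeffZ_gen_of_dvd (l : Nat.Primes) (h : (l : ℕ) ∣ p) (n : ℕ) (f : LZ) :
    coeffZ p n ((latticeGen p l : Module.End ℤ LZ) f) = coeffZ p (n * l) f := by
  apply Int.cast_injective (α := ℂ)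
  rw [← coeffZ_spec, coe_latticeGen, heckeFormsGen_of_dvd h, heckeAlgebra.coe_U,
    qCoeff_heckeULin l.2 h, coeffZ_spec]

/-- An Eisenstein system of first coefficients determines all coefficients. -/
lemma coeffZ_eq_sigma {R : Type*} [CommRing R] (f : LZ) (χ : TZ → R)
    (h1 : ∀ t : TZ, (coeffZ p 1 ((t : Module.End ℤ LZ) f) : R) = χ t)
    (hgen : ∀ l t, χ (latticeGen p l * t) = (eisensteinSystem p l : R) * χ t) (n : ℕ) :
    ∀ t : TZ, (coeffZ p n ((t : Module.End ℤ LZ) f) : R) = (sigmaPrime p n : R) * χ t := by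
  induction n using Nat.strong_induction_on with
  | _ n ih =>
    intro t
    rcases Nat.lt_or_ge n 2 with hn | hn
    · interval_cases n
      · simp [coeffZ_zero, sigmaPrime_zero]
      · simp [h1, sigmaPrime_one]
    obtain ⟨l, hl, hln⟩ := Nat.exists_prime_and_dvd (show n ≠ 1 by omega)
    obtain ⟨L, rfl⟩ : ∃ L : Nat.Primes, (L : ℕ) = l := ⟨⟨l, hl⟩, rfl⟩
    obtain ⟨m, rfl⟩ := hln
    have hm : 0 < m := Nat.pos_of_mul_pos_left (show 0 < (L : ℕ) * m by omega)
    have hlt : m < (L : ℕ) * m := lt_mul_of_one_lt_left hm L.2.one_lt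
    have hmul : ((latticeGen p L * t : TZ) : Module.End ℤ LZ) f =
        (latticeGen p L : Module.End ℤ LZ) ((t : Module.End ℤ LZ) f) := rfl
    have h := ih m hlt (latticeGen p L * t)
    rw [hmul, hgen] at h
    by_cases hlp : (L : ℕ) ∣ p
    · rw [coeffZ_gen_of_dvd p L hlp, eisensteinSystem_of_dvd (ℓ := L) hlp] at h
      have hLp : (L : ℕ) = p := (Nat.prime_dvd_prime_iff_eq L.2 Fact.out).mp hlp
      simpa [mul_comm m, hLp, sigmaPrime_self_mul] using h
    · rw [coeffZ_gen_of_not_dvd p L hlp, eisensteinSystem_of_not_dvd (ℓ := L) hlp] at h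
      have hs := congrArg (Nat.cast : ℕ → R) (sigmaPrime_hecke p L.2 hlp m)
      rw [mul_comm m (L : ℕ)] at hs
      rw [mul_comm m (L : ℕ)] at h
      by_cases hlm : (L : ℕ) ∣ m
      · have h' := ih (m / (L : ℕ)) ((Nat.div_le_self _ _).trans_lt hlt) t
        rw [if_pos hlm] at h hs
        push_cast at h hs
        linear_combination h - ((L : ℕ) : R) * h' - χ t * hs
      · rw [if_neg hlm] at h hs
        push_cast at h hs
        linear_combination h - χ t * hs

lemma dvd_coeffZ_of_dvd (q : ℤ) (f : LZ)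
    (h : ∀ t : TZ, q ∣ coeffZ p 1 ((t : Module.End ℤ LZ) f)) (n : ℕ) : q ∣ coeffZ p n f := by
  have h' := coeffZ_eq_sigma p f (R := ℤ ⧸ Ideal.span {q}) (fun _ => 0)
    (fun t => by
      rw [← map_intCast (Ideal.Quotient.mk (Ideal.span {q})), Int.cast_id,
        Ideal.Quotient.eq_zero_iff_dvd]
      exact h t)
    (fun _ _ => by simp) n 1
  rw [mul_zero, ← map_intCast (Ideal.Quotient.mk (Ideal.span {q})), Int.cast_id,
    Ideal.Quotient.eq_zero_iff_dvd] at h'
  exact h'

lemma eq_zero_of_coeffZ (f : LZ) (h : ∀ t : TZ, coeffZ p 1 ((t : Module.End ℤ LZ) f) = 0) :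
    f = 0 :=
  Subtype.ext <| cuspForm_ext_qCoeff fun n => by
    rw [coeffZ_spec, zero_dvd_iff.mp (dvd_coeffZ_of_dvd p 0 f (fun t => by rw [h t]) n),
      Int.cast_zero]
    exact (qCoeff_zero_form n).symm

/-- The pairing, as a map to the dual. -/
def heckePairing : LZ →ₗ[ℤ] Module.Dual ℤ TZ :=
  LinearMap.mk₂ ℤ (fun f t => coeffZ p 1 ((t : Module.End ℤ LZ) f))
    (fun f g t => by simp only [map_add])
    (fun c f t => by simp only [map_zsmul])
    (fun f s t => by simp only [AddMemClass.coe_add, LinearMap.add_apply, map_add])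
    (fun c f t => by simp only [SetLike.val_smul, LinearMap.smul_apply, map_zsmul])

lemma heckePairing_apply (f : LZ) (t : TZ) :
    heckePairing p f t = coeffZ p 1 ((t : Module.End ℤ LZ) f) := rfl

lemma heckePairing_injective : Function.Injective (heckePairing p) :=
  (injective_iff_map_eq_zero _).mpr fun f hf =>
    eq_zero_of_coeffZ p f fun t => by rw [← heckePairing_apply, hf]; rfl

lemma heckePairing_flip_injective : Function.Injective (heckePairing p).flip :=
  (injective_iff_map_eq_zero _).mpr fun t ht => by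
    refine Subtype.ext (LinearMap.ext fun f => eq_zero_of_coeffZ p _ fun s => ?_)
    have h : heckePairing p f (s * t) = 0 := by
      rw [mul_comm, show heckePairing p f (t * s)
        = heckePairing p ((s : Module.End ℤ LZ) f) t from rfl]
      exact LinearMap.congr_fun ht _
    exact h

/-- An injective pairing with saturated image is perfect. -/
lemma surjective_of_saturated {A B : Type*} [AddCommGroup A] [AddCommGroup B] [Module.Finite ℤ A]
    [Module.Free ℤ A] [Module.Finite ℤ B] [Module.Free ℤ B] (P : A →ₗ[ℤ] Module.Dual ℤ B)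
    (hP : Function.Injective P) (hP' : Function.Injective P.flip)
    (hsat : ∀ (q : ℕ) (a : A), q.Prime → (∀ b, (q : ℤ) ∣ P a b) → ∃ a', a = (q : ℤ) • a') :
    Function.Surjective P := by
  have eA := (Module.Free.chooseBasis ℤ A).toDualEquiv.finrank_eq
  have eB := (Module.Free.chooseBasis ℤ B).toDualEquiv.finrank_eq
  have h1 := LinearMap.finrank_le_finrank_of_injective hP
  have h2 : Module.finrank ℤ B ≤ Module.finrank ℤ (Module.Dual ℤ A) :=
    LinearMap.finrank_le_finrank_of_injective hP'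
  have hrank : Module.finrank ℤ (LinearMap.range P) = Module.finrank ℤ (Module.Dual ℤ B) := by
    rw [LinearMap.finrank_range_of_inj hP]
    omega
  have := Submodule.finiteQuotientOfFreeOfRankEq _ hrank
  suffices h : ∀ d : ℕ, 0 < d → ∀ φ, (d : ℤ) • φ ∈ LinearMap.range P → φ ∈ LinearMap.range P by
    intro φ
    refine h (Nat.card (Module.Dual ℤ B ⧸ LinearMap.range P)) Nat.card_pos φ ?_
    rw [← Submodule.Quotient.mk_eq_zero, Submodule.Quotient.mk_smul, natCast_zsmul]
    exact card_nsmul_eq_zero'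
  intro d
  induction d using Nat.strong_induction_on with
  | _ d ih =>
    intro hd φ hφ
    rcases eq_or_ne d 1 with rfl | hd1
    · simpa using hφ
    obtain ⟨q, hq, d', rfl⟩ := Nat.exists_prime_and_dvd hd1
    obtain ⟨f, hf⟩ := hφ
    rw [Nat.cast_mul, mul_smul] at hf
    obtain ⟨g, rfl⟩ := hsat q f hq fun b => ⟨_, LinearMap.congr_fun hf b⟩
    rw [map_zsmul] at hf
    have hd' : 0 < d' := Nat.pos_of_mul_pos_left hd
    refine ih d' (lt_mul_of_one_lt_left hd' hq.one_lt) hd' φ ⟨g, ?_⟩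
    refine LinearMap.ext fun t => mul_left_cancel₀ (Int.natCast_ne_zero.mpr hq.ne_zero) ?_
    exact LinearMap.congr_fun hf t

lemma coeffZ_saturated (q : ℕ) (f : LZ) (hq : q.Prime)
    (h : ∀ t, (q : ℤ) ∣ heckePairing p f t) : ∃ g : LZ, f = (q : ℤ) • g := by
  have hdvd : ∀ n, (q : ℤ) ∣ coeffZ p n f := dvd_coeffZ_of_dvd p q f h
  have hq0 : (q : ℂ) ≠ 0 := Nat.cast_ne_zero.mpr hq.ne_zero
  have hg : (q : ℂ)⁻¹ • (f : CuspForm (Gamma0 p) 2) ∈ LZ := mem_intLattice_iff.mpr fun n => by
    obtain ⟨a, ha⟩ := hdvd n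
    refine ⟨a, ?_⟩
    rw [qCoeff_smul, coeffZ_spec, ha]
    push_cast
    field_simp
  exact ⟨⟨_, hg⟩, Subtype.ext (by
    rw [SetLike.val_smul, natCast_zsmul, ← Nat.cast_smul_eq_nsmul ℂ, smul_smul,
      mul_inv_cancel₀ hq0, one_smul])⟩

lemma heckePairing_surjective : Function.Surjective (heckePairing p) := by
  have := intLattice.moduleFinite p
  have := intLattice.moduleFree p
  exact surjective_of_saturated _ (heckePairing_injective p) (heckePairing_flip_injective p)
    fun q f hq h => coeffZ_saturated p q f hq h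

lemma exists_lift {B : Type*} [AddCommGroup B] [Module.Free ℤ B] {M : ℕ} [NeZero M]
    (χ : B →+ ZMod M) : ∃ φ : Module.Dual ℤ B, ∀ x, (φ x : ZMod M) = χ x := by
  let b := Module.Free.chooseBasis ℤ B
  refine ⟨b.constr ℤ fun i => ((χ (b i)).val : ℤ), fun x => ?_⟩
  have h : ((Int.castAddHom (ZMod M)).comp
      (b.constr ℤ fun i => ((χ (b i)).val : ℤ)).toAddMonoidHom).toIntLinearMap
        = χ.toIntLinearMap := b.ext fun i => by simp
  exact LinearMap.congr_fun h x

/-- An Eisenstein character gives a cusp form congruent to the Eisenstein series. -/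
theorem exists_form_of_eisenstein {M : ℕ} [NeZero M] (χ : TZ →+* ZMod M)
    (hχ : ∀ l, χ (latticeGen p l) = (eisensteinSystem p l : ZMod M)) :
    ∃ f : LZ, ∀ n, (coeffZ p n f : ZMod M) = (sigmaPrime p n : ZMod M) := by
  obtain ⟨φ, hφ⟩ := exists_lift χ.toAddMonoidHom
  obtain ⟨f, hf⟩ := heckePairing_surjective p φ
  have h1 : ∀ t : TZ, (coeffZ p 1 ((t : Module.End ℤ LZ) f) : ZMod M) = χ t := fun t => by
    rw [← heckePairing_apply, hf]
    exact hφ t
  refine ⟨f, fun n => ?_⟩
  have h := coeffZ_eq_sigma p f (fun t => χ t) h1 (fun l t => by simp only [map_mul, hχ]) n 1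
  simpa using h

end Fermat.Agent.Eisenstein
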