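import Fermat.Agent.Eisenstein.Eis
import Fermat.Agent.Period.Primitive
import Fermat.Agent.MCurve.JFun

/-!
# The primitive of the Eisenstein series and its integral periods

Main results: `eisPrim`, `isPrim_eisPrim`, `eisPrim_add_one`, `exp_eisPrim`, `eisPrim_fricke`,
`eisPeriod`, `eisPeriod_T`.
-/

set_option autoImplicit false

noncomputable section

namespace Fermat.Agent.Eisenstein

open UpperHalfPlane CongruenceSubgroup ModularGroup ModularForm Fermat.Agent.Period
  Fermat.Agent.MCurve EisensteinSeries Filter Topology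
open scoped MatrixGroups ModularForm Manifold Real

local notation "Δ" => ModularForm.discriminant
local notation "𝕢" => Function.Periodic.qParam

lemma IsPrim.comp_GL {G f : ℍ → ℂ} (hG : IsPrim G f) {g : GL (Fin 2) ℝ}
    (hg : 0 < g.val.det) : IsPrim (fun τ => G (g • τ)) (f ∣[(2 : ℤ)] g) := by
  intro τ
  have h1 := (hasStrictDerivAt_smul hg τ).hasDerivAt
  have h2 := hG (g • τ)
  have hpt : ((g • τ : ℍ) : ℂ) = ↑(g • ofComplex (τ : ℂ)) := by rw [ofComplex_apply]
  rw [hpt] at h2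
  have h3 := h2.comp (τ : ℂ) h1
  have heq : (G ∘ ofComplex) ∘ (fun z : ℂ => (↑(g • ofComplex z) : ℂ))
      = (fun τ => G (g • τ)) ∘ ofComplex := by
    funext z
    simp only [Function.comp_apply, ofComplex_apply]
  rw [heq] at h3
  refine h3.congr_deriv ?_
  rw [ModularForm.slash_apply, UpperHalfPlane.σ, Matrix.GeneralLinearGroup.val_det_apply,
    if_pos hg, abs_of_pos hg]
  simp [zpow_neg, div_eq_mul_inv, zpow_ofNat, mul_assoc]

/-- A one-periodic function vanishing at infinity has a one-periodic primitive vanishing at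
infinity. -/
lemma exists_periodic_primitive {g : ℍ → ℂ} (hper : Function.Periodic (g ∘ ofComplex) (1 : ℂ))
    (hhol : MDifferentiable 𝓘(ℂ) 𝓘(ℂ) g) (hz : IsZeroAtImInfty g) :
    ∃ G : ℍ → ℂ, IsPrim G g ∧ Tendsto G atImInfty (𝓝 0) ∧ ∀ z : ℍ, G ((1 : ℝ) +ᵥ z) = G z := by
  have hper' : Function.Periodic (g ∘ ofComplex) ((1 : ℝ) : ℂ) := by exact_mod_cast hper
  have hdiff : DifferentiableOn ℂ (cuspFunction 1 g) (Metric.ball 0 1) :=
    differentiableOn_cuspFunction_ball one_pos hper' hhol hz.isBoundedAtImInfty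
  have h0 : cuspFunction 1 g 0 = 0 :=
    UpperHalfPlane.IsZeroAtImInfty.cuspFunction_apply_zero hz one_pos
  have hball : Metric.ball (0 : ℂ) 1 ∈ 𝓝 (0 : ℂ) := Metric.ball_mem_nhds 0 one_pos
  obtain ⟨H, hH0, hH⟩ := (((Complex.differentiableOn_dslope hball).mpr hdiff).isExactOn_ball
    ).with_val_at 0 0
  refine ⟨fun τ => 1 / (2 * π * Complex.I) * H (𝕢 1 (τ : ℂ)), fun τ => ?_, ?_, fun z => ?_⟩
  · have hq : 𝕢 1 (τ : ℂ) ∈ Metric.ball (0 : ℂ) 1 := by
      rw [mem_ball_zero_iff]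
      exact Function.Periodic.norm_qParam_lt_one one_pos τ.im_pos
    have hqd : HasDerivAt (𝕢 1) (𝕢 1 (τ : ℂ) * (2 * π * Complex.I)) (τ : ℂ) := by
      rw [show 𝕢 1 = fun x : ℂ => Complex.exp (2 * π * Complex.I * x) from
        funext fun x => by simp [Function.Periodic.qParam]]
      simpa using! ((hasDerivAt_id (τ : ℂ)).const_mul (2 * π * Complex.I)).cexp
    have hc := ((hH _ hq).comp (τ : ℂ) hqd).const_mul (1 / (2 * π * Complex.I))
    have hev : ((fun τ : ℍ => 1 / (2 * π * Complex.I) * H (𝕢 1 (τ : ℂ))) ∘ ofComplex)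
        =ᶠ[𝓝 (τ : ℂ)] fun z => 1 / (2 * π * Complex.I) * H (𝕢 1 z) := by
      filter_upwards [isOpen_upperHalfPlaneSet.mem_nhds τ.im_pos] with z hz
      simp [Function.comp_apply, ofComplex_apply_of_im_pos hz]
    refine (hc.congr_of_eventuallyEq hev).congr_deriv ?_
    have hgv : cuspFunction 1 g (𝕢 1 (τ : ℂ)) = g τ := eq_cuspFunction τ one_ne_zero hper'
    have hq0 : 𝕢 1 (τ : ℂ) ≠ 0 := Function.Periodic.qParam_ne_zero _
    rw [dslope_of_ne _ hq0, slope_def_field, h0, hgv]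
    have := Complex.two_pi_I_ne_zero
    field_simp
    ring
  · have hHc : ContinuousAt H 0 := (hH 0 (Metric.mem_ball_self one_pos)).continuousAt
    have h1 : Tendsto (fun τ : ℍ => H (𝕢 1 (τ : ℂ))) atImInfty (𝓝 0) := by
      have := hHc.tendsto.comp (qParam_tendsto_atImInfty one_pos)
      rwa [hH0] at this
    simpa using h1.const_mul (1 / (2 * π * Complex.I))
  · show 1 / (2 * π * Complex.I) * H (𝕢 1 (((1 : ℝ) +ᵥ z : ℍ) : ℂ))
      = 1 / (2 * π * Complex.I) * H (𝕢 1 (z : ℂ))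
    simp only [UpperHalfPlane.coe_vadd, Function.Periodic.qParam, Complex.ofReal_one, div_one,
      mul_add, Complex.exp_add, mul_one, Complex.exp_two_pi_mul_I, one_mul]

lemma tendsto_of_qexp {h : ℝ} {f : ℍ → ℂ} {s : PowerSeries ℂ} (hh : 0 < h)
    (hper : Function.Periodic (f ∘ ofComplex) h) (hhol : MDifferentiable 𝓘(ℂ) 𝓘(ℂ) f)
    (hbdd : IsBoundedAtImInfty f) (hs : QExp h f s) : Tendsto f atImInfty (𝓝 (s.coeff 0)) := by
  have han := analyticAt_cuspFunction_zero hh hper hhol hbdd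
  have hc : cuspFunction h f 0 = s.coeff 0 := by
    rw [← (qexp_of_periodic hh hper hhol hbdd).unique hh hs, qExpansion_coeff_zero hh han hper]
    have h1 : Tendsto f atImInfty (𝓝 (cuspFunction h f 0)) :=
      (han.continuousAt.tendsto.comp (qParam_tendsto_atImInfty hh)).congr fun τ =>
        eq_cuspFunction τ hh.ne' hper
    exact (Filter.Tendsto.limUnder_eq h1).symm
  rw [← hc]
  exact (han.continuousAt.tendsto.comp (qParam_tendsto_atImInfty hh)).congr fun τ =>
    eq_cuspFunction τ hh.ne' hper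

variable (p : ℕ) [Fact p.Prime]

/-- The Eisenstein series without its constant term. -/
def eisTail : ℍ → ℂ := eisFun p - fun _ => ((p : ℂ) - 1)

lemma eisTail_props : Function.Periodic (eisTail p ∘ ofComplex) (1 : ℂ) ∧
    MDifferentiable 𝓘(ℂ) 𝓘(ℂ) (eisTail p) ∧ IsZeroAtImInfty (eisTail p) := by
  have hper := modFun_periodic (eisFun_mem p)
  refine ⟨fun z => ?_, (eisFun_mem p).1.sub mdifferentiable_const, ?_⟩
  · have := hper z
    simp only [eisTail, Function.comp_apply, Pi.sub_apply] at this ⊢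
    rw [this]
  · have h := tendsto_of_qexp one_pos (by exact_mod_cast hper) (eisFun_mem p).1
      (modFun_bdd (eisFun_mem p)) (qexp_eisFun p)
    have h2 := h.sub_const ((p : ℂ) - 1)
    simp [eisSeries] at h2
    exact h2

/-- The periodic part of the primitive. -/
def eisPrimTail : ℍ → ℂ :=
  (exists_periodic_primitive (eisTail_props p).1 (eisTail_props p).2.1 (eisTail_props p).2.2).choose

lemma eisPrimTail_spec : IsPrim (eisPrimTail p) (eisTail p) ∧
    Tendsto (eisPrimTail p) atImInfty (𝓝 0) ∧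
    ∀ z : ℍ, eisPrimTail p ((1 : ℝ) +ᵥ z) = eisPrimTail p z :=
  (exists_periodic_primitive (eisTail_props p).1 (eisTail_props p).2.1
    (eisTail_props p).2.2).choose_spec

/-- The primitive of the Eisenstein series. -/
def eisPrim (z : ℍ) : ℂ := eisPrimTail p z + ((p : ℂ) - 1) * z

lemma isPrim_eisPrim : IsPrim (eisPrim p) (eisFun p) := by
  intro τ
  have h1 := ((eisPrimTail_spec p).1 τ).add ((hasDerivAt_id (τ : ℂ)).const_mul ((p : ℂ) - 1))
  have hev : (eisPrim p ∘ ofComplex) =ᶠ[𝓝 (τ : ℂ)]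
      (eisPrimTail p ∘ ofComplex + fun z : ℂ => ((p : ℂ) - 1) * id z) := by
    filter_upwards [isOpen_upperHalfPlaneSet.mem_nhds τ.im_pos] with z hz
    simp [eisPrim, ofComplex_apply_of_im_pos hz]
  refine (h1.congr_of_eventuallyEq hev).congr_deriv ?_
  simp [eisTail]

lemma eisPrim_add_one (z : ℍ) : eisPrim p ((1 : ℝ) +ᵥ z) = eisPrim p z + ((p : ℂ) - 1) := by
  simp only [eisPrim, (eisPrimTail_spec p).2.2 z, UpperHalfPlane.coe_vadd, Complex.ofReal_one]
  ring

lemma hasDerivAt_discriminant (z : ℍ) :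
    HasDerivAt (Δ ∘ ofComplex) (2 * π * Complex.I * (E2 z * Δ z)) (z : ℂ) := by
  have h4 := hasDerivAt_of_D (ModularFormClass.holo E₄) z
  have h6 := hasDerivAt_of_D (ModularFormClass.holo E₆) z
  have heq : Δ ∘ ofComplex = fun w : ℂ =>
      (((E₄ : ℍ → ℂ) ∘ ofComplex) w ^ 3 - ((E₆ : ℍ → ℂ) ∘ ofComplex) w ^ 2) / 1728 := by
    funext w
    simp only [Function.comp_apply, E4_cube_sub_E6_sq]
    ring
  rw [heq]
  refine (((h4.pow 3).sub (h6.pow 2)).div_const 1728).congr_deriv ?_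
  simp only [Pi.pow_apply, Function.comp_apply, ofComplex_apply, D_E4, D_E6]
  push_cast
  linear_combination (2 * π * Complex.I * E2 z / 1728) * E4_cube_sub_E6_sq z

/-- The modular unit `Δ(p z) / Δ(z)`. -/
def unitFun (z : ℍ) : ℂ := Δ (scaleGL p • z) / Δ z

lemma unitFun_ne_zero (z : ℍ) : unitFun p z ≠ 0 :=
  div_ne_zero (discriminant_ne_zero _) (discriminant_ne_zero _)

lemma unitFun_smul {γ : SL(2, ℤ)} (hγ : γ ∈ Gamma0 p) (z : ℍ) :
    unitFun p (γ • z) = unitFun p z := by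
  have h1 : (Δ ∣[(12 : ℤ)] scaleGL p) ∣[(12 : ℤ)] γ = Δ ∣[(12 : ℤ)] scaleGL p :=
    modFun.slash_eq (slash_scaleGL_mem (N := p) Δ_mem) hγ
  have h2 : Δ ∣[(12 : ℤ)] γ = Δ := lev.slash_eq Δ_mem γ
  have e1 := congrFun h1 z
  have e2 := congrFun h2 z
  rw [ModularForm.SL_slash_apply, scaleGL_eq, slash_heckeDiagMatrix_apply 12 (NeZero.ne p),
    slash_heckeDiagMatrix_apply 12 (NeZero.ne p)] at e1
  rw [ModularForm.SL_slash_apply] at e2
  have hp : (p : ℂ) ≠ 0 := Nat.cast_ne_zero.mpr (NeZero.ne p)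
  rw [unitFun, unitFun, scaleGL_eq, ← e2]
  have hz : denom γ z ^ (-(12 : ℤ)) ≠ 0 := zpow_ne_zero _ (denom_ne_zero _ _)
  have hp' : (p : ℂ) ^ ((12 : ℤ) - 1) ≠ 0 := zpow_ne_zero _ hp
  have e1' : Δ (heckeDiagMatrix p • γ • z) * denom γ z ^ (-(12 : ℤ))
      = Δ (heckeDiagMatrix p • z) := by
    refine mul_left_cancel₀ hp' ?_
    rw [← mul_assoc]
    exact e1
  rw [← e1', mul_div_mul_right _ _ hz]

lemma exists_exp_eisPrim :
    ∃ K : ℂ, K ≠ 0 ∧ ∀ z : ℍ, Complex.exp (2 * π * Complex.I * eisPrim p z) = K * unitFun p z := by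
  set F : ℍ → ℂ := fun z =>
    Complex.exp (2 * π * Complex.I * eisPrim p z) * Δ z / Δ (scaleGL p • z) with hF
  have hd : ∀ z : ℍ, HasDerivAt (F ∘ ofComplex) 0 (z : ℂ) := by
    intro z
    have h1 := ((isPrim_eisPrim p z).const_mul (2 * π * Complex.I)).cexp
    have h2 := hasDerivAt_discriminant z
    have h3 : HasDerivAt (fun w => (Δ ∘ ofComplex) ((p : ℂ) * w))
        ((p : ℂ) * (2 * π * Complex.I * (E2 (scaleGL p • z) * Δ (scaleGL p • z)))) (z : ℂ) := by
      have hpt : (p : ℂ) * z = ((scaleGL p • z : ℍ) : ℂ) := (coe_scaleGL_smul z).symm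
      have h := hasDerivAt_discriminant (scaleGL p • z)
      rw [← hpt] at h
      have := h.comp (z : ℂ) ((hasDerivAt_id (z : ℂ)).const_mul (p : ℂ))
      simpa [Function.comp_def, mul_comm] using this
    have hev : (F ∘ ofComplex) =ᶠ[𝓝 (z : ℂ)] fun w =>
        Complex.exp (2 * π * Complex.I * (eisPrim p ∘ ofComplex) w) * (Δ ∘ ofComplex) w
          / (Δ ∘ ofComplex) ((p : ℂ) * w) := by
      filter_upwards [isOpen_upperHalfPlaneSet.mem_nhds z.im_pos] with w hw
      have hpw : 0 < ((p : ℂ) * w).im := by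
        simpa using mul_pos (Nat.cast_pos.mpr (Fact.out : p.Prime).pos) (show (0 : ℝ) < w.im from hw)
      simp only [Function.comp_apply, hF, ofComplex_apply_of_im_pos hw,
        ofComplex_apply_of_im_pos hpw]
      congr 2
      apply UpperHalfPlane.ext
      rw [coe_scaleGL_smul]
    have hden : (Δ ∘ ofComplex) ((p : ℂ) * z) ≠ 0 := by
      simpa using discriminant_ne_zero _
    refine (((h1.mul h2).div h3 hden).congr_of_eventuallyEq hev).congr_deriv ?_
    have hpt : (Δ ∘ ofComplex) ((p : ℂ) * z) = Δ (scaleGL p • z) := by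
      rw [← coe_scaleGL_smul, Function.comp_apply, ofComplex_apply]
    simp only [Function.comp_apply, ofComplex_apply, Pi.mul_apply] at hpt ⊢
    rw [hpt, eisFun_apply]
    ring_nf
  obtain ⟨K, hK⟩ := isOpen_upperHalfPlaneSet.exists_is_const_of_deriv_eq_zero
    (convex_halfSpace_im_gt 0).isPreconnected
    (fun z hz => (hd ⟨z, hz⟩).differentiableAt.differentiableWithinAt)
    (fun z hz => (hd ⟨z, hz⟩).deriv)
  have hK' : ∀ z : ℍ, F z = K := fun z => by simpa using hK z z.im_pos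
  refine ⟨K, ?_, fun z => ?_⟩
  · rw [← hK' I, hF]
    exact div_ne_zero (mul_ne_zero (Complex.exp_ne_zero _) (discriminant_ne_zero _))
      (discriminant_ne_zero _)
  · rw [← hK' z, hF, unitFun]
    field_simp [discriminant_ne_zero]

lemma exists_eisPrim_fricke : ∃ K : ℂ, ∀ z : ℍ, eisPrim p (frickeGL p • z) + eisPrim p z = K := by
  have hg : 0 < (frickeGL p).val.det := by
    rw [← Matrix.GeneralLinearGroup.val_det_apply]; exact det_frickeGL_pos p
  have h1 := IsPrim.comp_GL (isPrim_eisPrim p) hg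
  rw [fricke_eisFun] at h1
  have h0 : IsPrim (0 : ℍ → ℂ) (0 : ℍ → ℂ) := fun τ => hasDerivAt_const (τ : ℂ) (0 : ℂ)
  have h2 := IsPrim.add h1 (isPrim_eisPrim p)
  rw [neg_add_cancel] at h2
  obtain ⟨K, hK⟩ := h2.eq_add_const h0
  exact ⟨K, fun z => by simpa using hK z⟩

theorem eisPrim_equivariant : ModularCurve.Period.IsEquivariantPrimitive (Gamma0 p) (eisPrim p) := by
  intro γ
  have h1 := (isPrim_eisPrim p).comp_smul (γ : SL(2, ℤ))
  rw [eisFun_slash_Gamma0 p γ.2] at h1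
  obtain ⟨c, hc⟩ := h1.eq_add_const (isPrim_eisPrim p)
  exact ⟨c, fun z => by rw [hc z]; ring⟩

/-- The Eisenstein periods. -/
def eisPeriod : Additive (Gamma0 p) →+ ℂ := (eisPrim_equivariant p).periodHom

lemma eisPeriod_apply (γ : Gamma0 p) (z : ℍ) :
    eisPeriod p (Additive.ofMul γ) = eisPrim p ((γ : SL(2, ℤ)) • z) - eisPrim p z :=
  ((eisPrim_equivariant p).sub_eq_period γ z).symm

theorem eisPeriod_int (γ : Gamma0 p) : ∃ m : ℤ, eisPeriod p (Additive.ofMul γ) = m := by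
  obtain ⟨K, hK0, hK⟩ := exists_exp_eisPrim p
  have h : Complex.exp (2 * π * Complex.I * eisPeriod p (Additive.ofMul γ)) = 1 := by
    rw [eisPeriod_apply p γ I, mul_sub, Complex.exp_sub, hK, hK, unitFun_smul p γ.2,
      div_self (mul_ne_zero hK0 (unitFun_ne_zero p I))]
  obtain ⟨m, hm⟩ := Complex.exp_eq_one_iff.mp h
  refine ⟨m, mul_left_cancel₀ Complex.two_pi_I_ne_zero ?_⟩
  rw [hm]
  ring

/-- `T` as an element of `Γ₀(p)`. -/
def tGamma : Gamma0 p := ⟨T, by simp [Gamma0_mem, coe_T]⟩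

theorem eisPeriod_T : eisPeriod p (Additive.ofMul (tGamma p)) = (p : ℂ) - 1 := by
  rw [eisPeriod_apply p _ I, show ((tGamma p : Gamma0 p) : SL(2, ℤ)) • I = (1 : ℝ) +ᵥ I from
    modular_T_smul I, eisPrim_add_one]
  ring

end Fermat.Agent.Eisenstein
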