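import Fermat.Agent.Eisenstein.DeltaSeries
import Fermat.Agent.Hecke.ComplexAut
import Mathlib.Algebra.Ring.GeomSum
import Mathlib.NumberTheory.Padics.PadicVal.Basic

/-!
# A root of the modular unit forces the exponent to divide twelve

Main result: `dvd_twelve_of_dvd_periods`: if `M ∣ p - 1` and all Eisenstein periods are divisible
by `M`, then `M ∣ 12`.
-/

set_option autoImplicit false

noncomputable section

namespace Fermat.Agent.Eisenstein

open UpperHalfPlane CongruenceSubgroup ModularGroup ModularForm Fermat.Agent.Period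
  Fermat.Agent.MCurve Filter Topology
open scoped MatrixGroups ModularForm Manifold Real

local notation "Δ" => ModularForm.discriminant
local notation "𝕢" => Function.Periodic.qParam

lemma rational_of_map_eq {s : PowerSeries ℂ} (h : ∀ σ : ℂ ≃+* ℂ, s.map σ.toRingHom = s) (n : ℕ) :
    ∃ r : ℚ, (r : ℂ) = s.coeff n :=
  Fermat.Agent.Hecke.exists_rat_of_fixed fun σ => by
    have := congrArg (PowerSeries.coeff n) (h σ)
    simpa using this

lemma powerSeries_root_unique {M : ℕ} (hM : M ≠ 0) {a b : PowerSeries ℂ}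
    (ha : PowerSeries.constantCoeff a = 1) (hb : PowerSeries.constantCoeff b = 1)
    (h : a ^ M = b ^ M) : a = b := by
  have h1 := geom_sum₂_mul a b M
  rw [h, sub_self, mul_eq_zero] at h1
  rcases h1 with h1 | h1
  · have := congrArg PowerSeries.constantCoeff h1
    simp [map_sum, ha, hb] at this
    exact absurd this hM
  · exact sub_eq_zero.mp h1

variable (p : ℕ) [Fact p.Prime]

/-- `exp (c * periodic part of the primitive)`. -/
def tailExp (c : ℂ) (z : ℍ) : ℂ := Complex.exp (c * eisPrimTail p z)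

lemma tailExp_props (c : ℂ) : Function.Periodic (tailExp p c ∘ ofComplex) (1 : ℂ) ∧
    MDifferentiable 𝓘(ℂ) 𝓘(ℂ) (tailExp p c) ∧ Tendsto (tailExp p c) atImInfty (𝓝 1) := by
  obtain ⟨hprim, htend, hper⟩ := eisPrimTail_spec p
  refine ⟨fun w => ?_, ?_, ?_⟩
  · by_cases hw : 0 < w.im
    · have hw' : 0 < (w + 1).im := by simpa using hw
      have hpt : (⟨w + 1, hw'⟩ : ℍ) = (1 : ℝ) +ᵥ (⟨w, hw⟩ : ℍ) :=
        UpperHalfPlane.ext (by simp [UpperHalfPlane.coe_vadd, add_comm])
      simp only [Function.comp_apply, ofComplex_apply_of_im_pos hw',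
        ofComplex_apply_of_im_pos hw, tailExp, hpt, hper]
    · have hw' : (w + 1).im ≤ 0 := by simpa using hw
      simp only [Function.comp_apply]
      rw [ofComplex_apply_eq_of_im_nonpos hw' (le_of_not_gt hw)]
  · rw [UpperHalfPlane.mdifferentiable_iff]
    intro z hz
    exact (((hprim ⟨z, hz⟩).const_mul c).cexp).differentiableAt.differentiableWithinAt
  · have h : Tendsto (fun z => Complex.exp (c * eisPrimTail p z)) atImInfty
        (𝓝 (Complex.exp (c * 0))) := (Complex.continuous_exp.tendsto _).comp (htend.const_mul c)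
    simpa [tailExp] using! h

/-- The series of `tailExp`. -/
def tailSeries (c : ℂ) : PowerSeries ℂ := qExpansion 1 (tailExp p c)

lemma qexp_tailExp (c : ℂ) : QExp 1 (tailExp p c) (tailSeries p c) :=
  qexp_of_periodic one_pos (by exact_mod_cast (tailExp_props p c).1) (tailExp_props p c).2.1
    ((tailExp_props p c).2.2.isBigO_one ℝ)

lemma constantCoeff_tailSeries (c : ℂ) : PowerSeries.constantCoeff (tailSeries p c) = 1 := by
  obtain ⟨h1, h2, h3⟩ := tailExp_props p c
  rw [← PowerSeries.coeff_zero_eq_constantCoeff_apply]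
  exact tendsto_nhds_unique
    (tendsto_of_qexp one_pos (by exact_mod_cast h1) h2 (h3.isBigO_one ℝ) (qexp_tailExp p c)) h3

lemma tailSeries_add (c d : ℂ) : tailSeries p c * tailSeries p d = tailSeries p (c + d) :=
  (((qexp_tailExp p c).mul (qexp_tailExp p d)).congr fun z => by
    simp [tailExp, ← Complex.exp_add, add_mul]).unique one_pos (qexp_tailExp p (c + d))

lemma tailSeries_zero : tailSeries p 0 = 1 :=
  (qexp_tailExp p 0).unique one_pos (QExp.one.congr fun z => by simp [tailExp])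

lemma tailSeries_pow (c : ℂ) (M : ℕ) : tailSeries p c ^ M = tailSeries p (M * c) := by
  induction M with
  | zero => simp [tailSeries_zero]
  | succ n ih => rw [pow_succ, ih, tailSeries_add]; push_cast; ring_nf

lemma exp_eisPrim_tail (c : ℂ) (z : ℍ) :
    tailExp p c z * Complex.exp (((p : ℂ) - 1) * (c * z)) = Complex.exp (c * eisPrim p z) := by
  rw [tailExp, ← Complex.exp_add, eisPrim]
  congr 1
  ring

lemma qParam_pow_eq (n : ℕ) (z : ℂ) : 𝕢 1 z ^ n = Complex.exp ((n : ℂ) * (2 * π * Complex.I * z)) := by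
  simp [Function.Periodic.qParam, ← Complex.exp_nat_mul]

/-- The exponential of the Eisenstein primitive is the modular unit. -/
theorem exp_eisPrim_eq (z : ℍ) :
    Complex.exp (2 * π * Complex.I * eisPrim p z) = unitFun p z := by
  obtain ⟨K, -, hK⟩ := exists_exp_eisPrim p
  have hp := (Fact.out : p.Prime)
  set c : ℂ := 2 * π * Complex.I
  have h1 : QExp 1 (fun z : ℍ => Δ (scaleGL p • z))
      (PowerSeries.expand p (NeZero.ne p) (toC deltaSer)) := qexp_scale p qexp_discriminant
  have h2 : QExp 1 (fun z => K * Δ (scaleGL p • z))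
      (PowerSeries.X ^ p * (tailSeries p c * toC etaPow)) := by
    have h := (((qexp_tailExp p c).mul (QExp.qParam_pow (p - 1))).mul qexp_discriminant).congr
      (g := fun z => K * Δ (scaleGL p • z)) fun z => by
        simp only [Pi.mul_apply, qParam_pow_eq]
        rw [show ((p - 1 : ℕ) : ℂ) * (2 * π * Complex.I * z) = ((p : ℂ) - 1) * (c * z) by
          rw [Nat.cast_sub hp.one_le, Nat.cast_one], exp_eisPrim_tail, hK, unitFun]
        field_simp [discriminant_ne_zero]
    convert h using 1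
    rw [deltaSer, map_mul, show toC PowerSeries.X = PowerSeries.X by simp]
    conv_lhs => rw [show PowerSeries.X ^ p = PowerSeries.X ^ (p - 1) * (PowerSeries.X : PowerSeries ℂ)
      by rw [← pow_succ, Nat.sub_add_cancel hp.one_le]]
    ring
  have h3 := congrArg (PowerSeries.coeff p) (h2.unique one_pos (h1.const_mul K))
  have h4 : (PowerSeries.expand p (NeZero.ne p) (toC deltaSer)).coeff p = 1 := by
    have := PowerSeries.coeff_expand_mul p (NeZero.ne p) (toC deltaSer) 1
    rw [mul_one] at this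
    rw [this]
    simp [coeff_deltaSer_one]
  rw [PowerSeries.coeff_C_mul, h4, mul_one, PowerSeries.coeff_X_pow_mul', if_pos le_rfl,
    Nat.sub_self, PowerSeries.coeff_zero_eq_constantCoeff_apply, map_mul, constantCoeff_tailSeries,
    one_mul, ← PowerSeries.coeff_zero_eq_constantCoeff_apply, PowerSeries.coeff_map,
    PowerSeries.coeff_zero_eq_constantCoeff_apply, constantCoeff_etaPow, map_one] at h3
  rw [hK, ← h3, one_mul]

lemma tailSeries_two_pi :
    tailSeries p (2 * π * Complex.I) * PowerSeries.X ^ (p - 1) * toC deltaSer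
      = PowerSeries.expand p (NeZero.ne p) (toC deltaSer) := by
  refine ((((qexp_tailExp p _).mul (QExp.qParam_pow (p - 1))).mul qexp_discriminant).congr
    fun z => ?_).unique one_pos (qexp_scale p qexp_discriminant)
  simp only [Pi.mul_apply, qParam_pow_eq]
  rw [show ((p - 1 : ℕ) : ℂ) * (2 * π * Complex.I * z)
      = ((p : ℂ) - 1) * (2 * π * Complex.I * z) by
    rw [Nat.cast_sub (Fact.out : p.Prime).one_le, Nat.cast_one], exp_eisPrim_tail, exp_eisPrim_eq,
    unitFun]
  field_simp [discriminant_ne_zero]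

lemma map_toC (σ : ℂ ≃+* ℂ) (s : PowerSeries ℤ) : (toC s).map σ.toRingHom = toC s := by
  ext n; simp

lemma tailSeries_rational {M : ℕ} (hM : M ≠ 0) (σ : ℂ ≃+* ℂ) :
    (tailSeries p (2 * π * Complex.I / M)).map σ.toRingHom
      = tailSeries p (2 * π * Complex.I / M) := by
  have hpow : tailSeries p (2 * π * Complex.I / M) ^ M = tailSeries p (2 * π * Complex.I) := by
    rw [tailSeries_pow, mul_div_cancel₀ _ (Nat.cast_ne_zero.mpr hM)]
  refine powerSeries_root_unique hM ?_ (constantCoeff_tailSeries p _) ?_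
  · rw [← PowerSeries.coeff_zero_eq_constantCoeff_apply, PowerSeries.coeff_map,
      PowerSeries.coeff_zero_eq_constantCoeff_apply, constantCoeff_tailSeries, map_one]
  · rw [← map_pow, hpow]
    have hne : PowerSeries.X ^ (p - 1) * toC deltaSer ≠ 0 := by
      refine mul_ne_zero (pow_ne_zero _ PowerSeries.X_ne_zero) fun h => ?_
      have := congrArg (PowerSeries.coeff 1) h
      simp [coeff_deltaSer_one] at this
    refine mul_right_cancel₀ hne ?_
    have h := congrArg (PowerSeries.map σ.toRingHom) (tailSeries_two_pi p)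
    rw [PowerSeries.map_expand, map_toC, map_mul, map_mul, map_toC, map_pow,
      PowerSeries.map_X] at h
    rw [← mul_assoc, ← mul_assoc, h, tailSeries_two_pi]

lemma tailSeries_neg_rational {M : ℕ} (hM : M ≠ 0) (σ : ℂ ≃+* ℂ) :
    (tailSeries p (-(2 * π * Complex.I / M))).map σ.toRingHom
      = tailSeries p (-(2 * π * Complex.I / M)) := by
  set c := 2 * π * Complex.I / (M : ℂ)
  have h : tailSeries p (-c) * tailSeries p c = 1 := by
    rw [tailSeries_add, neg_add_cancel, tailSeries_zero]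
  have h' := congrArg (PowerSeries.map σ.toRingHom) h
  rw [map_mul, map_one, tailSeries_rational p hM σ] at h'
  exact mul_right_cancel₀ (right_ne_zero_of_mul_eq_one h) (h'.trans h.symm)

lemma discriminant_S_smul (w : ℍ) : Δ ((S : SL(2, ℤ)) • w) = (w : ℂ) ^ 12 * Δ w := by
  have h := congrFun (lev.slash_eq Δ_mem S) w
  rw [ModularForm.SL_slash_apply, ModularGroup.denom_S, zpow_neg, zpow_ofNat] at h
  rw [← h]
  field_simp [w.ne_zero]

lemma frickeGL_smul_eq (z : ℍ) : frickeGL p • z = (S : SL(2, ℤ)) • (scaleGL p • z) := by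
  rw [frickeGL, mul_smul]; rfl

lemma unitFun_fricke (z : ℍ) :
    unitFun p (frickeGL p • z) * unitFun p z = ((p : ℂ) ^ 12)⁻¹ := by
  have hsq : scaleGL p • (frickeGL p • z) = (S : SL(2, ℤ)) • z := by
    apply UpperHalfPlane.ext
    rw [coe_scaleGL_smul, coe_frickeGL_smul, modular_S_smul]
    have hpne : (p : ℂ) ≠ 0 := Nat.cast_ne_zero.mpr (NeZero.ne p)
    simp
    field_simp
  rw [unitFun, unitFun, hsq, frickeGL_smul_eq, discriminant_S_smul, discriminant_S_smul,
    coe_scaleGL_smul, mul_pow]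
  have hpne : (p : ℂ) ≠ 0 := Nat.cast_ne_zero.mpr (NeZero.ne p)
  field_simp [discriminant_ne_zero, z.ne_zero]

lemma irrational_of_pow_eq {C : ℂ} {M : ℕ} (h12 : ¬ M ∣ 12) (hM : M ≠ 0)
    (hCM : C ^ M = ((p : ℂ) ^ 12)⁻¹) (r : ℚ) : (r : ℂ) ≠ C := by
  intro hr
  rw [← hr] at hCM
  have hq : r ^ M = ((p : ℚ) ^ 12)⁻¹ :=
    Rat.cast_injective (α := ℂ) (by push_cast; exact hCM)
  have hr0 : r ≠ 0 := by
    rintro rfl
    rw [zero_pow hM] at hq
    exact inv_ne_zero (pow_ne_zero _ (Nat.cast_ne_zero.mpr (NeZero.ne p))) hq.symm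
  have hval := congrArg (padicValRat p) hq
  rw [padicValRat.pow (p := p) r, padicValRat.inv, padicValRat.pow (p := p) (p : ℚ),
    padicValRat.self (Fact.out : p.Prime).one_lt] at hval
  apply h12
  have : (M : ℤ) ∣ (12 : ℤ) := ⟨-padicValRat p r, by push_cast at hval ⊢; linarith⟩
  exact_mod_cast this

/-- The candidate form of weight twelve. -/
def rootForm (c : ℂ) (z : ℍ) : ℂ := Complex.exp (c * eisPrim p z) * Δ z

lemma exp_eq_tail_mul_qParam {e M : ℕ} (heM : e * M = p - 1) (hM : M ≠ 0) (z : ℍ) :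
    Complex.exp (2 * π * Complex.I / M * eisPrim p z)
      = tailExp p (2 * π * Complex.I / M) z * 𝕢 1 (z : ℂ) ^ e := by
  rw [← exp_eisPrim_tail, qParam_pow_eq]
  congr 2
  rw [show (p : ℂ) - 1 = ((e * M : ℕ) : ℂ) by
    rw [heM, Nat.cast_sub (Fact.out : p.Prime).one_le]; simp]
  push_cast
  field_simp

lemma qexp_rootForm {e M : ℕ} (heM : e * M = p - 1) (hM : M ≠ 0) :
    QExp 1 (rootForm p (2 * π * Complex.I / M))
      (PowerSeries.X ^ e * tailSeries p (2 * π * Complex.I / M) * toC deltaSer) :=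
  (((QExp.qParam_pow e).mul (qexp_tailExp p _)).mul qexp_discriminant).congr fun z => by
    simp only [Pi.mul_apply, rootForm, exp_eq_tail_mul_qParam p heM hM]; ring

lemma rootForm_fricke {e M : ℕ} (heM : e * M = p - 1) (hM : M ≠ 0) (hep : e ≤ p) {K : ℂ}
    (hK : ∀ z : ℍ, eisPrim p (frickeGL p • z) + eisPrim p z = K) :
    QExp 1 (rootForm p (2 * π * Complex.I / M) ∣[(12 : ℤ)] frickeGL p)
      (PowerSeries.C ((p : ℂ) ^ (11 : ℤ) * Complex.exp (2 * π * Complex.I / M * K)) *
        (tailSeries p (-(2 * π * Complex.I / M)) * PowerSeries.X ^ (p - e) *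
          PowerSeries.expand p (NeZero.ne p) (toC etaPow))) := by
  set c : ℂ := 2 * π * Complex.I / M with hc
  have h1 := ((qexp_tailExp p (-c)).mul (QExp.qParam_pow (p - e))).mul (qexp_scale p qexp_etaPow)
  refine (h1.const_mul _).congr fun z => ?_
  have hp0 : (p : ℂ) ≠ 0 := Nat.cast_ne_zero.mpr (NeZero.ne p)
  have hz := z.ne_zero
  have hexp : Complex.exp (-(c * eisPrim p z)) * 𝕢 1 ((scaleGL p • z : ℍ) : ℂ)
      = tailExp p (-c) z * 𝕢 1 (z : ℂ) ^ (p - e) := by
    rw [tailExp, qParam_pow_eq, coe_scaleGL_smul, ← pow_one (𝕢 1 ((p : ℂ) * z)), qParam_pow_eq,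
      ← Complex.exp_add, ← Complex.exp_add]
    congr 1
    rw [eisPrim, hc, show (p : ℂ) - 1 = ((e * M : ℕ) : ℂ) by
      rw [heM, Nat.cast_sub (Fact.out : p.Prime).one_le]; simp, Nat.cast_sub hep]
    push_cast
    field_simp
    ring
  rw [slash_frickeGL_apply, rootForm, show (12 : ℤ) - 1 = 11 by norm_num,
    frickeGL_smul_eq, discriminant_S_smul, discriminant_eq_qParam_mul (scaleGL p • z),
    ← frickeGL_smul_eq,
    show eisPrim p (frickeGL p • z) = K - eisPrim p z by linear_combination hK z,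
    show Complex.exp (c * (K - eisPrim p z))
      = Complex.exp (c * K) * Complex.exp (-(c * eisPrim p z)) by
      rw [← Complex.exp_add]; ring_nf]
  simp only [Pi.mul_apply]
  rw [← hexp, coe_scaleGL_smul, zpow_neg, show (12 : ℤ) = ((12 : ℕ) : ℤ) by norm_num, zpow_natCast]
  field_simp

lemma rootForm_mem {e M : ℕ} (heM : e * M = p - 1) (hM : M ≠ 0) (hep : e ≤ p)
    (hper : ∀ γ : Gamma0 p, ∃ m : ℤ, eisPeriod p (Additive.ofMul γ) = (M : ℂ) * m) :
    rootForm p (2 * π * Complex.I / M) ∈ modFun (Gamma0 p) 12 := by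
  set c : ℂ := 2 * π * Complex.I / M with hc
  obtain ⟨K, hK⟩ := exists_eisPrim_fricke p
  have hhol : MDifferentiable 𝓘(ℂ) 𝓘(ℂ) (rootForm p c) := by
    refine MDifferentiable.mul ?_ (modFun.holo Δ_mem)
    rw [UpperHalfPlane.mdifferentiable_iff]
    intro z hz
    exact (((isPrim_eisPrim p ⟨z, hz⟩).const_mul c).cexp).differentiableAt.differentiableWithinAt
  refine mem_modFun_of hhol (fun γ hγ => ?_) ?_ ?_
  · funext z
    obtain ⟨m, hm⟩ := hper ⟨γ, hγ⟩
    have h1 := eisPeriod_apply p ⟨γ, hγ⟩ z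
    rw [hm] at h1
    have h2 := congrFun (lev.slash_eq Δ_mem γ) z
    rw [ModularForm.SL_slash_apply] at h2 ⊢
    rw [rootForm, rootForm, mul_assoc, h2,
      show eisPrim p (γ • z) = eisPrim p z + (M : ℂ) * m by linear_combination -h1, mul_add,
      Complex.exp_add, show c * ((M : ℂ) * m) = (m : ℂ) * (2 * π * Complex.I) by
        rw [hc]; field_simp, Complex.exp_int_mul_two_pi_mul_I, mul_one]
  · have h1 := ((tailExp_props p c).2.2.mul ((qParam_tendsto_atImInfty one_pos).pow e)).mul
      (discriminant_isZeroAtImInfty)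
    exact h1.isBigO_one ℝ |>.congr_left fun z => by simp [rootForm, exp_eq_tail_mul_qParam p heM hM, hc]
  · have hst : rootForm p c ∣[(12 : ℤ)] (S : SL(2, ℤ)) = (p : ℂ) ^ ((2 : ℤ) - 12) •
        ((rootForm p c ∣[(12 : ℤ)] frickeGL p) ∣[(12 : ℤ)] heckeMatrix p 0) := by
      have h := slash_ST (p := p) 12 (rootForm p c) 0
      rwa [stMat, Nat.cast_zero, zpow_zero, mul_one] at h
    rw [hst]
    refine Filter.BoundedAtFilter.smul _ (IsBoundedAtImInfty.slash _
      (by simp [val_heckeMatrix (NeZero.ne p)]) ?_)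
    exact isBoundedAtImInfty_of_hasSum_qExpansion one_pos fun τ => by
      simpa using rootForm_fricke p heM hM hep hK τ

/-- If `M ∣ p - 1` divides every Eisenstein period then `M ∣ 12`. -/
theorem dvd_twelve_of_dvd_periods {M : ℕ} (hM : M ∣ p - 1)
    (hper : ∀ γ : Gamma0 p, ∃ m : ℤ, eisPeriod p (Additive.ofMul γ) = (M : ℂ) * m) : M ∣ 12 := by
  have hp := (Fact.out : p.Prime)
  by_contra h12
  obtain ⟨e, he⟩ := hM
  have hp2 := hp.two_le
  have hM0 : M ≠ 0 := by rintro rfl; simp at he; omega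
  have he0 : e ≠ 0 := by rintro rfl; simp at he; omega
  have heM : e * M = p - 1 := by rw [he, mul_comm]
  have hep : e < p := by
    have : e ≤ e * M := Nat.le_mul_of_pos_right e (Nat.pos_of_ne_zero hM0)
    omega
  obtain ⟨K, hK⟩ := exists_eisPrim_fricke p
  set c : ℂ := 2 * π * Complex.I / M with hc
  set C : ℂ := Complex.exp (c * K) with hC
  have hCM : C ^ M = ((p : ℂ) ^ 12)⁻¹ := by
    rw [← unitFun_fricke p I, ← exp_eisPrim_eq, ← exp_eisPrim_eq, hC, ← Complex.exp_nat_mul,
      ← Complex.exp_add, ← hK I]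
    congr 1
    rw [hc]
    field_simp
  have hirr := irrational_of_pow_eq p h12 hM0 hCM
  obtain ⟨htr, htq⟩ := qexp_trace (rootForm_mem p heM hM0 hep.le hper) (qexp_rootForm p heM hM0)
    (rootForm_fricke p heM hM0 hep.le hK)
  set A := PowerSeries.X ^ e * tailSeries p c * toC deltaSer with hA
  set B := tailSeries p (-c) * PowerSeries.X ^ (p - e) *
    PowerSeries.expand p (NeZero.ne p) (toC etaPow) with hB
  have hA' : A = PowerSeries.X ^ (e + 1) * (tailSeries p c * toC etaPow) := by
    rw [hA, show toC deltaSer = PowerSeries.X * toC etaPow by simp [deltaSer], pow_succ]; ring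
  have hcoef : ∀ n, (A + PowerSeries.C ((p : ℂ) ^ ((2 : ℤ) - 12)) *
      uSeries p (PowerSeries.C ((p : ℂ) ^ (11 : ℤ) * C) * B)).coeff n
      = A.coeff n + (p : ℂ) * C * B.coeff (p * n) := by
    intro n
    rw [map_add, PowerSeries.coeff_C_mul, coeff_uSeries, PowerSeries.coeff_C_mul, ← mul_assoc,
      ← mul_assoc, ← zpow_add₀ (Nat.cast_ne_zero.mpr (NeZero.ne p)),
      show (2 : ℤ) - 12 + 11 = 1 by norm_num, zpow_one]
  have hA1 : ∀ n, n ≤ e → A.coeff n = 0 := fun n hn => by
    rw [hA', PowerSeries.coeff_X_pow_mul', if_neg (by omega)]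
  have hAe : A.coeff (e + 1) = 1 := by
    rw [hA', PowerSeries.coeff_X_pow_mul', if_pos le_rfl, Nat.sub_self,
      PowerSeries.coeff_zero_eq_constantCoeff_apply, map_mul, constantCoeff_tailSeries, one_mul,
      ← PowerSeries.coeff_zero_eq_constantCoeff_apply, PowerSeries.coeff_map,
      PowerSeries.coeff_zero_eq_constantCoeff_apply, constantCoeff_etaPow, map_one]
  have hB0 : B.coeff 0 = 0 := by simp [hB, zero_pow (show p - e ≠ 0 by omega)]
  obtain ⟨b, hb⟩ := lev_twelve_cusp htr htq (by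
    rw [hcoef, hA1 0 (Nat.zero_le _), mul_zero, hB0]; ring)
  have hrel : ∀ n, A.coeff n + (p : ℂ) * C * B.coeff (p * n) = b * (deltaSer.coeff n : ℂ) := by
    intro n
    rw [← hcoef, hb, PowerSeries.coeff_C_mul, PowerSeries.coeff_map]
    rfl
  have hBrat : ∀ n, ∃ r : ℚ, (r : ℂ) = B.coeff n := rational_of_map_eq fun σ => by
    simp only [hB, map_mul, map_pow, PowerSeries.map_X, PowerSeries.map_expand, map_toC]
    rw [tailSeries_neg_rational p hM0 σ]
  obtain ⟨y1, hy1⟩ := hBrat (p * 1)
  obtain ⟨y, hy⟩ := hBrat (p * (e + 1))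
  have hb1 : b = (p : ℂ) * C * y1 := by
    have := hrel 1
    rw [hA1 1 (by omega), coeff_deltaSer_one, ← hy1, zero_add, Int.cast_one, mul_one] at this
    exact this.symm
  have hne := hrel (e + 1)
  rw [hAe, ← hy, hb1] at hne
  refine hirr ((((p : ℚ) * (y1 * (deltaSer.coeff (e + 1) : ℚ) - y))⁻¹ : ℚ)) ?_
  push_cast
  exact inv_eq_of_mul_eq_one_right (by linear_combination -hne)

end Fermat.Agent.Eisenstein
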