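import Fermat.Agent.Eisenstein.Level
import Fermat.Agent.MCurve.QExp
import Fermat.Prelude.Thm_UpperHalfPlane_qCoeff_heckeU
import Fermat.Prelude.Thm_ModularForm_periodic_heckeU_comp_ofComplex
import Fermat.Prelude.Thm_ModularForm_mdifferentiable_heckeU
import Fermat.Prelude.Thm_ModularForm_isBoundedAtImInfty_heckeU
import Mathlib.RingTheory.PowerSeries.Expand

/-!
# `q`-series in width one and `p`

Main results: `qexp_of_periodic`, `qexp_expand`, `qexp_translate`, `qexp_heckeU`,
`exists_qexp_modFun`, `qexp_trace`.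
-/

set_option autoImplicit false

noncomputable section

namespace Fermat.Agent.Eisenstein

open UpperHalfPlane CongruenceSubgroup ModularGroup ModularForm Fermat.Agent.Period
  Fermat.Agent.MCurve Filter Topology
open scoped MatrixGroups ModularForm Manifold Real

local notation "𝕢" => Function.Periodic.qParam

variable {h : ℝ} {f g : ℍ → ℂ} {s t : PowerSeries ℂ}

lemma qexp_of_periodic (hh : 0 < h) (hper : Function.Periodic (f ∘ ofComplex) h)
    (hhol : MDifferentiable 𝓘(ℂ) 𝓘(ℂ) f) (hbdd : IsBoundedAtImInfty f) :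
    QExp h f (qExpansion h f) := fun τ => by
  simpa using UpperHalfPlane.hasSum_qExpansion hh hper hhol hbdd τ

lemma qexp_sub (hf : QExp h f s) (hg : QExp h g t) : QExp h (f - g) (s - t) := by
  simpa [sub_eq_add_neg] using hf.add hg.neg

lemma qexp_smul (hf : QExp h f s) (c : ℂ) : QExp h (c • f) (PowerSeries.C c * s) :=
  (hf.const_mul c).congr fun _ => rfl

lemma qexp_sum {ι : Type*} (T : Finset ι) {F : ι → ℍ → ℂ} {S : ι → PowerSeries ℂ}
    (hF : ∀ i ∈ T, QExp h (F i) (S i)) : QExp h (∑ i ∈ T, F i) (∑ i ∈ T, S i) := by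
  classical
  induction T using Finset.induction_on with
  | empty => simpa using QExp.zero (h := h)
  | insert a T ha ih =>
    rw [Finset.sum_insert ha, Finset.sum_insert ha]
    exact (hF a (Finset.mem_insert_self a T)).add (ih fun i hi => hF i (Finset.mem_insert_of_mem hi))

lemma qexp_prod {ι : Type*} (T : Finset ι) {F : ι → ℍ → ℂ} {S : ι → PowerSeries ℂ}
    (hF : ∀ i ∈ T, QExp h (F i) (S i)) : QExp h (∏ i ∈ T, F i) (∏ i ∈ T, S i) := by
  classical
  induction T using Finset.induction_on with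
  | empty => simpa using QExp.one (h := h)
  | insert a T ha ih =>
    rw [Finset.prod_insert ha, Finset.prod_insert ha]
    exact (hF a (Finset.mem_insert_self a T)).mul (ih fun i hi => hF i (Finset.mem_insert_of_mem hi))

lemma eq_of_qexp (hf : QExp h f s) (hg : QExp h g s) : f = g :=
  funext fun τ => (hf τ).unique (hg τ)

variable (p : ℕ) [NeZero p]

lemma qParam_one_eq_pow (z : ℂ) : 𝕢 1 z = 𝕢 (p : ℝ) z ^ p := by
  have hp : (p : ℂ) ≠ 0 := Nat.cast_ne_zero.mpr (NeZero.ne p)
  simp only [Function.Periodic.qParam, ← Complex.exp_nat_mul, Complex.ofReal_natCast,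
    Complex.ofReal_one]
  congr 1
  field_simp

lemma qexp_expand (hf : QExp 1 f s) : QExp (p : ℝ) f (PowerSeries.expand p (NeZero.ne p) s) := by
  have h1 := QExp.comp (φ := id) (c := 1) hf (NeZero.pos p) (h := (p : ℝ))
    (fun τ => by rw [one_mul, id_eq, qParam_one_eq_pow p])
  rw [show PowerSeries.expand p (NeZero.ne p) s = PowerSeries.mk fun n =>
    if p ∣ n then s.coeff (n / p) * 1 ^ (n / p) else 0 by ext n; simp [PowerSeries.coeff_expand]]
  exact h1

lemma qexp_scale (hf : QExp 1 f s) :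
    QExp 1 (fun z => f (scaleGL p • z)) (PowerSeries.expand p (NeZero.ne p) s) := by
  have h1 := QExp.comp (φ := fun z => scaleGL p • z) (c := 1) hf (NeZero.pos p) (h := 1)
    (fun τ => by
      simp only [coe_scaleGL_smul, Function.Periodic.qParam, one_mul, ← Complex.exp_nat_mul,
        Complex.ofReal_one, div_one]
      congr 1
      ring)
  convert h1 using 1
  ext n
  simp [PowerSeries.coeff_expand]

/-- The standard root of unity. -/
def zetaRoot : ℂ := Complex.exp (2 * π * Complex.I / p)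

lemma zetaRoot_pow_self : zetaRoot p ^ p = 1 := by
  have hp : (p : ℂ) ≠ 0 := Nat.cast_ne_zero.mpr (NeZero.ne p)
  rw [zetaRoot, ← Complex.exp_nat_mul, mul_div_cancel₀ _ hp, Complex.exp_two_pi_mul_I]

lemma isPrimitiveRoot_zetaRoot : IsPrimitiveRoot (zetaRoot p) p :=
  Complex.isPrimitiveRoot_exp p (NeZero.ne p)

/-- Twist of a series by a power of the root of unity. -/
def twistSeries (j : ℕ) (s : PowerSeries ℂ) : PowerSeries ℂ :=
  PowerSeries.rescale (zetaRoot p ^ j) s

lemma qexp_translate (hf : QExp 1 f s) (j : ℕ) :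
    QExp (p : ℝ) (fun z => f (heckeMatrix p j • z)) (twistSeries p j s) := by
  have hp : (p : ℂ) ≠ 0 := Nat.cast_ne_zero.mpr (NeZero.ne p)
  have h1 := QExp.comp (φ := fun z => heckeMatrix p j • z) (c := zetaRoot p ^ j) hf one_pos
    (h := (p : ℝ)) (fun τ => by
      simp only [coe_heckeMatrix_smul (NeZero.ne p), Function.Periodic.qParam, zetaRoot, pow_one,
        ← Complex.exp_nat_mul, ← Complex.exp_add, Complex.ofReal_natCast, Complex.ofReal_one,
        div_one]
      congr 1
      field_simp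
      ring)
  convert h1 using 1
  ext n
  simp [twistSeries, PowerSeries.coeff_rescale, mul_comm]

/-- The series of `U_p`. -/
def uSeries {R : Type*} [CommRing R] (s : PowerSeries R) : PowerSeries R :=
  PowerSeries.mk fun n => s.coeff (p * n)

@[simp] lemma coeff_uSeries {R : Type*} [CommRing R] (s : PowerSeries R) (n : ℕ) :
    (uSeries p s).coeff n = s.coeff (p * n) := PowerSeries.coeff_mk _ _

lemma qexp_heckeU (hper : Function.Periodic (f ∘ ofComplex) 1)
    (hhol : MDifferentiable 𝓘(ℂ) 𝓘(ℂ) f) (hbdd : IsBoundedAtImInfty f) (hf : QExp 1 f s) (k : ℤ) :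
    QExp 1 (heckeU k p f) (uSeries p s) := by
  have hs : qExpansion 1 f = s :=
    (qexp_of_periodic one_pos (by exact_mod_cast hper) hhol hbdd).unique one_pos hf
  have h1 := qexp_of_periodic (h := 1) one_pos
    (by exact_mod_cast ModularForm.periodic_heckeU_comp_ofComplex hper k p)
    (ModularForm.mdifferentiable_heckeU hhol k p)
    (ModularForm.isBoundedAtImInfty_heckeU hbdd k p)
  convert h1 using 1
  ext n
  have h2 := UpperHalfPlane.qCoeff_heckeU hper hhol hbdd k (NeZero.ne p) n
  rw [coeffHeckeU_apply, ModularFormClass.qCoeff, ModularFormClass.qCoeff, hs, mul_comm n p] at h2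
  rw [coeff_uSeries, h2]

variable {p}

lemma modFun_periodic {k : ℤ} (hf : f ∈ modFun (Gamma0 p) k) :
    Function.Periodic (f ∘ ofComplex) (1 : ℂ) := by
  have hT : (T : SL(2, ℤ)) ∈ Gamma0 p := by simp [Gamma0_mem, coe_T]
  exact_mod_cast periodic_of_slash_T (modFun.slash_eq hf hT)

lemma modFun_bdd {k : ℤ} {Γ : Subgroup SL(2, ℤ)} (hf : f ∈ modFun Γ k) : IsBoundedAtImInfty f := by
  simpa using modFun.bdd hf 1

lemma exists_qexp_modFun {k : ℤ} (hf : f ∈ modFun (Gamma0 p) k) : ∃ s, QExp 1 f s :=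
  ⟨_, qexp_of_periodic one_pos (by exact_mod_cast modFun_periodic hf) hf.1 (modFun_bdd hf)⟩

lemma qexp_heckeU_modFun {k : ℤ} (hf : f ∈ modFun (Gamma0 p) k) (hs : QExp 1 f s) (l : ℤ) :
    QExp 1 (heckeU l p f) (uSeries p s) :=
  qexp_heckeU p (modFun_periodic hf) hf.1 (modFun_bdd hf) hs l

omit [NeZero p] in
/-- In weight two the Fricke transform has series `-U_p`. -/
lemma qexp_fricke [Fact p.Prime] (hf : f ∈ modFun (Gamma0 p) 2) (hs : QExp 1 f s) :
    QExp 1 (f ∣[(2 : ℤ)] frickeGL p) (-uSeries p s) := by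
  rw [fricke_eq_neg_heckeU hf]
  exact (qexp_heckeU_modFun hf hs 2).neg

omit [NeZero p] in
/-- The series of the trace. -/
theorem qexp_trace [Fact p.Prime] {k : ℤ} (hf : f ∈ modFun (Gamma0 p) k) (hs : QExp 1 f s)
    (ht : QExp 1 (f ∣[k] frickeGL p) t) :
    f + (p : ℂ) ^ (2 - k) • heckeU k p (f ∣[k] frickeGL p) ∈ lev k ∧
    QExp 1 (f + (p : ℂ) ^ (2 - k) • heckeU k p (f ∣[k] frickeGL p))
      (s + PowerSeries.C ((p : ℂ) ^ (2 - k)) * uSeries p t) :=
  ⟨trace_mem_lev hf, hs.add (qexp_smul (qexp_heckeU_modFun (slash_fricke_mem hf) ht k) _)⟩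

end Fermat.Agent.Eisenstein
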