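import Fermat.Agent.Eisenstein.DeltaSeries
import Mathlib.LinearAlgebra.Matrix.Charpoly.Basic
import Mathlib.LinearAlgebra.Vandermonde

/-!
# Symmetric functions of the conjugates of a form of prime level, integrally

Main results: `conjPoly_coeff_mem`, `qexp_conjPoly_coeff`.
-/

set_option autoImplicit false

noncomputable section

namespace Fermat.Agent.Eisenstein

open UpperHalfPlane CongruenceSubgroup ModularGroup ModularForm Fermat.Agent.Period
  Fermat.Agent.MCurve Filter Topology
open scoped MatrixGroups ModularForm Manifold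

variable (p : ℕ) [Fact p.Prime]

/-- Multiplication by `t` on the sections modulo `p`. -/
def secMat {R : Type*} [CommRing R] (t : PowerSeries R) :
    Matrix (Fin p) (Fin p) (PowerSeries R) :=
  fun k l => PowerSeries.mk fun m =>
    if (k : ℕ) ≤ p * m + l then t.coeff (p * m + l - k) else 0

/-- The product of `X - root` over the cosets, as a series. -/
def charSer {R : Type*} [CommRing R] (s t : PowerSeries R) : Polynomial (PowerSeries R) :=
  (Polynomial.X - Polynomial.C s) * (secMat p t).charpoly

lemma map_charSer {R S : Type*} [CommRing R] [CommRing S] (φ : R →+* S) (s t : PowerSeries R) :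
    (charSer p s t).map (PowerSeries.map φ) =
      charSer p (PowerSeries.map φ s) (PowerSeries.map φ t) := by
  have h : (secMat p t).map (PowerSeries.map φ) = secMat p (PowerSeries.map φ t) := by
    refine Matrix.ext fun k l => PowerSeries.ext fun m => ?_
    simp only [Matrix.map_apply, secMat, PowerSeries.coeff_map, PowerSeries.coeff_mk]
    split_ifs <;> simp
  rw [charSer, charSer, Polynomial.map_mul, Polynomial.map_sub, Polynomial.map_X,
    Polynomial.map_C, ← Matrix.charpoly_map, h]

lemma secMat_expand {R : Type*} [CommRing R] (u : PowerSeries R) :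
    secMat p (PowerSeries.expand p (NeZero.ne p) u) = Matrix.diagonal fun _ => u := by
  refine Matrix.ext fun k l => PowerSeries.ext fun m => ?_
  simp only [secMat, PowerSeries.coeff_mk, PowerSeries.coeff_expand]
  rcases eq_or_ne k l with rfl | hkl
  · rw [Matrix.diagonal_apply_eq, if_pos (Nat.le_add_left _ _), Nat.add_sub_cancel,
      if_pos (dvd_mul_right p m), Nat.mul_div_cancel_left _ (NeZero.pos p)]
  · rw [Matrix.diagonal_apply_ne _ hkl, map_zero]
    by_cases h1 : (k : ℕ) ≤ p * m + l
    · rw [if_pos h1, if_neg]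
      intro h2
      apply hkl
      have h3 := Int.natCast_dvd_natCast.mpr h2
      rw [Nat.cast_sub h1] at h3
      push_cast at h3
      have h4 : (p : ℤ) ∣ (l : ℕ) - (k : ℕ) := by
        obtain ⟨c, hc⟩ := h3
        exact ⟨c - m, by linear_combination hc⟩
      have := Int.eq_zero_of_dvd_of_natAbs_lt_natAbs h4 (by have := k.2; have := l.2; omega)
      exact Fin.ext (by omega)
    · rw [if_neg h1]

lemma charSer_expand {R : Type*} [CommRing R] (s u : PowerSeries R) :
    charSer p s (PowerSeries.expand p (NeZero.ne p) u) =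
      (Polynomial.X - Polynomial.C s) * (Polynomial.X - Polynomial.C u) ^ p := by
  rw [charSer, secMat_expand, Matrix.charpoly_diagonal, Finset.prod_const, Finset.card_univ,
    Fintype.card_fin]

lemma secMat_mul {R : Type*} [CommRing R] (t : PowerSeries R) (k : Fin p) :
    t * PowerSeries.X ^ (k : ℕ) =
      ∑ l, PowerSeries.expand p (NeZero.ne p) (secMat p t k l) * PowerSeries.X ^ (l : ℕ) := by
  ext n
  rw [map_sum, PowerSeries.coeff_mul_X_pow']
  rw [Finset.sum_eq_single ⟨n % p, Nat.mod_lt n (NeZero.pos p)⟩ ?_ (by simp)]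
  · rw [PowerSeries.coeff_mul_X_pow', if_pos (Nat.mod_le n p), PowerSeries.coeff_expand,
      if_pos (Nat.dvd_sub_mod n), secMat, PowerSeries.coeff_mk]
    have h : (n - n % p) / p = n / p := Nat.div_eq_sub_mod_div.symm
    rw [h, Nat.div_add_mod]
  · intro l _ hl
    rw [PowerSeries.coeff_mul_X_pow']
    split_ifs with h1
    · rw [PowerSeries.coeff_expand, if_neg]
      intro h2
      apply hl
      apply Fin.ext
      show (l : ℕ) = n % p
      rw [← (Nat.modEq_iff_dvd' h1).mpr h2, Nat.mod_eq_of_lt l.2]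
    · rfl

lemma zetaRoot_twist_expand (j : ℕ) (u : PowerSeries ℂ) :
    twistSeries p j (PowerSeries.expand p (NeZero.ne p) u) =
      PowerSeries.expand p (NeZero.ne p) u := by
  ext n
  rw [twistSeries, PowerSeries.coeff_rescale, PowerSeries.coeff_expand]
  split_ifs with h
  · obtain ⟨m, rfl⟩ := h
    rw [← pow_mul, mul_comm j, mul_assoc, pow_mul, zetaRoot_pow_self, one_pow, one_mul]
  · rw [mul_zero]

lemma charSer_eq_prod (s t : PowerSeries ℂ) :
    (charSer p s t).map (PowerSeries.expand p (NeZero.ne p)).toRingHom =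
      (Polynomial.X - Polynomial.C (PowerSeries.expand p (NeZero.ne p) s)) *
        ∏ j : Fin p, (Polynomial.X - Polynomial.C (twistSeries p j t)) := by
  set φ := (PowerSeries.expand (R := ℂ) p (NeZero.ne p)).toRingHom with hφ
  rw [charSer, Polynomial.map_mul, Polynomial.map_sub, Polynomial.map_X, Polynomial.map_C,
    ← Matrix.charpoly_map]
  congr 1
  set y : Fin p → PowerSeries ℂ := fun j => PowerSeries.C (zetaRoot p) ^ (j : ℕ) * PowerSeries.X
    with hy
  set V : Matrix (Fin p) (Fin p) (PowerSeries ℂ) := (Matrix.vandermonde y).transpose with hV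
  set D : Fin p → PowerSeries ℂ := fun j => twistSeries p j t
  have hMV : (secMat p t).map φ * V = V * Matrix.diagonal D := by
    refine Matrix.ext fun k j => ?_
    rw [Matrix.mul_diagonal, Matrix.mul_apply]
    have h := congrArg (PowerSeries.rescale (zetaRoot p ^ (j : ℕ))) (secMat_mul p t k)
    rw [map_mul, map_sum, map_pow, PowerSeries.rescale_X] at h
    simp only [map_mul, map_pow, PowerSeries.rescale_X] at h
    rw [show PowerSeries.rescale (zetaRoot p ^ (j : ℕ)) t = D j from rfl] at h
    rw [show V k j = y j ^ (k : ℕ) from rfl, mul_comm]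
    rw [show D j * y j ^ (k : ℕ) = _ from h]
    refine Finset.sum_congr rfl fun l _ => ?_
    show _ = _ * y j ^ (l : ℕ)
    exact congrArg (· * _) (zetaRoot_twist_expand p j _).symm
  have hdet : V.det ≠ 0 := by
    rw [hV, Matrix.det_transpose, Matrix.det_vandermonde_ne_zero_iff]
    intro i j hij
    have h := congrArg (PowerSeries.coeff 1) hij
    simp only [hy, ← map_pow, PowerSeries.coeff_C_mul, PowerSeries.coeff_one_X, mul_one] at h
    exact Fin.ext ((isPrimitiveRoot_zetaRoot p).pow_inj i.2 j.2 h)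
  have hc : Matrix.charmatrix ((secMat p t).map φ) * V.map Polynomial.C =
      V.map Polynomial.C * Matrix.charmatrix (Matrix.diagonal D) := by
    rw [Matrix.charmatrix, Matrix.charmatrix, sub_mul, mul_sub]
    congr 1
    · exact Matrix.scalar_commute _ (fun _ => Commute.all _ _) _
    · simp only [RingHom.mapMatrix_apply, ← Matrix.map_mul, hMV]
  have h := congrArg Matrix.det hc
  rw [Matrix.det_mul, Matrix.det_mul, mul_comm (V.map Polynomial.C).det] at h
  have hdet' : (V.map Polynomial.C).det ≠ 0 := by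
    rw [← RingHom.mapMatrix_apply, ← RingHom.map_det]
    exact fun h0 => hdet (Polynomial.C_eq_zero.mp h0)
  rw [Matrix.charpoly, mul_right_cancel₀ hdet' h, ← Matrix.charpoly, Matrix.charpoly_diagonal]

variable {p}

/-- Representatives of the cosets. -/
def cosetRep : Option (Fin p) → SL(2, ℤ)
  | none => 1
  | some j => stMat ((j : ℕ) : ℤ)

/-- The product of `X - conjugate`. -/
def conjPoly (w : ℤ) (F : ℍ → ℂ) : Polynomial (ℍ → ℂ) :=
  ∏ x : Option (Fin p), (Polynomial.X - Polynomial.C (F ∣[w] cosetRep x))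

lemma cosetRep_bijective : Function.Bijective fun x : Option (Fin p) => cosetOf p (cosetRep x) := by
  let e : Fin p ≃ ZMod p :=
    { toFun := fun j => ((j : ℕ) : ZMod p)
      invFun := fun j => ⟨j.val, ZMod.val_lt j⟩
      left_inv := fun j => Fin.ext (ZMod.val_cast_of_lt j.2)
      right_inv := fun j => ZMod.natCast_zmod_val j }
  convert (cosetMap_bijective p).comp e.optionCongr.bijective using 1
  funext x
  cases x with
  | none => simp [cosetRep, cosetMap, baseCoset_eq]
  | some j => simp [cosetRep, cosetMap, e, ZMod.val_cast_of_lt j.2]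

lemma prod_slash_SL' {ι : Type*} (w : ℤ) (γ : SL(2, ℤ)) (t : Finset ι) (f : ι → ℍ → ℂ) :
    (∏ i ∈ t, f i) ∣[w * (t.card : ℤ)] γ = ∏ i ∈ t, f i ∣[w] γ := by
  rw [ModularForm.SL_slash, ModularForm.prod_slash]
  simp [ModularForm.SL_slash]

lemma branch_prod_mem {w : ℤ} {F : ℍ → ℂ} (hF : F ∈ modFun (Gamma0 p) w) (n : ℕ) :
    ∑ t ∈ (Finset.univ : Finset (Option (Fin p))).powersetCard n,
      ∏ x ∈ t, -(F ∣[w] cosetRep x) ∈ lev (w * n) := by
  classical
  have : Fintype (Coset p) := Fintype.ofFinite _
  set f : Coset p → ℍ → ℂ := fun q => -branch w F q with hf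
  let e : Option (Fin p) ≃ Coset p := Equiv.ofBijective _ cosetRep_bijective
  have hsum : ∑ t ∈ (Finset.univ : Finset (Option (Fin p))).powersetCard n,
      ∏ x ∈ t, -(F ∣[w] cosetRep x) =
        ∑ t ∈ (Finset.univ : Finset (Coset p)).powersetCard n, ∏ q ∈ t, f q := by
    rw [← Finset.map_univ_equiv e, Finset.powersetCard_map, Finset.sum_map]
    refine Finset.sum_congr rfl fun t _ => ?_
    show _ = ∏ q ∈ t.map e.toEmbedding, f q
    rw [Finset.prod_map]
    exact Finset.prod_congr rfl fun x _ => congrArg Neg.neg (slash_eq_branch hF _)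
  rw [hsum]
  have hb : ∀ q, IsBoundedAtImInfty (f q) := fun q => by
    obtain ⟨g, rfl⟩ := cosetOf_surjective q
    rw [hf]
    dsimp only
    rw [cosetOf, ← slash_eq_branch hF]
    exact (modFun.bdd hF g).neg
  have hd : ∀ q, MDifferentiable 𝓘(ℂ) 𝓘(ℂ) (f q) := fun q => (hF.1.slash _ _).neg
  have hinv : ∀ γ : SL(2, ℤ),
      (∑ t ∈ (Finset.univ : Finset (Coset p)).powersetCard n, ∏ q ∈ t, f q) ∣[w * (n : ℤ)] γ
        = ∑ t ∈ (Finset.univ : Finset (Coset p)).powersetCard n, ∏ q ∈ t, f q := by
    intro γ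
    rw [SlashAction.sum_slash]
    let π : Equiv.Perm (Coset p) := MulAction.toPerm γ⁻¹
    refine Finset.sum_nbij' (fun t => t.map π.toEmbedding) (fun t => t.map π.symm.toEmbedding)
      ?_ ?_ ?_ ?_ ?_
    · intro t ht; simpa [Finset.mem_powersetCard] using ht
    · intro t ht; simpa [Finset.mem_powersetCard] using ht
    · intro t _; simp [Finset.map_map]
    · intro t _; simp [Finset.map_map]
    · intro t ht
      rw [Finset.mem_powersetCard] at ht
      rw [← ht.2, prod_slash_SL', Finset.prod_map]
      simp [hf, SlashAction.neg_slash, branch_slash hF, π]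
  refine ⟨?_, fun γ _ => hinv γ, fun δ => ?_⟩
  · exact Finset.sum_induction _ (fun g : ℍ → ℂ => MDifferentiable 𝓘(ℂ) 𝓘(ℂ) g)
      (fun _ _ => MDifferentiable.add) mdifferentiable_const fun t _ =>
        Finset.prod_induction _ (fun g : ℍ → ℂ => MDifferentiable 𝓘(ℂ) 𝓘(ℂ) g)
          (fun _ _ => MDifferentiable.mul) mdifferentiable_const fun q _ => hd q
  · rw [hinv δ]
    exact Finset.sum_induction _ (fun g : ℍ → ℂ => IsBoundedAtImInfty g)
      (fun _ _ => Filter.BoundedAtFilter.add) (Filter.const_boundedAtFilter _ 0) fun t _ =>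
        Finset.prod_induction _ (fun g : ℍ → ℂ => IsBoundedAtImInfty g)
          (fun _ _ => Filter.BoundedAtFilter.mul) (Filter.const_boundedAtFilter _ 1) fun q _ => hb q

lemma conjPoly_coeff {w : ℤ} (F : ℍ → ℂ) {k : ℕ} (hk : k ≤ p + 1) :
    (conjPoly (p := p) w F).coeff k =
      ∑ t ∈ (Finset.univ : Finset (Option (Fin p))).powersetCard (p + 1 - k),
        ∏ x ∈ t, -(F ∣[w] cosetRep x) := by
  have hc : (Finset.univ : Finset (Option (Fin p))).card = p + 1 := by simp
  simp only [conjPoly, sub_eq_add_neg, ← map_neg]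
  rw [Finset.prod_X_add_C_coeff _ _ (hc ▸ hk), hc]

/-- The symmetric functions of the conjugates have level one. -/
theorem conjPoly_coeff_mem {w : ℤ} {F : ℍ → ℂ} (hF : F ∈ modFun (Gamma0 p) w) {k : ℕ}
    (hk : k ≤ p + 1) : (conjPoly (p := p) w F).coeff k ∈ lev (w * ((p + 1 - k : ℕ) : ℤ)) := by
  rw [conjPoly_coeff F hk]
  exact branch_prod_mem hF _

/-- Their series are integral. -/
theorem qexp_conjPoly_coeff {w : ℤ} {F : ℍ → ℂ} (hF : F ∈ modFun (Gamma0 p) w)
    {s t : PowerSeries ℤ} (hs : QExp 1 F (toC s))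
    (ht : ∀ j < p, QExp (p : ℝ) (F ∣[w] stMat (j : ℤ)) (twistSeries p j (toC t))) {k : ℕ}
    (hk : k ≤ p + 1) : QExp 1 ((conjPoly (p := p) w F).coeff k) (toC ((charSer p s t).coeff k)) := by
  classical
  obtain ⟨v, hv⟩ : ∃ v, QExp 1 ((conjPoly (p := p) w F).coeff k) v :=
    ⟨_, qexp_of_periodic one_pos (lev_periodic (conjPoly_coeff_mem hF hk))
      (conjPoly_coeff_mem hF hk).1 (modFun_bdd (conjPoly_coeff_mem hF hk))⟩
  set R : Option (Fin p) → PowerSeries ℂ := fun x => x.elim
    (PowerSeries.expand p (NeZero.ne p) (toC s)) (fun j => twistSeries p j (toC t)) with hR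
  have hRq : ∀ x, QExp (p : ℝ) (F ∣[w] cosetRep x) (R x) := by
    rintro (_ | j)
    · show QExp _ (F ∣[w] (1 : SL(2, ℤ))) _
      rw [SlashAction.slash_one]
      exact qexp_expand p hs
    · exact ht j j.2
  have hq : QExp (p : ℝ) ((conjPoly (p := p) w F).coeff k)
      ((∏ x, (Polynomial.X - Polynomial.C (R x))).coeff k) := by
    have hc : (Finset.univ : Finset (Option (Fin p))).card = p + 1 := by simp
    rw [conjPoly_coeff F hk]
    simp only [sub_eq_add_neg, ← map_neg]
    rw [Finset.prod_X_add_C_coeff _ _ (hc ▸ hk), hc]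
    exact qexp_sum _ fun t _ => qexp_prod _ fun x _ => (hRq x).neg
  have heq : (∏ x, (Polynomial.X - Polynomial.C (R x))) =
      ((charSer p s t).map toC).map (PowerSeries.expand p (NeZero.ne p)).toRingHom := by
    rw [map_charSer, charSer_eq_prod, Fintype.prod_option]
    rfl
  rw [heq, Polynomial.coeff_map, Polynomial.coeff_map] at hq
  have h := (qexp_expand p hv).unique (Nat.cast_pos.mpr (NeZero.pos p)) hq
  have h' : v = toC ((charSer p s t).coeff k) := PowerSeries.ext fun n => by
    have := congrArg (PowerSeries.coeff (p * n)) h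
    simpa [PowerSeries.coeff_expand, Nat.mul_div_cancel_left _ (NeZero.pos p)] using this
  rwa [← h']

end Fermat.Agent.Eisenstein
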