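import Fermat.Agent.Eisenstein.Kappa
import Fermat.Agent.Eisenstein.RootUnit
import Fermat.Agent.GalRep.Periods
import Fermat.Prelude.Def_CuspForm_HeckeEvalForms
import Fermat.Prelude.Def_ModularCurve_ModularUnit

/-!
# A Hecke polynomial killing all cusp forms has Eisenstein value divisible by the numerator

Main result: `eisensteinNumerator_dvd_of_kills`.
-/

set_option autoImplicit false

noncomputable section

namespace Fermat.Agent.Eisenstein

open UpperHalfPlane CongruenceSubgroup ModularGroup ModularForm ModularCurve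
  Filter Topology
open Fermat.Agent.Period (IsPrim)
open Fermat.Agent.GalRep (GoodIndex transferHom heckeRep gMat trIdx trCoef trSpec trPerm repGL)
open scoped MatrixGroups ModularForm Manifold

variable (p : ℕ) [Fact p.Prime]

local notation "Hom0" => (Additive (Gamma0 p) →+ ℂ)
local notation "J" => Period.charInvolution p ℂ ℂ

/-- Conjugation by the Fricke matrix, elementwise. -/
def frickeConjFun (γ : Gamma0 p) : Gamma0 p :=
  ⟨(frickeGL_conj p γ.2).choose, (frickeGL_conj p γ.2).choose_spec.1⟩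

lemma frickeConjFun_spec (γ : Gamma0 p) :
    frickeGL p * ((γ : SL(2, ℤ)) : GL (Fin 2) ℝ)
      = ((frickeConjFun p γ : SL(2, ℤ)) : GL (Fin 2) ℝ) * frickeGL p ∧
    (frickeConjFun p γ : SL(2, ℤ)) 0 0 = (γ : SL(2, ℤ)) 1 1 ∧
    (p : ℤ) * (frickeConjFun p γ : SL(2, ℤ)) 0 1 = -(γ : SL(2, ℤ)) 1 0 ∧
    (frickeConjFun p γ : SL(2, ℤ)) 1 0 = -((p : ℤ) * (γ : SL(2, ℤ)) 0 1) ∧
    (frickeConjFun p γ : SL(2, ℤ)) 1 1 = (γ : SL(2, ℤ)) 0 0 :=
  (frickeGL_conj p γ.2).choose_spec.2

lemma ext_of_entries {γ δ : Gamma0 p} (h00 : (γ : SL(2, ℤ)) 0 0 = (δ : SL(2, ℤ)) 0 0)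
    (h01 : (p : ℤ) * (γ : SL(2, ℤ)) 0 1 = (p : ℤ) * (δ : SL(2, ℤ)) 0 1)
    (h10 : (γ : SL(2, ℤ)) 1 0 = (δ : SL(2, ℤ)) 1 0)
    (h11 : (γ : SL(2, ℤ)) 1 1 = (δ : SL(2, ℤ)) 1 1) : γ = δ := by
  have h01' := mul_left_cancel₀ (Int.natCast_ne_zero.mpr (NeZero.ne p)) h01
  apply Subtype.ext
  apply Subtype.ext
  ext i j
  fin_cases i <;> fin_cases j <;> assumption

/-- Conjugation by the Fricke matrix. -/
def frickeConj : Gamma0 p →* Gamma0 p :=
  MonoidHom.mk' (frickeConjFun p) fun γ δ => by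
    obtain ⟨-, a1, b1, c1, d1⟩ := frickeConjFun_spec p γ
    obtain ⟨-, a2, b2, c2, d2⟩ := frickeConjFun_spec p δ
    obtain ⟨-, a3, b3, c3, d3⟩ := frickeConjFun_spec p (γ * δ)
    apply ext_of_entries
    all_goals
      simp only [Subgroup.coe_mul, Matrix.SpecialLinearGroup.coe_mul, Matrix.mul_apply,
        Fin.sum_univ_two] at *
    · rw [a3, a1, a2, c2]
      linear_combination ((δ : SL(2, ℤ)) 0 1) * b1
    · rw [b3, a1, d2]
      linear_combination -((γ : SL(2, ℤ)) 1 1) * b2 - ((δ : SL(2, ℤ)) 0 0) * b1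
    · rw [c3, c1, a2, d1, c2]; ring
    · rw [d3, c1, d1, d2]
      linear_combination ((γ : SL(2, ℤ)) 0 1) * b2

lemma jConj_frickeConj (γ : Gamma0 p) :
    Period.jConjGamma0 p (frickeConj p γ) = frickeConj p (Period.jConjGamma0 p γ) := by
  obtain ⟨-, a1, b1, c1, d1⟩ := frickeConjFun_spec p γ
  obtain ⟨-, a2, b2, c2, d2⟩ := frickeConjFun_spec p (Period.jConjGamma0 p γ)
  apply ext_of_entries
  all_goals
    simp only [frickeConj, MonoidHom.mk'_apply, Period.jConjGamma0_coe, Period.jConjSL_coe,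
      Period.jConjMat_apply_zero_zero, Period.jConjMat_apply_zero_one,
      Period.jConjMat_apply_one_zero, Period.jConjMat_apply_one_one] at *
  · rw [a1, a2]
  · rw [b2]; linear_combination -b1
  · rw [c1, c2]; ring
  · rw [d1, d2]

/-- The operator attached to `U_p`. -/
def uOp : Hom0 →+ Hom0 :=
  AddMonoidHom.mk' (fun χ => -χ.comp (MonoidHom.toAdditive (frickeConj p))) fun χ ψ =>
    AddMonoidHom.ext fun x => by simp [add_comm]

lemma uOp_apply (χ : Hom0) (γ : Gamma0 p) :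
    uOp p χ (Additive.ofMul γ) = -χ (Additive.ofMul (frickeConj p γ)) := rfl

lemma uOp_involution (χ : Hom0) : uOp p (J χ) = J (uOp p χ) := by
  refine AddMonoidHom.ext fun x => ?_
  obtain ⟨γ, rfl⟩ := Additive.ofMul.surjective x
  simp only [uOp_apply, Period.charInvolution_apply, toMul_ofMul, jConj_frickeConj]

/-- The operator attached to `T_ℓ`. -/
def tOp {l : ℕ} (hg : GoodIndex p l) : Hom0 →+ Hom0 :=
  AddMonoidHom.mk' (transferHom hg) (GalRep.transferHom_add hg)

lemma jConjMat_heckeRep {l : ℕ} [NeZero l] (i : Option (Fin l)) :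
    ∃ ε : Gamma0 p, Period.jConjMat (heckeRep l i) = gMat ε * heckeRep l (i.map (- ·)) := by
  cases i with
  | none =>
    exact ⟨1, by rw [GalRep.gMat_one, one_mul, Option.map_none]; simp [heckeRep, Period.jConjMat]⟩
  | some b =>
    have h : (l : ℤ) ∣ -(b : ℤ) - ((-b : Fin l) : ℕ) := by
      rw [← ZMod.intCast_zmod_eq_zero_iff_dvd]
      have hneg : (((-b : Fin l) : ℕ) : ZMod l) = -((b : ℕ) : ZMod l) := by
        rw [Fin.val_neg', ZMod.natCast_mod, Nat.cast_sub b.2.le, ZMod.natCast_self, zero_sub]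
      push_cast
      rw [hneg]
      ring
    obtain ⟨t, ht⟩ := h
    refine ⟨⟨T ^ t, Subgroup.zpow_mem _ (tGamma p).2 t⟩, ?_⟩
    rw [GalRep.gMat, coe_T_zpow, Option.map_some]
    ext i j
    fin_cases i <;> fin_cases j <;>
      simp [heckeRep, Period.jConjMat, Matrix.mul_apply, Fin.sum_univ_two]
    linear_combination ht

lemma tOp_involution {l : ℕ} (hg : GoodIndex p l) (χ : Hom0) : tOp p hg (J χ) = J (tOp p hg χ) := by
  have : NeZero l := ⟨hg.prime.ne_zero⟩
  choose ε hε using fun i : Option (Fin l) => jConjMat_heckeRep p i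
  let ν : Equiv.Perm (Option (Fin l)) := (Equiv.neg (Fin l)).optionCongr
  refine AddMonoidHom.ext fun x => ?_
  obtain ⟨γ, rfl⟩ := Additive.ofMul.surjective x
  simp only [tOp, AddMonoidHom.mk'_apply, Period.charInvolution_apply, toMul_ofMul,
    GalRep.transferHom_apply]
  rw [← Equiv.sum_comp ν (fun i => χ (Additive.ofMul (trCoef hg (Period.jConjGamma0 p γ) i)))]
  have key : ∀ i, trCoef hg (Period.jConjGamma0 p γ) (ν i)
      = (ε i)⁻¹ * Period.jConjGamma0 p (trCoef hg γ i) * ε (trIdx hg γ i) := by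
    intro i
    refine (GalRep.tr_unique hg (j := ν (trIdx hg γ i)) ?_).2
    have hcancel : ∀ (e : Gamma0 p) (X : Matrix (Fin 2) (Fin 2) ℤ),
        gMat e⁻¹ * (gMat e * X) = X := fun e X => by
      rw [← Matrix.mul_assoc, ← GalRep.gMat_mul, inv_mul_cancel, GalRep.gMat_one, one_mul]
    have hν : ∀ i, heckeRep l (ν i) = gMat (ε i)⁻¹ * Period.jConjMat (heckeRep l i) := fun i => by
      rw [hε i]; exact (hcancel _ _).symm
    rw [hν i, GalRep.gMat_mul, GalRep.gMat_mul, Matrix.mul_assoc, Matrix.mul_assoc,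
      Matrix.mul_assoc, show gMat (ε (trIdx hg γ i)) * heckeRep l (ν (trIdx hg γ i))
        = Period.jConjMat (heckeRep l (trIdx hg γ i)) from (hε _).symm,
      show gMat (Period.jConjGamma0 p γ) = Period.jConjMat (gMat γ) from rfl,
      show gMat (Period.jConjGamma0 p (trCoef hg γ i)) = Period.jConjMat (gMat (trCoef hg γ i))
        from rfl, ← Period.jConjMat_mul, ← Period.jConjMat_mul, trSpec hg γ i]
  simp only [key, ofMul_mul, ofMul_inv, map_add, map_neg, Finset.sum_add_distrib,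
    Finset.sum_neg_distrib]
  rw [show ∑ i, χ (Additive.ofMul (ε (trIdx hg γ i))) = ∑ i, χ (Additive.ofMul (ε i)) from
    Equiv.sum_comp (trPerm hg γ) (fun i => χ (Additive.ofMul (ε i)))]
  abel

lemma tendsto_smul_frickeGL (δ : SL(2, ℤ)) {F : ℍ → ℂ}
    {f : CuspForm (Gamma0 p) 2} (hF : HasEquivariantPrimitive p f F) :
    ∃ L : ℂ, Tendsto (fun w : ℍ => F (frickeGL p • (δ • w))) atImInfty (𝓝 L) := by
  have hp0 := NeZero.ne p
  have hmove : ∀ (γ : Gamma0 p) (z : ℍ), F (frickeGL p • ((γ : SL(2, ℤ)) • z))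
      = hF.2.2.1.period (frickeConjFun p γ) + F (frickeGL p • z) := by
    intro γ z
    have h := hF.2.2.1.sub_eq_period (frickeConjFun p γ) (frickeGL p • z)
    rw [show frickeGL p • ((γ : SL(2, ℤ)) • z)
        = (frickeConjFun p γ : SL(2, ℤ)) • (frickeGL p • z) by
      show frickeGL p • (((γ : SL(2, ℤ)) : GL (Fin 2) ℝ) • z) = _
      rw [← mul_smul, (frickeConjFun_spec p γ).1, mul_smul]; rfl]
    linear_combination h
  obtain ⟨L0, hL0⟩ := hF.2.2.2 S
  obtain ⟨i, hi⟩ := (cosetMap_bijective p).2 (Period.cosetOf p δ)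
  cases i with
  | none =>
    have hδ : δ ∈ Gamma0 p := by
      rw [cosetMap, baseCoset_eq, Period.cosetOf, Period.cosetOf, QuotientGroup.eq] at hi
      simpa using hi
    refine ⟨hF.2.2.1.period (frickeConjFun p ⟨δ, hδ⟩) + L0, ?_⟩
    simp only [fun w => hmove ⟨δ, hδ⟩ w]
    refine Tendsto.const_add _ ?_
    have h := hL0.comp (GalRep.tendsto_repGL_smul (ℓ := p) hp0 none)
    refine h.congr fun w => ?_
    simp only [Function.comp_apply, repGL, frickeGL_smul_eq, scaleGL_eq]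
  | some j =>
    have hδ : (stMat (j.val : ℤ) * δ⁻¹)⁻¹ ∈ Gamma0 p := (Gamma0 p).inv_mem (by
      rw [cosetMap, Period.cosetOf, Period.cosetOf, QuotientGroup.eq] at hi
      simpa using hi)
    have h2 : δ = (stMat (j.val : ℤ) * δ⁻¹)⁻¹ * stMat (j.val : ℤ) := by group
    refine ⟨hF.2.2.1.period (frickeConjFun p ⟨_, hδ⟩) + 0, ?_⟩
    have e : ∀ w : ℍ, F (frickeGL p • (δ • w)) = hF.2.2.1.period (frickeConjFun p ⟨_, hδ⟩)
        + F (heckeMatrix p 0 • ((T ^ (j.val : ℤ) : SL(2, ℤ)) • w)) := by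
      intro w
      conv_lhs => rw [h2, mul_smul]
      rw [hmove ⟨_, hδ⟩]
      congr 2
      rw [stMat, mul_smul]
      apply UpperHalfPlane.ext
      rw [coe_frickeGL_smul, coe_heckeMatrix_smul hp0, modular_S_smul]
      have hp0' : (p : ℂ) ≠ 0 := Nat.cast_ne_zero.mpr hp0
      have hw := ((T ^ (j.val : ℤ) : SL(2, ℤ)) • w : ℍ).ne_zero
      simp
      field_simp
    simp only [e]
    refine Tendsto.const_add _ ?_
    have hT : ((T ^ (j.val : ℤ) : SL(2, ℤ)) 1 0) = 0 := by rw [coe_T_zpow]; rfl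
    have h := hF.2.1.comp ((GalRep.tendsto_repGL_smul (ℓ := p) hp0
      (some ⟨0, Nat.pos_of_ne_zero hp0⟩)).comp (Period.tendsto_smul_atImInfty_of_upper hT))
    exact h.congr fun w => by simp only [Function.comp_apply, repGL]

/-- Periods intertwine `U_p` with `uOp`. -/
theorem periodMap_heckeULin (f : CuspForm (Gamma0 p) 2) :
    periodMap p (CuspForm.heckeULin 2 (dvd_refl p) f) = uOp p (periodMap p f) := by
  obtain ⟨F, hF⟩ := Period.exists_hasEquivariantPrimitive f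
  obtain ⟨L0, hL0⟩ := tendsto_smul_frickeGL p 1 hF
  simp only [one_smul] at hL0
  set G : ℍ → ℂ := fun z => -(F (frickeGL p • z) - L0) with hG
  have hf : (f : ℍ → ℂ) ∈ Period.modFun (Gamma0 p) 2 :=
    ⟨CuspFormClass.holo f, fun γ hγ => Period.slash_Gamma0 f hγ,
      fun δ => (CuspFormClass.zero_at_infty_slash f δ).boundedAtFilter⟩
  have hW : 0 < (frickeGL p).val.det := by
    rw [← Matrix.GeneralLinearGroup.val_det_apply]; exact det_frickeGL_pos p
  have hperiod : ∀ (γ : Gamma0 p) (z : ℍ), G ((γ : SL(2, ℤ)) • z) - G z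
      = -periodMap p f (Additive.ofMul (frickeConj p γ)) := by
    intro γ z
    rw [Period.periodMap_apply f hF _ (frickeGL p • z)]
    simp only [hG, frickeConj, MonoidHom.mk'_apply]
    rw [show frickeGL p • ((γ : SL(2, ℤ)) • z)
        = (frickeConjFun p γ : SL(2, ℤ)) • (frickeGL p • z) by
      show frickeGL p • (((γ : SL(2, ℤ)) : GL (Fin 2) ℝ) • z) = _
      rw [← mul_smul, (frickeConjFun_spec p γ).1, mul_smul]; rfl]
    ring
  have hGP : HasEquivariantPrimitive p (CuspForm.heckeULin 2 (dvd_refl p) f) G := by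
    refine ⟨fun τ => ?_, ?_, fun γ => ⟨_, hperiod γ⟩, fun δ => ?_⟩
    · have h := ((IsPrim.comp_GL hF.1 hW τ).sub_const L0).neg
      refine (h.congr_of_eventuallyEq (EventuallyEq.of_eq ?_)).congr_deriv ?_
      · funext z; rfl
      · rw [CuspForm.heckeULin_apply_apply, fricke_eq_neg_heckeU hf, Pi.neg_apply, neg_neg]
    · simpa [hG] using (hL0.sub_const L0).neg
    · obtain ⟨L, hL⟩ := tendsto_smul_frickeGL p δ hF
      exact ⟨-(L - L0), (hL.sub_const L0).neg⟩
  refine AddMonoidHom.ext fun x => ?_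
  obtain ⟨γ, rfl⟩ := Additive.ofMul.surjective x
  rw [Period.periodMap_apply _ hGP γ I, hperiod, uOp_apply]

theorem uOp_eisPeriod : uOp p (eisPeriod p) = eisPeriod p := by
  obtain ⟨K, hK⟩ := exists_eisPrim_fricke p
  refine AddMonoidHom.ext fun x => ?_
  obtain ⟨γ, rfl⟩ := Additive.ofMul.surjective x
  rw [uOp_apply, eisPeriod_apply p _ (frickeGL p • I), eisPeriod_apply p γ I]
  have h1 := hK ((γ : SL(2, ℤ)) • I)
  rw [show frickeGL p • ((γ : SL(2, ℤ)) • I) = (frickeConj p γ : SL(2, ℤ)) • (frickeGL p • I) by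
    show frickeGL p • (((γ : SL(2, ℤ)) : GL (Fin 2) ℝ) • I) = _
    rw [← mul_smul, (frickeConjFun_spec p γ).1, mul_smul]; rfl] at h1
  linear_combination -h1 + hK I

theorem tOp_eisPeriod {l : ℕ} (hg : GoodIndex p l) :
    tOp p hg (eisPeriod p) = (1 + (l : ℤ)) • eisPeriod p := by
  have hl := hg.prime.ne_zero
  have hlp : ¬ l ∣ p := hg.not_dvd
  have h1 : IsPrim (fun τ => ∑ i, eisPrim p (repGL l i • τ)) ((1 + (l : ℂ)) • eisFun p) := by
    intro τ
    have hsum := HasDerivAt.fun_sum (u := (Finset.univ : Finset (Option (Fin l))))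
      fun i _ => GalRep.hasDerivAt_comp_repGL hl (isPrim_eisPrim p) i τ
    have heq : ((fun τ => ∑ i, eisPrim p (repGL l i • τ)) ∘ ofComplex) =
        fun z => ∑ i, ((fun τ => eisPrim p (repGL l i • τ)) ∘ ofComplex) z := rfl
    rw [heq]
    refine hsum.congr_deriv ?_
    rw [← heckeT_eisFun p hg.prime hlp, heckeT_def, Pi.add_apply, Finset.sum_apply,
      Fintype.sum_option, add_comm]
    congr 1
    exact Fin.sum_univ_eq_sum_range (fun j => (eisFun p ∣[(2 : ℤ)] heckeMatrix l j) τ) l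
  have h2 : IsPrim (fun τ => (1 + (l : ℂ)) * eisPrim p τ) ((1 + (l : ℂ)) • eisFun p) :=
    fun τ => (IsPrim.const_mul (isPrim_eisPrim p) (1 + (l : ℂ))) τ
  obtain ⟨c, hc⟩ := h1.eq_add_const h2
  refine AddMonoidHom.ext fun x => ?_
  obtain ⟨γ, rfl⟩ := Additive.ofMul.surjective x
  simp only [tOp, AddMonoidHom.mk'_apply, GalRep.transferHom_apply, AddMonoidHom.smul_apply]
  have key : ∀ i, eisPeriod p (Additive.ofMul (trCoef hg γ i)) =
      eisPrim p (repGL l i • ((γ : SL(2, ℤ)) • I)) - eisPrim p (repGL l (trIdx hg γ i) • I) :=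
    fun i => by
      rw [GalRep.repGL_mul_eq hl (trSpec hg γ i) I,
        eisPeriod_apply p (trCoef hg γ i) (repGL l (trIdx hg γ i) • I)]
  simp only [key, Finset.sum_sub_distrib]
  rw [show ∑ i, eisPrim p (repGL l (trIdx hg γ i) • I) = ∑ i, eisPrim p (repGL l i • I) from
    Equiv.sum_comp (trPerm hg γ) (fun i => eisPrim p (repGL l i • I))]
  have e1 := hc ((γ : SL(2, ℤ)) • I)
  have e2 := hc I
  rw [e1, e2, eisPeriod_apply p γ I, zsmul_eq_mul]
  push_cast
  ring

/-- The image of a Hecke polynomial on cusp forms. -/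
abbrev actQ (Q : HeckeAlg) : Module.End ℂ (CuspForm (Gamma0 p) 2) :=
  ((CuspForm.heckeEvalForms p 2 Q : CuspForm.heckeAlgebra p 2 (∅ : Set ℕ)) :
    Module.End ℂ (CuspForm (Gamma0 p) 2))

/-- A Hecke polynomial is realised by an integral operator on homomorphisms. -/
def Transfers (Q : HeckeAlg) : Prop :=
  ∃ L : Hom0 →+ Hom0,
    (∀ f : CuspForm (Gamma0 p) 2, L (periodMap p f) = periodMap p (actQ p Q f)) ∧
    (∀ χ, L (J χ) = J (L χ)) ∧
    L (eisPeriod p) = MvPolynomial.aeval (eisensteinSystem p) Q • eisPeriod p ∧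
    (∀ χ : Hom0, (∀ γ, ∃ m : ℤ, χ (Additive.ofMul γ) = m) →
      ∀ γ, ∃ m : ℤ, L χ (Additive.ofMul γ) = m)

theorem transfers_X (l : Nat.Primes) : Transfers p (MvPolynomial.X l) := by
  have hX : actQ p (MvPolynomial.X l) = ((CuspForm.heckeFormsGen p 2 l :
      CuspForm.heckeAlgebra p 2 (∅ : Set ℕ)) : Module.End ℂ (CuspForm (Gamma0 p) 2)) :=
    congrArg Subtype.val (CuspForm.heckeEvalForms_heckeGen _ _ _)
  have hE : MvPolynomial.aeval (eisensteinSystem p) (MvPolynomial.X l : HeckeAlg)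
      = eisensteinSystem p l := MvPolynomial.aeval_X _ _
  by_cases h : (l : ℕ) ∣ p
  · have hlp : (l : ℕ) = p := (Nat.prime_dvd_prime_iff_eq l.2 Fact.out).mp h
    refine ⟨uOp p, fun f => ?_, uOp_involution p, ?_, fun χ hχ γ => ?_⟩
    · rw [hX, CuspForm.heckeFormsGen_of_dvd (q := l) h, CuspForm.heckeAlgebra.coe_U]
      convert (periodMap_heckeULin p f).symm
    · rw [uOp_eisPeriod, hE, eisensteinSystem_of_dvd (ℓ := l) h, one_smul]
    · obtain ⟨m, hm⟩ := hχ (frickeConj p γ)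
      exact ⟨-m, by rw [uOp_apply, hm]; push_cast; rfl⟩
  · refine ⟨tOp p ⟨l.2, h⟩, fun f => ?_, tOp_involution p ⟨l.2, h⟩, ?_, fun χ hχ γ => ?_⟩
    · rw [hX, CuspForm.heckeFormsGen_of_not_dvd (ℓ := l) h, CuspForm.heckeAlgebra.coe_T]
      exact (GalRep.periodMap_heckeTLin ⟨l.2, h⟩ f).symm
    · rw [tOp_eisPeriod, hE, eisensteinSystem_of_not_dvd (ℓ := l) h]
    · choose m hm using fun i => hχ (trCoef ⟨l.2, h⟩ γ i)
      refine ⟨∑ i, m i, ?_⟩
      show transferHom _ χ (Additive.ofMul γ) = _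
      rw [GalRep.transferHom_apply, Int.cast_sum]
      exact Finset.sum_congr rfl fun i _ => hm i

theorem transfers_all (Q : HeckeAlg) : Transfers p Q := by
  obtain ⟨pml, hpml⟩ := Period.existsPeriodMapLinear p
  induction Q using MvPolynomial.induction_on with
  | C a =>
    refine ⟨a • AddMonoidHom.id Hom0, fun f => ?_, fun χ => ?_, ?_, fun χ hχ γ => ?_⟩
    · have : actQ p (MvPolynomial.C a) f = a • f := by
        rw [actQ, CuspForm.heckeEvalForms_C]
        simp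
      rw [this, ← hpml, ← hpml, map_zsmul]
      rfl
    · simp
    · rw [MvPolynomial.aeval_C]; simp
    · obtain ⟨m, hm⟩ := hχ γ
      exact ⟨a * m, by simp [hm]⟩
  | add Q R hQ hR =>
    obtain ⟨L, a1, a2, a3, a4⟩ := hQ
    obtain ⟨L', b1, b2, b3, b4⟩ := hR
    refine ⟨L + L', fun f => ?_, fun χ => ?_, ?_, fun χ hχ γ => ?_⟩
    · rw [AddMonoidHom.add_apply, a1, b1, ← hpml, ← hpml, ← hpml, ← map_add]
      congr 1
      simp [actQ, map_add, Subalgebra.coe_add, LinearMap.add_apply]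
    · simp [a2, b2]
    · rw [AddMonoidHom.add_apply, a3, b3, map_add, add_smul]
    · obtain ⟨m, hm⟩ := a4 χ hχ γ
      obtain ⟨m', hm'⟩ := b4 χ hχ γ
      exact ⟨m + m', by simp [hm, hm']⟩
  | mul_X Q l hQ =>
    obtain ⟨L, a1, a2, a3, a4⟩ := hQ
    obtain ⟨L', b1, b2, b3, b4⟩ := transfers_X p l
    refine ⟨L.comp L', fun f => ?_, fun χ => ?_, ?_, fun χ hχ γ => a4 _ (b4 χ hχ) γ⟩
    · rw [AddMonoidHom.comp_apply, b1, a1]
      simp [actQ, map_mul, Module.End.mul_apply]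
    · simp [a2, b2]
    · rw [AddMonoidHom.comp_apply, b3, map_zsmul, a3, map_mul, smul_smul, mul_comm]

/-- A Hecke polynomial killing the cusp forms has Eisenstein value divisible by the numerator. -/
theorem eisensteinNumerator_dvd_of_kills (Q : HeckeAlg) (hQ : actQ p Q = 0) :
    (eisensteinNumerator p : ℤ) ∣ MvPolynomial.aeval (eisensteinSystem p) Q := by
  set e := MvPolynomial.aeval (eisensteinSystem p) Q with he
  obtain ⟨L, hL1, hL2, hL3, hL4⟩ := transfers_all p Q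
  obtain ⟨κ, hκT, hκ⟩ := exists_kappa p
  have hp := (Fact.out : p.Prime)
  obtain ⟨pml, hpml, hpair⟩ := periodHomPair_def p (Period.existsPeriodMapLinear p)
  set ψ : Hom0 := eisPeriod p - ((p - 1 : ℕ) : ℤ) • κ with hψ
  have hψT : ψ (Additive.ofMul (tGamma p)) = 0 := by
    simp [hψ, eisPeriod_T, hκT, Nat.cast_sub hp.one_le]
  have hmem := mem_parabolicHoms_of_T p hψT
  rw [← Period.range_periodHomPair] at hmem
  obtain ⟨⟨f, g⟩, hfg⟩ := hmem
  have hkill : ∀ f : CuspForm (Gamma0 p) 2, L (pml f) = 0 := fun f => by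
    rw [hpml, hL1, hQ, LinearMap.zero_apply, ← hpml, map_zero]
  have hLψ : L ψ = 0 := by
    rw [← hfg, hpair]
    simp only [LinearMap.coprod_apply, LinearMap.coe_comp, Function.comp_apply,
      LinearMap.add_apply, LinearMap.sub_apply, LinearMap.id_apply, map_add, map_sub, hL2, hkill,
      map_zero, sub_self, add_zero]
  choose φ hφ using eisPeriod_int p
  have hdiv : ∀ γ, ((p - 1 : ℕ) : ℤ) ∣ e * φ γ := by
    intro γ
    obtain ⟨m, hm⟩ := hL4 κ hκ γ
    refine ⟨m, ?_⟩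
    have h := DFunLike.congr_fun hLψ (Additive.ofMul γ)
    rw [hψ, map_sub, map_zsmul, hL3] at h
    simp only [AddMonoidHom.sub_apply, AddMonoidHom.smul_apply, AddMonoidHom.zero_apply, hm, hφ,
      zsmul_eq_mul, sub_eq_zero] at h
    exact_mod_cast h
  set d := (p - 1) / Int.gcd ((p - 1 : ℕ) : ℤ) e with hd
  have hp1 : 0 < p - 1 := Nat.sub_pos_of_lt hp.one_lt
  set G := Int.gcd ((p - 1 : ℕ) : ℤ) e with hG
  have hG0 : 0 < G := Int.gcd_pos_of_ne_zero_left _ (by exact_mod_cast hp1.ne')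
  have hGdvd : G ∣ p - 1 := by exact_mod_cast Int.gcd_dvd_left ((p - 1 : ℕ) : ℤ) e
  have hdG : d * G = p - 1 := Nat.div_mul_cancel hGdvd
  have hd12 : d ∣ 12 := by
    refine dvd_twelve_of_dvd_periods p ⟨G, hdG.symm⟩ fun γ => ?_
    obtain ⟨e', he'⟩ := Int.gcd_dvd_right ((p - 1 : ℕ) : ℤ) e
    rw [← hG] at he'
    have hco : IsCoprime (d : ℤ) e' := by
      rw [Int.isCoprime_iff_gcd_eq_one]
      have h := hG
      rw [← hdG, he', mul_comm d G] at h
      push_cast at h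
      rw [Int.gcd_mul_left, Int.natAbs_natCast] at h
      exact (mul_right_eq_self₀.mp h.symm).resolve_right hG0.ne'
    have h := hdiv γ
    rw [← hdG, he', mul_comm d G] at h
    push_cast at h
    rw [mul_assoc] at h
    obtain ⟨m, hm⟩ := hco.dvd_of_dvd_mul_left
      (Int.dvd_of_mul_dvd_mul_left (Int.natCast_ne_zero.mpr hG0.ne') h)
    exact ⟨m, by rw [hφ γ, hm]; push_cast; rfl⟩
  set g12 := Nat.gcd (p - 1) 12 with hg
  have hdg : d ∣ g12 := Nat.dvd_gcd ⟨G, hdG.symm⟩ hd12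
  obtain ⟨k, hk⟩ := hdg
  have hn : eisensteinNumerator p * g12 = p - 1 := Nat.div_mul_cancel (Nat.gcd_dvd_left _ _)
  have hd0 : d ≠ 0 := by rintro h0; rw [h0, zero_mul] at hdG; omega
  have hdvd : eisensteinNumerator p ∣ G := by
    refine ⟨k, Nat.eq_of_mul_eq_mul_left (Nat.pos_of_ne_zero hd0) ?_⟩
    rw [hdG, ← hn, hk]; ring
  exact (Int.natCast_dvd_natCast.mpr hdvd).trans (Int.gcd_dvd_right _ _)

end Fermat.Agent.Eisenstein
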